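import Mathlib

/-!
Automorphisms of algebraically closed fields moving transcendental elements.
-/

set_option autoImplicit false

noncomputable section

namespace Fermat.Agent.AnJac

section

variable {R K : Type*} [Field R] [Field K] [Algebra R K] [IsAlgClosed K]

theorem exists_aut_add_one {x : K} (hx : Transcendental R x) :
    ∃ σ : K ≃ₐ[R] K, σ x = x + 1 := by
  classical
  have h1 : AlgebraicIndepOn R id ({x} : Set K) := by
    have := (algebraicIndependent_unique_type_iff (R := R) (ι := ({x} : Set K))
      (x := fun i : ({x} : Set K) => (i : K))).mpr (by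
        have : ((default : ({x} : Set K)) : K) = x := rfl
        rw [this]; exact hx)
    exact this
  obtain ⟨t, hst, ht⟩ := exists_isTranscendenceBasis_superset h1
  have hxt : x ∈ t := hst rfl
  set i₀ : t := ⟨x, hxt⟩ with hi₀
  let f : MvPolynomial t R →ₐ[R] MvPolynomial t R :=
    MvPolynomial.aeval fun i => MvPolynomial.X i + if i = i₀ then 1 else 0
  let g : MvPolynomial t R →ₐ[R] MvPolynomial t R :=
    MvPolynomial.aeval fun i => MvPolynomial.X i - if i = i₀ then 1 else 0
  let e₀ : MvPolynomial t R ≃ₐ[R] MvPolynomial t R := AlgEquiv.ofAlgHom f g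
    (by
      ext1 i
      simp only [f, g, AlgHom.comp_apply, MvPolynomial.aeval_X, map_sub, AlgHom.id_apply]
      split_ifs <;> simp) (by
      ext1 i
      simp only [f, g, AlgHom.comp_apply, MvPolynomial.aeval_X, map_add, AlgHom.id_apply]
      split_ifs <;> simp)
  let := IsAlgClosed.isAlgClosure_of_transcendence_basis ((↑) : t → K) ht
  let e₁ : Algebra.adjoin R (Set.range ((↑) : t → K)) ≃ₐ[R]
      Algebra.adjoin R (Set.range ((↑) : t → K)) :=
    (ht.1.aevalEquiv.symm.trans e₀).trans ht.1.aevalEquiv
  let e : Algebra.adjoin R (Set.range ((↑) : t → K)) ≃+* Algebra.adjoin R (Set.range ((↑) : t → K)) :=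
    e₁.toRingEquiv
  have hR : ∀ r : R, IsAlgClosure.equivOfEquiv K K e (algebraMap R K r) = algebraMap R K r := by
    intro r
    have h5 : algebraMap R K r = algebraMap (Algebra.adjoin R (Set.range ((↑) : t → K))) K
        (algebraMap R _ r) := rfl
    have h6 : e (algebraMap R _ r) = algebraMap R _ r := e₁.commutes r
    conv_lhs => rw [h5, IsAlgClosure.equivOfEquiv_algebraMap, h6]
    rfl
  refine ⟨AlgEquiv.ofRingEquiv (f := IsAlgClosure.equivOfEquiv K K e) hR, ?_⟩
  change IsAlgClosure.equivOfEquiv K K e x = x + 1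
  have h2 : x = algebraMap (Algebra.adjoin R (Set.range ((↑) : t → K))) K
      (ht.1.aevalEquiv (MvPolynomial.X i₀)) := by
    rw [AlgebraicIndependent.algebraMap_aevalEquiv, MvPolynomial.aeval_X]
  have h3 : e (ht.1.aevalEquiv (MvPolynomial.X i₀)) =
      ht.1.aevalEquiv (MvPolynomial.X i₀ + 1) := by
    change ht.1.aevalEquiv (e₀ (ht.1.aevalEquiv.symm (ht.1.aevalEquiv (MvPolynomial.X i₀)))) = _
    rw [AlgEquiv.symm_apply_apply]
    congr 1
    change f (MvPolynomial.X i₀) = _
    simp [f]
  conv_lhs => rw [h2]
  rw [IsAlgClosure.equivOfEquiv_algebraMap, h3, AlgebraicIndependent.algebraMap_aevalEquiv,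
    map_add, MvPolynomial.aeval_X, map_one]

/-- elements with finite orbit are algebraic -/
theorem isAlgebraic_of_finite_orbit [CharZero K] {x : K}
    (h : (Set.range fun σ : K ≃ₐ[R] K => σ x).Finite) : IsAlgebraic R x := by
  by_contra hx
  obtain ⟨σ, hσ⟩ := exists_aut_add_one (R := R) (K := K) hx
  have h1 : ∀ n : ℕ, (σ ^ n : K ≃ₐ[R] K) x = x + n := by
    intro n
    induction n with
    | zero => simp
    | succ n ih =>
      rw [pow_succ']
      change σ ((σ ^ n : K ≃ₐ[R] K) x) = _
      rw [ih, map_add, hσ, map_natCast]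
      push_cast; ring
  have h2 : (Set.range fun n : ℕ => x + (n : K)).Finite := by
    refine h.subset ?_
    rintro _ ⟨n, rfl⟩
    exact ⟨σ ^ n, h1 n⟩
  have h3 : Function.Injective fun n : ℕ => x + (n : K) := by
    intro a b hab
    exact_mod_cast add_left_cancel hab
  exact Set.infinite_range_of_injective h3 h2

end

/-- algebraic elements over an algebraically closed subfield -/
theorem exists_algebraMap_eq {k K : Type*} [Field k] [IsAlgClosed k] [Field K] [Algebra k K] {x : K}
    (hx : IsAlgebraic k x) : ∃ y : k, algebraMap k K y = x := by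
  have hi := hx.isIntegral
  have h1 := IsAlgClosed.degree_eq_one_of_irreducible k (minpoly.irreducible hi)
  exact minpoly.mem_range_of_degree_eq_one k x h1

end Fermat.Agent.AnJac
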