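import Fermat.Agent.AnJac.Spot
import Fermat.Agent.DimS2.Gen
import Fermat.Agent.ModFun.LevelOne

/-!
Functions of moderate growth, Laurent series of periodic functions, spots at points and cusps.
-/

set_option autoImplicit false
set_option linter.unusedSectionVars false

open UpperHalfPlane ModularForm MatrixGroups Matrix.SpecialLinearGroup Filter Function
open scoped Manifold Topology Real

noncomputable section

namespace Fermat.Agent.AnJac

open Fermat.Agent.DimS2 Fermat.Agent.ModFun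

local notation "𝕢" => Function.Periodic.qParam

/-! ### moderate growth -/

/-- moderate growth at infinity -/
def MG (f : ℍ → ℂ) : Prop :=
  ∃ m : ℕ, f =O[atImInfty] fun τ : ℍ => Real.exp (2 * π * m * τ.im)

lemma exp_isBigO {a b : ℝ} (hab : a ≤ b) :
    (fun τ : ℍ => Real.exp (2 * π * a * τ.im)) =O[atImInfty] fun τ : ℍ =>
      Real.exp (2 * π * b * τ.im) := by
  refine Asymptotics.IsBigO.of_bound 1 (Eventually.of_forall fun τ => ?_)
  rw [one_mul, Real.norm_eq_abs, Real.norm_eq_abs, Real.abs_exp, Real.abs_exp]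
  apply Real.exp_le_exp.mpr
  have := τ.im_pos
  have := Real.pi_pos
  gcongr

lemma MG.mono {f : ℍ → ℂ} {m m' : ℕ} (h : m ≤ m')
    (hf : f =O[atImInfty] fun τ : ℍ => Real.exp (2 * π * m * τ.im)) :
    f =O[atImInfty] fun τ : ℍ => Real.exp (2 * π * m' * τ.im) :=
  hf.trans (exp_isBigO (by exact_mod_cast h))

lemma MG.add {f g : ℍ → ℂ} (hf : MG f) (hg : MG g) : MG (f + g) := by
  obtain ⟨m, hm⟩ := hf
  obtain ⟨m', hm'⟩ := hg
  exact ⟨max m m', (MG.mono (le_max_left _ _) hm).add (MG.mono (le_max_right _ _) hm')⟩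

lemma MG.mul {f g : ℍ → ℂ} (hf : MG f) (hg : MG g) : MG (f * g) := by
  obtain ⟨m, hm⟩ := hf
  obtain ⟨m', hm'⟩ := hg
  refine ⟨m + m', (hm.mul hm').congr_right fun τ => ?_⟩
  rw [← Real.exp_add]
  congr 1
  push_cast; ring

lemma MG.of_bdd {f : ℍ → ℂ} (hf : IsBoundedAtImInfty f) : MG f := by
  refine ⟨0, ?_⟩
  have : (fun τ : ℍ => Real.exp (2 * π * (0 : ℕ) * τ.im)) = 1 := by
    funext τ; simp
  rw [this]
  exact hf

lemma mg_const (c : ℂ) : MG (fun _ => c) := MG.of_bdd (const_boundedAtFilter _ _)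

lemma MG.const_mul {f : ℍ → ℂ} (c : ℂ) (hf : MG f) : MG (fun τ => c * f τ) := (mg_const c).mul hf

lemma MG.congr {f g : ℍ → ℂ} (hf : MG f) (h : ∀ τ, f τ = g τ) : MG g := by
  have : f = g := funext h
  exact this ▸ hf

lemma MG.of_pow {f : ℍ → ℂ} {n : ℕ} (hn : n ≠ 0) (hf : MG (f ^ n)) : MG f := by
  obtain ⟨m, hm⟩ := hf
  obtain ⟨C, hC⟩ := hm.bound
  refine ⟨m, Asymptotics.IsBigO.of_bound (max C 1) ?_⟩
  filter_upwards [hC] with τ hτ
  rw [Pi.pow_apply, norm_pow] at hτ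
  have he : 1 ≤ ‖Real.exp (2 * π * m * τ.im)‖ := by
    rw [Real.norm_eq_abs, Real.abs_exp]
    apply Real.one_le_exp
    have := τ.im_pos
    have := Real.pi_pos
    positivity
  have h1 : 1 ≤ max C 1 * ‖Real.exp (2 * π * m * τ.im)‖ := by
    have := le_max_right C 1
    nlinarith
  refine le_of_pow_le_pow_left₀ hn (by positivity) ?_
  calc ‖f τ‖ ^ n ≤ C * ‖Real.exp (2 * π * m * τ.im)‖ := hτ
    _ ≤ max C 1 * ‖Real.exp (2 * π * m * τ.im)‖ := by
        gcongr
        exact le_max_left _ _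
    _ ≤ (max C 1 * ‖Real.exp (2 * π * m * τ.im)‖) ^ n := le_self_pow₀ h1 hn

/-- the discriminant clears denominators -/
lemma MG.bdd_mul_disc {f : ℍ → ℂ} {m : ℕ}
    (hf : f =O[atImInfty] fun τ : ℍ => Real.exp (2 * π * m * τ.im)) :
    IsBoundedAtImInfty (fun τ => f τ * discriminant τ ^ m) := by
  have h1 : (fun τ : ℍ => discriminant τ ^ m) =O[atImInfty]
      fun τ : ℍ => (Real.exp (-2 * π * τ.im)) ^ m := disc_isBigO.pow m
  refine (hf.mul h1).congr_right fun τ => ?_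
  rw [← Real.exp_nat_mul, ← Real.exp_add]
  simp only [Pi.one_apply]
  rw [Real.exp_eq_one_iff]
  ring

lemma disc_mdiff : MDiff discriminant := disc_isL1.holo

lemma mdiff_pow {f : ℍ → ℂ} (hf : MDiff f) (n : ℕ) : MDiff (f ^ n) := by
  induction n with
  | zero => rw [pow_zero]; exact mdifferentiable_const
  | succ n ih => rw [pow_succ]; exact ih.mul hf

/-! ### Laurent series and functions -/

/-- the function attached to a Laurent series -/
def ef (F : LaurentSeries ℂ) (τ : ℍ) : ℂ := evf F (𝕢 1 τ)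

lemma ef_eq {F : LaurentSeries ℂ} (hF : F ∈ convLaurent) (τ : ℍ) : ef F τ = evq τ ⟨F, hF⟩ := rfl

lemma ef_mul {F G : LaurentSeries ℂ} (hF : F ∈ convLaurent) (hG : G ∈ convLaurent) :
    ef (F * G) = ef F * ef G := by
  ext τ
  exact evf_mul (pdisc_q τ).ne_zero (hF _ (pdisc_q τ)) (hG _ (pdisc_q τ))

lemma ef_add {F G : LaurentSeries ℂ} (hF : F ∈ convLaurent) (hG : G ∈ convLaurent) :
    ef (F + G) = ef F + ef G := by
  ext τ
  exact map_add (evq τ) ⟨F, hF⟩ ⟨G, hG⟩

lemma ef_sub {F G : LaurentSeries ℂ} (hF : F ∈ convLaurent) (hG : G ∈ convLaurent) :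
    ef (F - G) = ef F - ef G := by
  ext τ
  exact map_sub (evq τ) ⟨F, hF⟩ ⟨G, hG⟩

lemma ef_pow {F : LaurentSeries ℂ} (hF : F ∈ convLaurent) (n : ℕ) : ef (F ^ n) = ef F ^ n := by
  ext τ
  exact map_pow (evq τ) ⟨F, hF⟩ n

lemma ef_zero : ef 0 = 0 := by
  ext τ
  exact map_zero (evq τ)

lemma ef_one : ef 1 = 1 := by
  ext τ
  exact map_one (evq τ)

lemma C_mem (c : ℂ) : HahnSeries.C c ∈ convLaurent := single_mem_convLaurent 0 c

lemma ef_C (c : ℂ) : ef (HahnSeries.C c) = fun _ => c := by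
  ext τ
  rw [ef, HahnSeries.C_apply, evf_single, zpow_zero, mul_one]

lemma exists_repr {F : LaurentSeries ℂ} (hF : F ∈ convLaurent) : ∃ (m : ℕ) (G : PowerSeries ℂ),
    PConv G ∧ F = HahnSeries.single (-(m : ℤ)) 1 * HahnSeries.ofPowerSeries ℤ ℂ G := by
  obtain ⟨m, G, h⟩ := exists_shift F
  refine ⟨m, G, ?_, h⟩
  apply PConv.of_mem_convLaurent
  have : HahnSeries.ofPowerSeries ℤ ℂ G = HahnSeries.single (m : ℤ) 1 * F := by
    rw [h, ← mul_assoc, HahnSeries.single_mul_single]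
    simp
  rw [this]
  exact convLaurent.mul_mem (single_mem_convLaurent _ _) hF

lemma ef_repr {m : ℕ} {G : PowerSeries ℂ} (hG : PConv G) (τ : ℍ) :
    ef (HahnSeries.single (-(m : ℤ)) 1 * HahnSeries.ofPowerSeries ℤ ℂ G) τ =
      (𝕢 1 τ) ^ (-(m : ℤ)) * pev G (𝕢 1 τ) := by
  rw [ef_mul (single_mem_convLaurent _ _) hG.mem_convLaurent]
  simp only [Pi.mul_apply, ef]
  rw [evf_single, evf_ofPowerSeries, one_mul]
  rfl

lemma ef_injective {F : LaurentSeries ℂ} (hF : F ∈ convLaurent) (h : ef F = 0) : F = 0 := by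
  obtain ⟨m, G, hG, rfl⟩ := exists_repr hF
  have h1 : G = 0 := by
    refine hG.eq_zero fun τ => ?_
    have h2 := congrFun h τ
    rw [ef_repr hG, Pi.zero_apply] at h2
    exact (mul_eq_zero.mp h2).resolve_left (zpow_ne_zero _ (Periodic.qParam_ne_zero _))
  rw [h1, map_zero, mul_zero]

lemma ef_inj {F G : LaurentSeries ℂ} (hF : F ∈ convLaurent) (hG : G ∈ convLaurent)
    (h : ef F = ef G) : F = G := by
  rw [← sub_eq_zero]
  refine ef_injective (convLaurent.sub_mem hF hG) ?_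
  rw [ef_sub hF hG, h, sub_self]

lemma mdiff_qParam (m : ℤ) : MDiff (fun τ : ℍ => (𝕢 1 τ) ^ m) := by
  rw [mdifferentiable_iff]
  have h1 : DifferentiableOn ℂ (fun w : ℂ => (𝕢 1 w) ^ m) {z : ℂ | 0 < z.im} :=
    (Periodic.differentiable_qParam.differentiableOn).zpow
      (Or.inl fun w _ => Periodic.qParam_ne_zero w)
  refine h1.congr fun w hw => ?_
  simp only [comp_apply]
  rw [ofComplex_apply_of_im_pos hw]

lemma ef_mdiff {F : LaurentSeries ℂ} (hF : F ∈ convLaurent) : MDiff (ef F) := by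
  obtain ⟨m, G, hG, rfl⟩ := exists_repr hF
  have h1 : ef (HahnSeries.single (-(m : ℤ)) 1 * HahnSeries.ofPowerSeries ℤ ℂ G) =
      (fun τ : ℍ => (𝕢 1 τ) ^ (-(m : ℤ))) * fun τ : ℍ => pev G (𝕢 1 τ) := by
    ext τ; exact ef_repr hG τ
  rw [h1]
  exact (mdiff_qParam _).mul (mdiff_pev hG)

lemma ef_T {F : LaurentSeries ℂ} (τ : ℍ) : ef F (ModularGroup.T • τ) = ef F τ := by
  unfold ef
  rw [q_T]

lemma norm_qParam_eq {h : ℝ} (τ : ℍ) : ‖𝕢 h τ‖ = Real.exp (-2 * π * τ.im / h) :=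
  Periodic.norm_qParam h τ

lemma ef_mg {F : LaurentSeries ℂ} (hF : F ∈ convLaurent) : MG (ef F) := by
  obtain ⟨m, G, hG, rfl⟩ := exists_repr hF
  refine ⟨m, ?_⟩
  have h1 : ef (HahnSeries.single (-(m : ℤ)) 1 * HahnSeries.ofPowerSeries ℤ ℂ G) =
      fun τ : ℍ => (𝕢 1 τ) ^ (-(m : ℤ)) * pev G (𝕢 1 τ) := by
    ext τ; exact ef_repr hG τ
  rw [h1]
  have h2 : (fun τ : ℍ => (𝕢 1 τ) ^ (-(m : ℤ))) =O[atImInfty]
      fun τ : ℍ => Real.exp (2 * π * m * τ.im) := by
    refine Asymptotics.IsBigO.of_bound 1 (Eventually.of_forall fun τ => ?_)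
    rw [one_mul, norm_zpow, norm_qParam_eq, Real.norm_eq_abs, Real.abs_exp, _root_.zpow_neg,
      zpow_natCast, ← Real.exp_nat_mul, ← Real.exp_neg]
    apply le_of_eq
    congr 1
    ring
  have h3 : (fun τ : ℍ => pev G (𝕢 1 τ)) =O[atImInfty] fun _ : ℍ => (1 : ℝ) := by
    have h4 : ContinuousAt (pev G) 0 :=
      (differentiableOn_pev hG).continuousOn.continuousAt (Metric.ball_mem_nhds _ one_pos)
    have h5 : Tendsto (fun τ : ℍ => pev G (𝕢 1 τ)) atImInfty (𝓝 (pev G 0)) :=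
      h4.tendsto.comp (qParam_tendsto_atImInfty one_pos)
    exact h5.isBigO_one ℝ
  exact (h2.mul h3).congr_right fun τ => mul_one _

/-- every periodic holomorphic function of moderate growth comes from a Laurent series -/
theorem exists_ef {f : ℍ → ℂ} (h1 : MDiff f) (h2 : ∀ τ, f (ModularGroup.T • τ) = f τ) (h3 : MG f) :
    ∃ F ∈ convLaurent, ef F = f := by
  obtain ⟨m, hm⟩ := h3
  have hper : Per 1 (f * discriminant ^ m) := by
    refine ⟨?_, h1.mul (mdiff_pow disc_mdiff m), ?_⟩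
    · refine periodic_of_vadd fun τ => ?_
      have e : ((1 : ℝ) +ᵥ τ) = ModularGroup.T • τ := (modular_T_smul τ).symm
      have hL : discriminant (ModularGroup.T • τ) = discriminant τ := by
        have hL := disc_isL1.apply_smul ModularGroup.T τ
        have hd : denom (ModularGroup.T : GL (Fin 2) ℝ) τ = 1 := by
          rw [ModularGroup.denom_apply]
          simp [ModularGroup.T]
        rw [hd, _root_.one_zpow, one_mul] at hL
        exact hL
      rw [e]
      change f (ModularGroup.T • τ) * discriminant (ModularGroup.T • τ) ^ m =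
        f τ * discriminant τ ^ m
      rw [h2, hL]
    · exact MG.bdd_mul_disc hm
  have hP : PConv (qExpansion 1 (f * discriminant ^ m)) := by
    apply pconv_of_tau
    intro τ
    have := (hper.hasSum one_pos τ).summable
    simpa [smul_eq_mul] using this
  refine ⟨HahnSeries.ofPowerSeries ℤ ℂ (qExpansion 1 (f * discriminant ^ m)) * DeltaInvSer ℂ ^ m,
    convLaurent.mul_mem hP.mem_convLaurent (convLaurent.pow_mem DeltaInvSer_mem _), ?_⟩
  rw [ef_mul hP.mem_convLaurent (convLaurent.pow_mem DeltaInvSer_mem _), ef_pow DeltaInvSer_mem]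
  ext τ
  simp only [Pi.mul_apply, Pi.pow_apply, ef]
  rw [evf_DeltaInvSer, evf_ofPowerSeries]
  have h4 : ∑' n : ℕ, PowerSeries.coeff n (qExpansion 1 (f * discriminant ^ m)) * 𝕢 1 τ ^ n =
      f τ * discriminant τ ^ m := by
    have := (hper.hasSum one_pos τ).tsum_eq
    simpa [smul_eq_mul] using this
  rw [h4, mul_assoc, ← mul_pow, mul_inv_cancel₀ (discriminant_ne_zero τ), one_pow, mul_one]

open Classical in
/-- Laurent series of a function -/
def lser (f : ℍ → ℂ) : LaurentSeries ℂ := if h : ∃ F ∈ convLaurent, ef F = f then h.choose else 0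

/-- functions having a Laurent series -/
structure IsP (f : ℍ → ℂ) : Prop where
  mdiff : MDiff f
  per : ∀ τ, f (ModularGroup.T • τ) = f τ
  mg : MG f

lemma IsP.exists {f : ℍ → ℂ} (h : IsP f) : ∃ F ∈ convLaurent, ef F = f :=
  exists_ef h.mdiff h.per h.mg

lemma IsP.lser_mem {f : ℍ → ℂ} (h : IsP f) : lser f ∈ convLaurent := by
  unfold lser
  rw [dif_pos h.exists]
  exact h.exists.choose_spec.1

lemma IsP.ef_lser {f : ℍ → ℂ} (h : IsP f) : ef (lser f) = f := by
  unfold lser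
  rw [dif_pos h.exists]
  exact h.exists.choose_spec.2

lemma isP_ef {F : LaurentSeries ℂ} (hF : F ∈ convLaurent) : IsP (ef F) :=
  ⟨ef_mdiff hF, ef_T, ef_mg hF⟩

lemma lser_ef {F : LaurentSeries ℂ} (hF : F ∈ convLaurent) : lser (ef F) = F :=
  ef_inj (isP_ef hF).lser_mem hF (isP_ef hF).ef_lser

lemma IsP.mul {f g : ℍ → ℂ} (hf : IsP f) (hg : IsP g) : IsP (f * g) :=
  ⟨hf.mdiff.mul hg.mdiff, fun τ => by rw [Pi.mul_apply, hf.per, hg.per]; rfl, hf.mg.mul hg.mg⟩

lemma IsP.add {f g : ℍ → ℂ} (hf : IsP f) (hg : IsP g) : IsP (f + g) :=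
  ⟨hf.mdiff.add hg.mdiff, fun τ => by rw [Pi.add_apply, hf.per, hg.per]; rfl, hf.mg.add hg.mg⟩

lemma isP_const (c : ℂ) : IsP (fun _ => c) := ⟨mdifferentiable_const, fun _ => rfl, mg_const c⟩

lemma IsP.pow {f : ℍ → ℂ} (hf : IsP f) (n : ℕ) : IsP (f ^ n) := by
  induction n with
  | zero => rw [pow_zero]; exact isP_const 1
  | succ n ih => rw [pow_succ]; exact ih.mul hf

lemma lser_mul {f g : ℍ → ℂ} (hf : IsP f) (hg : IsP g) : lser (f * g) = lser f * lser g := by
  refine ef_inj (hf.mul hg).lser_mem (convLaurent.mul_mem hf.lser_mem hg.lser_mem) ?_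
  rw [(hf.mul hg).ef_lser, ef_mul hf.lser_mem hg.lser_mem, hf.ef_lser, hg.ef_lser]

lemma lser_add {f g : ℍ → ℂ} (hf : IsP f) (hg : IsP g) : lser (f + g) = lser f + lser g := by
  refine ef_inj (hf.add hg).lser_mem (convLaurent.add_mem hf.lser_mem hg.lser_mem) ?_
  rw [(hf.add hg).ef_lser, ef_add hf.lser_mem hg.lser_mem, hf.ef_lser, hg.ef_lser]

lemma lser_const (c : ℂ) : lser (fun _ => c) = HahnSeries.C c := by
  rw [← ef_C, lser_ef (C_mem c)]

lemma lser_one : lser 1 = 1 := by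
  rw [← ef_one, lser_ef convLaurent.one_mem]

lemma lser_pow {f : ℍ → ℂ} (hf : IsP f) (n : ℕ) : lser (f ^ n) = lser f ^ n := by
  induction n with
  | zero => rw [pow_zero, pow_zero, lser_one]
  | succ n ih => rw [pow_succ, pow_succ, lser_mul (hf.pow n) hf, ih]

lemma lser_eq_zero_iff {f : ℍ → ℂ} (hf : IsP f) : lser f = 0 ↔ f = 0 := by
  constructor
  · intro h
    rw [← hf.ef_lser, h, ef_zero]
  · rintro rfl
    have := lser_const 0
    rw [map_zero] at this
    exact this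

lemma lser_inj {f g : ℍ → ℂ} (hf : IsP f) (hg : IsP g) (h : lser f = lser g) : f = g := by
  rw [← hf.ef_lser, ← hg.ef_lser, h]

end Fermat.Agent.AnJac
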