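import Fermat.Agent.GenusX0.Places
import Fermat.Agent.Curves.Affine
import Fermat.Agent.ModFun.BaseChange

/-!
Canonical representatives of classes of functions modulo `n`-th powers, and the action of field
automorphisms on coefficients.
-/

set_option autoImplicit false
set_option linter.unusedSectionVars false

noncomputable section

namespace Fermat.Agent.AnJac

open ModularCurve AlgebraicCurve IntermediateField Fermat.Agent.GenusX0 Fermat.Agent.ModFun
open Fermat.Agent.Curves

section Map

variable {k k' : Type*} [Field k] [Field k'] {N : ℕ}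

/-- the map on function fields induced by a map on coefficients -/
def coeffF (N : ℕ) (φ : k →+* k') : modularFunctionFieldFullC k N →+* modularFunctionFieldFullC k' N :=
  ((coeffMap φ).comp (modularFunctionFieldFullC k N).val.toRingHom).codRestrict
    (modularFunctionFieldFullC k' N).toSubfield.toSubring (fun x => by
      let _ := φ.toAlgebra
      exact coeffMap_mem_EN (L := k') x.2)

lemma coe_coeffF (φ : k →+* k') (x : modularFunctionFieldFullC k N) :
    (coeffF N φ x : LaurentSeries k') = coeffMap φ (x : LaurentSeries k) := rfl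

lemma coeffMap_id' (x : LaurentSeries k) : coeffMap (RingHom.id k) x = x := by
  ext n; simp

/-- the automorphism induced by an automorphism of the coefficients -/
def galF (N : ℕ) (σ : k ≃+* k') : modularFunctionFieldFullC k N ≃+* modularFunctionFieldFullC k' N :=
  RingEquiv.ofRingHom (coeffF N (σ : k →+* k')) (coeffF N (σ.symm : k' →+* k))
    (by
      ext x : 2
      change coeffMap (σ : k →+* k') (coeffMap (σ.symm : k' →+* k) (x : LaurentSeries k')) = x
      rw [coeffMap_coeffMap]
      simp)
    (by
      ext x : 2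
      change coeffMap (σ.symm : k' →+* k) (coeffMap (σ : k →+* k') (x : LaurentSeries k)) = x
      rw [coeffMap_coeffMap]
      simp)

lemma coe_galF (σ : k ≃+* k') (x : modularFunctionFieldFullC k N) :
    (galF N σ x : LaurentSeries k') = coeffMap (σ : k →+* k') (x : LaurentSeries k) := rfl

lemma galF_const (σ : k ≃+* k') (c : k) :
    galF N σ (algebraMap k _ c) = algebraMap k' _ (σ c) := by
  apply Subtype.ext
  rw [coe_galF]
  change coeffMap (σ : k →+* k') (algebraMap k (LaurentSeries k) c) =
    algebraMap k' (LaurentSeries k') (σ c)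
  rw [← C_eq_algebraMap, coeffMap_C, C_eq_algebraMap]
  rfl

lemma galF_je (σ : k ≃+* k') : galF N σ (je k N) = je k' N := by
  apply Subtype.ext
  rw [coe_galF]
  exact coeffMap_jqModC _

lemma galF_symm (σ : k ≃+* k') (x : modularFunctionFieldFullC k' N) :
    galF N σ (galF N σ.symm x) = x := (galF N σ).apply_symm_apply x

/-- pulling back places -/
lemma exists_place_galF (σ : k ≃+* k') (v : Place k' (modularFunctionFieldFullC k' N)) :
    ∃ w : Place k (modularFunctionFieldFullC k N), ∀ f, w.ord f = v.ord (galF N σ f) := by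
  obtain ⟨w, hw⟩ := exists_place_of_ord (k := k) (fun f => v.ord (galF N σ f))
    (by
      intro x y hx hy
      simp only [map_mul]
      rw [v.ord_mul ((map_ne_zero _).mpr hx) ((map_ne_zero _).mpr hy)])
    (by
      intro x y hx hy hxy
      simp only [map_add]
      refine ord_add v ?_ ((map_ne_zero _).mpr hx) ((map_ne_zero _).mpr hy)
      rw [← map_add]
      exact (map_ne_zero _).mpr hxy)
    (by
      intro a _
      rw [galF_const]
      exact (ord_algebraMap v _).ge)
    (by
      obtain ⟨t, ht0, ht⟩ := exists_ord_eq v 1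
      exact ⟨galF N σ.symm t, (map_ne_zero _).mpr ht0, by rw [galF_symm, ht]⟩)
  refine ⟨w, fun f => ?_⟩
  rcases eq_or_ne f 0 with rfl | hf
  · simp
  · exact hw f hf

lemma order_coeffMap {φ : k →+* k'} (x : LaurentSeries k) : (coeffMap φ x).order = x.order := by
  rcases eq_or_ne x 0 with rfl | hx
  · simp
  have h0 : coeffMap φ x ≠ 0 := by
    intro h
    apply hx
    ext n
    have := congrArg (fun F => HahnSeries.coeff F n) h
    simpa using this
  apply le_antisymm
  · apply HahnSeries.order_le_of_coeff_ne_zero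
    rw [coeffMap_coeff]
    exact (map_ne_zero φ).mpr (HahnSeries.coeff_order_eq_zero.not.mpr hx)
  · apply HahnSeries.order_le_of_coeff_ne_zero
    have := HahnSeries.coeff_order_eq_zero.not.mpr h0
    rw [coeffMap_coeff] at this
    exact fun h => this (by rw [h, map_zero])

lemma leadingCoeff_coeffMap {φ : k →+* k'} (x : LaurentSeries k) :
    (coeffMap φ x).leadingCoeff = φ x.leadingCoeff := by
  rw [HahnSeries.leadingCoeff_eq, HahnSeries.leadingCoeff_eq, order_coeffMap, coeffMap_coeff]

end Map

section Can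

variable {k : Type*} [Field k] {N : ℕ}

/-- bounded poles over the cusps -/
def Bd (n m : ℕ) (w : modularFunctionFieldFullC k N) : Prop :=
  ∀ v : Place k (modularFunctionFieldFullC k N), -((n * m : ℕ) * max 0 (-v.ord (je k N))) ≤ v.ord w

/-- canonical elements -/
structure IsCan (n m : ℕ) (w : modularFunctionFieldFullC k N) : Prop where
  ne : w ≠ 0
  dvd : ∀ v : Place k (modularFunctionFieldFullC k N), (n : ℤ) ∣ v.ord w
  bd : Bd n m w
  monic : (w : LaurentSeries k).leadingCoeff = 1
  max : ∀ g : modularFunctionFieldFullC k N, g ≠ 0 → Bd n m (w * g ^ n) →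
    (g : LaurentSeries k).order ≤ 0

lemma bd_galF {n m : ℕ} {w : modularFunctionFieldFullC k N} (h : Bd n m w) (σ : k ≃+* k) :
    Bd n m (galF N σ w) := by
  intro v
  obtain ⟨v', hv'⟩ := exists_place_galF σ v
  have := h v'
  rwa [hv', hv', galF_je] at this

lemma bd_galF_iff {n m : ℕ} {w : modularFunctionFieldFullC k N} (σ : k ≃+* k) :
    Bd n m (galF N σ w) ↔ Bd n m w := by
  refine ⟨fun h => ?_, fun h => bd_galF h σ⟩
  have := bd_galF h σ.symm
  have h2 : galF N σ.symm (galF N σ w) = w := (galF N σ).symm_apply_apply w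
  rwa [h2] at this

lemma dvd_galF {n : ℕ} {w : modularFunctionFieldFullC k N}
    (h : ∀ v : Place k (modularFunctionFieldFullC k N), (n : ℤ) ∣ v.ord w) (σ : k ≃+* k)
    (v : Place k (modularFunctionFieldFullC k N)) : (n : ℤ) ∣ v.ord (galF N σ w) := by
  obtain ⟨v', hv'⟩ := exists_place_galF σ v
  rw [← hv']
  exact h v'

lemma IsCan.galF {n m : ℕ} {w : modularFunctionFieldFullC k N} (h : IsCan n m w) (σ : k ≃+* k) :
    IsCan n m (galF N σ w) where
  ne := (map_ne_zero _).mpr h.ne
  dvd := dvd_galF h.dvd σ
  bd := bd_galF h.bd σ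
  monic := by rw [coe_galF, leadingCoeff_coeffMap, h.monic, map_one]
  max g hg hb := by
    have h1 : g = AnJac.galF N σ (AnJac.galF N σ.symm g) := (galF_symm σ g).symm
    rw [h1, ← map_pow, ← map_mul, bd_galF_iff] at hb
    have h2 := h.max _ ((map_ne_zero _).mpr hg) hb
    rwa [coe_galF, order_coeffMap] at h2

lemma order_sub_lt {L : Type*} [Field L] {g : LaurentSeries L}
    (h0 : g.order = 0) (hne : g - HahnSeries.C g.leadingCoeff ≠ 0) :
    0 < (g - HahnSeries.C g.leadingCoeff).order := by
  have h1 : ∀ i : ℤ, i ≤ 0 → (g - HahnSeries.C g.leadingCoeff).coeff i = 0 := by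
    intro i hi
    rw [HahnSeries.coeff_sub]
    rcases lt_or_eq_of_le hi with h | rfl
    · rw [HahnSeries.coeff_eq_zero_of_lt_order (by rw [h0]; exact h), HahnSeries.C_apply,
        HahnSeries.coeff_single_of_ne (ne_of_lt h), sub_zero]
    · rw [HahnSeries.C_apply, HahnSeries.coeff_single_same, HahnSeries.leadingCoeff_eq, h0, sub_self]
  by_contra hcon
  push Not at hcon
  exact HahnSeries.coeff_order_eq_zero.not.mpr hne (h1 _ hcon)

lemma IsCan.unique {n m : ℕ} (hn : n ≠ 0) {w w' g : modularFunctionFieldFullC k N}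
    (h : IsCan n m w) (h' : IsCan n m w') (hg : g ≠ 0) (hw : w' = w * g ^ n) : w' = w := by
  have hg0 : (g : LaurentSeries k) ≠ 0 := fun h => hg (Subtype.ext h)
  have h1 := h.max g hg (hw ▸ h'.bd)
  have h2 := h'.max g⁻¹ (inv_ne_zero hg) (by
    rw [hw, inv_pow, mul_inv_cancel_right₀ (pow_ne_zero n hg)]
    exact h.bd)
  have h3 : (g : LaurentSeries k).order = 0 := by
    have h4 : ((g⁻¹ : modularFunctionFieldFullC k N) : LaurentSeries k) * g = 1 := by
      have := inv_mul_cancel₀ hg
      exact congrArg Subtype.val this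
    have h5 := congrArg HahnSeries.order h4
    rw [HahnSeries.order_mul (fun h => inv_ne_zero hg (Subtype.ext h)) hg0, HahnSeries.order_one] at h5
    omega
  set c := (g : LaurentSeries k).leadingCoeff with hc
  have hc0 : c ≠ 0 := HahnSeries.leadingCoeff_ne_zero.mpr hg0
  set g₁ : modularFunctionFieldFullC k N := g - algebraMap k _ c with hg₁
  have hcoe : (g₁ : LaurentSeries k) = (g : LaurentSeries k) - HahnSeries.C c := by
    rw [C_eq_algebraMap]
    rfl
  by_cases hg1 : g₁ = 0
  · have hgc : g = algebraMap k _ c := sub_eq_zero.mp hg1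
    have h5 := congrArg (fun x : modularFunctionFieldFullC k N => (x : LaurentSeries k)) hw
    have h6 : (w' : LaurentSeries k) = (w : LaurentSeries k) * (HahnSeries.C c : LaurentSeries k) ^ n := by
      rw [C_eq_algebraMap]
      rw [hgc] at h5
      exact h5
    have h7 := congrArg HahnSeries.leadingCoeff h6
    rw [HahnSeries.leadingCoeff_mul, h.monic, h'.monic, ← map_pow, HahnSeries.C_apply,
      HahnSeries.leadingCoeff_of_single, one_mul] at h7
    rw [hw, hgc, ← map_pow, ← h7, map_one, mul_one]
  · exfalso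
    have h4 := h.max g₁ hg1 (by
      intro v
      have hv1 := h.bd v
      have hv2 := h'.bd v
      rw [hw, v.ord_mul h.ne (pow_ne_zero n hg), ord_pow] at hv2
      rw [v.ord_mul h.ne (pow_ne_zero n hg1), ord_pow]
      have h6 : min (v.ord g) 0 ≤ v.ord g₁ := by
        have h7 := ord_add v (f := g) (g := -algebraMap k _ c) (by
          rw [← sub_eq_add_neg]; exact hg1) hg (neg_ne_zero.mpr (by
            rw [Ne, map_eq_zero]; exact hc0))
        rw [ord_neg, ord_algebraMap, ← sub_eq_add_neg] at h7
        exact h7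
      rcases le_total (v.ord g) 0 with h8 | h8
      · rw [min_eq_left h8] at h6
        nlinarith
      · rw [min_eq_right h8] at h6
        have : 0 ≤ (n : ℤ) * v.ord g₁ := by positivity
        linarith)
    rw [hcoe] at h4
    have h5 := order_sub_lt h3 (by
      rw [← hcoe]; exact fun h => hg1 (Subtype.ext h))
    rw [← hc] at h5
    omega

variable [IsAlgClosed k] [CharZero k] [NeZero N]

variable (k N) in
lemma exists_vinf : ∃ v : Place k (modularFunctionFieldFullC k N), ∀ f, f ≠ 0 →
    v.ord f = (f : LaurentSeries k).order := by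
  have hj : (jqModC k).order = -1 := by
    apply le_antisymm
    · apply HahnSeries.order_le_of_coeff_ne_zero
      rw [coeff_jqModC_neg_one]
      exact one_ne_zero
    · by_contra hlt
      push Not at hlt
      have h2 := coeff_jqModC_of_lt k hlt
      exact jqModC_ne_zero_of_nontrivial (R := k) (HahnSeries.coeff_order_eq_zero.mp h2)
  obtain ⟨v, ε, hε, h⟩ := exists_place_of_emb (ι := RingHom.id k)
    (modularFunctionFieldFullC k N).val.toRingHom (fun c => by
      rw [RingHom.id_apply, C_eq_algebraMap]; rfl) (z := je k N) (by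
      change (jqModC k).order ≠ 0
      rw [hj]; norm_num)
  have h1 := h (je k N) (fun h => by
    have := congrArg Subtype.val h
    exact jqModC_ne_zero_of_nontrivial (R := k) this)
  change (jqModC k).order = _ at h1
  rw [hj] at h1
  have h2 : (ε : ℤ) = 1 := by
    have h3 : (ε : ℤ) ∣ 1 := ⟨-v.ord (je k N), by linarith⟩
    exact Int.eq_one_of_dvd_one (by omega) h3
  refine ⟨v, fun f hf => ?_⟩
  have h3 := h f hf
  rw [h2, one_mul] at h3
  exact h3.symm

lemma apply_le_degree {D : Divisor k (modularFunctionFieldFullC k N)} (hD : 0 ≤ D)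
    (v : Place k (modularFunctionFieldFullC k N)) : D v ≤ Divisor.degree D := by
  classical
  rw [degree_eq_sum, Finsupp.sum]
  by_cases hv : v ∈ D.support
  · exact Finset.single_le_sum (f := fun w => D w) (fun w _ => hD w) hv
  · rw [Finsupp.notMem_support_iff.mp hv]
    exact Finset.sum_nonneg fun w _ => hD w

lemma order_le_of_bd {n m : ℕ} {w : modularFunctionFieldFullC k N} (hw : w ≠ 0) (h : Bd n m w) :
    (w : LaurentSeries k).order ≤ (n * m : ℕ) * Divisor.degree (poleDivisor (k := k) (je k N)) := by
  obtain ⟨v, hv⟩ := exists_vinf k N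
  rw [← hv w hw]
  set D : Divisor k (modularFunctionFieldFullC k N) :=
    divisorOf w + (n * m : ℕ) • poleDivisor (je k N) with hD
  have hDv : ∀ v, D v = v.ord w + (n * m : ℕ) * max 0 (-v.ord (je k N)) := by
    intro v
    rw [hD, Finsupp.add_apply, Finsupp.smul_apply, divisorOf_apply, poleDivisor_apply, nsmul_eq_mul]
  have h0 : 0 ≤ D := by
    intro v
    have := h v
    rw [hDv]
    change 0 ≤ _
    linarith
  have h1 := apply_le_degree h0 v
  have h2 : Divisor.degree D = (n * m : ℕ) * Divisor.degree (poleDivisor (k := k) (je k N)) := by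
    rw [hD, map_add, degree_divisorOf, zero_add, map_nsmul, nsmul_eq_mul]
  rw [h2, hDv] at h1
  have h3 : (0:ℤ) ≤ (n * m : ℕ) * max 0 (-v.ord (je k N)) := by positivity
  linarith

/-- bounded representatives -/
lemma exists_bd {n : ℕ} (hn : n ≠ 0) {w : modularFunctionFieldFullC k N} (hw : w ≠ 0) :
    ∃ (m : ℕ) (g : modularFunctionFieldFullC k N), g ≠ 0 ∧ Bd n m (w * g ^ n) := by
  obtain ⟨p, hp0, hp, -⟩ := exists_clear (transcendental_je (k := k) (N := N)) hw
  set g := Polynomial.aeval (je k N) p with hg
  have hg0 : g ≠ 0 := fun h => transcendental_je (k := k) (N := N) ⟨p, hp0, h⟩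
  set w' := w * g ^ n with hw'
  have hw'0 : w' ≠ 0 := mul_ne_zero hw (pow_ne_zero n hg0)
  refine ⟨∑ v ∈ (divisorOf (k := k) w').support, (v.ord w').natAbs, g, hg0, ?_⟩
  intro v
  have hj0 : je k N ≠ 0 := fun h => transcendental_je (k := k) (N := N) (h ▸ isAlgebraic_zero)
  rcases lt_or_ge (v.ord (je k N)) 0 with h | h
  · have h1 : (v.ord w').natAbs ≤ ∑ v ∈ (divisorOf (k := k) w').support, (v.ord w').natAbs := by
      by_cases hv : v ∈ (divisorOf (k := k) w').support
      · exact Finset.single_le_sum (f := fun v : Place k (modularFunctionFieldFullC k N) =>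
          (v.ord w').natAbs) (fun _ _ => Nat.zero_le _) hv
      · have : v.ord w' = 0 := by
          have := Finsupp.notMem_support_iff.mp hv
          rwa [divisorOf_apply] at this
        rw [this]; simp
    set M := ∑ v ∈ (divisorOf (k := k) w').support, (v.ord w').natAbs
    rw [max_eq_right (by omega)]
    have h2 : (1 : ℤ) ≤ n := by omega
    have h3 : (1 : ℤ) ≤ -v.ord (je k N) := by omega
    have h4 : (M : ℤ) ≤ n * M * -v.ord (je k N) := by
      have h5 : (M : ℤ) ≤ n * M := by nlinarith
      nlinarith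
    have h5 : -(M : ℤ) ≤ v.ord w' := by omega
    push_cast
    linarith
  · rw [max_eq_left (by omega), mul_zero, neg_zero, v.ord_mul hw (pow_ne_zero n hg0), ord_pow]
    have h1 := hp v ((mem_iff_ord v hj0).mpr h)
    have h2 := hp v ((mem_iff_ord v hj0).mpr h)
    rw [v.ord_mul hg0 hw] at h1
    have h3 : 0 ≤ v.ord g := by
      have hint : g ∈ affineRing k (je k N) := by
        rw [hg]
        exact (Algebra.adjoin_le (Set.singleton_subset_iff.mpr (self_mem_affineRing _)))
          (Polynomial.aeval_mem_adjoin_singleton k _)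
      exact (mem_iff_ord v hg0).mp (hint v ((mem_iff_ord v hj0).mpr h))
    obtain ⟨l, rfl⟩ := Nat.exists_eq_succ_of_ne_zero hn
    push_cast
    nlinarith

theorem exists_isCan {n : ℕ} (hn : n ≠ 0) {w : modularFunctionFieldFullC k N} (hw : w ≠ 0)
    (hdvd : ∀ v : Place k (modularFunctionFieldFullC k N), (n : ℤ) ∣ v.ord w) :
    ∃ (m : ℕ) (g : modularFunctionFieldFullC k N), g ≠ 0 ∧ IsCan n m (w * g ^ n) := by
  obtain ⟨m, g₀, hg₀, hbd⟩ := exists_bd hn hw
  obtain ⟨d, ⟨g, hg, hb, hd⟩, hmax⟩ := Int.exists_greatest_of_bdd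
    (P := fun d : ℤ => ∃ g : modularFunctionFieldFullC k N, g ≠ 0 ∧ Bd n m (w * g ^ n) ∧
      (g : LaurentSeries k).order = d)
    ⟨(n * m : ℕ) * Divisor.degree (poleDivisor (k := k) (je k N)) +
      |(w : LaurentSeries k).order|, by
      rintro d ⟨g, hg, hb, rfl⟩
      have h1 := order_le_of_bd (mul_ne_zero hw (pow_ne_zero n hg)) hb
      have h2 : ((w * g ^ n : modularFunctionFieldFullC k N) : LaurentSeries k).order =
          (w : LaurentSeries k).order + n * (g : LaurentSeries k).order := by
        have e : ((w * g ^ n : modularFunctionFieldFullC k N) : LaurentSeries k) =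
            (w : LaurentSeries k) * (g : LaurentSeries k) ^ n := rfl
        rw [e, HahnSeries.order_mul (fun h => hw (Subtype.ext h))
          (pow_ne_zero n fun h => hg (Subtype.ext h)), HahnSeries.order_pow, nsmul_eq_mul]
      rw [h2] at h1
      have h3 := neg_abs_le (w : LaurentSeries k).order
      have h4 : (1 : ℤ) ≤ n := by omega
      have h5 : 0 ≤ (n * m : ℕ) * Divisor.degree (poleDivisor (k := k) (je k N)) :=
        mul_nonneg (by positivity) (pos_of_nonneg_degree _ (poleDivisor_nonneg _))
      rcases le_total (g : LaurentSeries k).order 0 with h | h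
      · have := abs_nonneg (w : LaurentSeries k).order
        linarith
      · nlinarith⟩ ⟨_, g₀, hg₀, hbd, rfl⟩
  set w₁ := w * g ^ n with hw₁
  have hw₁0 : w₁ ≠ 0 := mul_ne_zero hw (pow_ne_zero n hg)
  have hw₁0' : (w₁ : LaurentSeries k) ≠ 0 := fun h => hw₁0 (Subtype.ext h)
  obtain ⟨c, hc⟩ := IsAlgClosed.exists_pow_nat_eq ((w₁ : LaurentSeries k).leadingCoeff)⁻¹
    (Nat.pos_of_ne_zero hn)
  have hlc := HahnSeries.leadingCoeff_ne_zero.mpr hw₁0'
  have hc0 : c ≠ 0 := by
    rintro rfl
    rw [zero_pow hn] at hc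
    exact inv_ne_zero hlc hc.symm
  have hcc : algebraMap k (modularFunctionFieldFullC k N) c ≠ 0 := by
    rw [Ne, map_eq_zero]; exact hc0
  have hb' : ∀ x : modularFunctionFieldFullC k N, x ≠ 0 →
      (Bd n m (x * (algebraMap k _ c) ^ n) ↔ Bd n m x) := by
    intro x hx
    refine forall_congr' fun v => ?_
    rw [v.ord_mul hx (pow_ne_zero n hcc), ord_pow, ord_algebraMap, mul_zero, add_zero]
  have e1 : w * (g * algebraMap k _ c) ^ n = w₁ * (algebraMap k _ c) ^ n := by
    rw [hw₁, mul_pow, mul_assoc]
  refine ⟨m, g * algebraMap k _ c, mul_ne_zero hg hcc, ?_⟩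
  rw [e1]
  refine ⟨mul_ne_zero hw₁0 (pow_ne_zero n hcc), ?_, (hb' _ hw₁0).mpr hb, ?_, ?_⟩
  · intro v
    rw [v.ord_mul hw₁0 (pow_ne_zero n hcc), ord_pow, ord_algebraMap, mul_zero, add_zero, hw₁,
      v.ord_mul hw (pow_ne_zero n hg), ord_pow]
    exact dvd_add (hdvd v) ⟨_, rfl⟩
  · have e : ((w₁ * (algebraMap k _ c) ^ n : modularFunctionFieldFullC k N) : LaurentSeries k) =
        (w₁ : LaurentSeries k) * (HahnSeries.C c) ^ n := by
      rw [C_eq_algebraMap]; rfl
    rw [e, HahnSeries.leadingCoeff_mul, ← map_pow, HahnSeries.C_apply,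
      HahnSeries.leadingCoeff_of_single, hc, mul_inv_cancel₀ hlc]
  · intro h hh hb2
    have e2 : w₁ * (algebraMap k _ c) ^ n * h ^ n = w * (g * h) ^ n * (algebraMap k _ c) ^ n := by
      rw [hw₁]; ring
    rw [e2, hb' _ (mul_ne_zero hw (pow_ne_zero n (mul_ne_zero hg hh)))] at hb2
    have h3 := hmax _ ⟨g * h, mul_ne_zero hg hh, hb2, rfl⟩
    have h4 : ((g * h : modularFunctionFieldFullC k N) : LaurentSeries k).order =
        (g : LaurentSeries k).order + (h : LaurentSeries k).order := by
      have e : ((g * h : modularFunctionFieldFullC k N) : LaurentSeries k) =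
        (g : LaurentSeries k) * (h : LaurentSeries k) := rfl
      rw [e, HahnSeries.order_mul (fun h => hg (Subtype.ext h)) fun h' => hh (Subtype.ext h')]
    omega

end Can

end Fermat.Agent.AnJac
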