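import Fermat.Agent.AnJac.Divs

/-!
Algebra of the correspondence between functions with divisor divisible by `n` and characters.
-/

set_option autoImplicit false
set_option linter.unusedSectionVars false

open UpperHalfPlane ModularForm MatrixGroups Matrix.SpecialLinearGroup Filter Function
open scoped Manifold Topology Real ComplexConjugate

noncomputable section

namespace Fermat.Agent.AnJac

open Fermat.Agent.DimS2 Fermat.Agent.ModFun CongruenceSubgroup AlgebraicCurve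
open ModularCurve

local notation "𝕢" => Function.Periodic.qParam

variable {N : ℕ} [NeZero N] {n : ℕ}

lemma IsX.ne_zero_mul {χ ψ : Gamma0 N →* ℂˣ} {f g : ℍ → ℂ} (hf : IsX N χ f) (hg : IsX N ψ g)
    (hf0 : f ≠ 0) (hg0 : g ≠ 0) : f * g ≠ 0 := by
  intro h
  rcases (UpperHalfPlane.mul_eq_zero_iff hf.isA.mdiff hg.isA.mdiff).mp h with h | h
  · exact hf0 h
  · exact hg0 h

lemma pow_fun_ne_zero {f : ℍ → ℂ} (hf : f ≠ 0) (m : ℕ) : f ^ m ≠ 0 := by
  intro h
  obtain ⟨τ, hτ⟩ := exists_ne_zero hf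
  have := congrFun h τ
  rw [Pi.pow_apply] at this
  exact pow_ne_zero _ hτ this

lemma lser_ne_zero {f : ℍ → ℂ} (hf : IsP f) (h0 : f ≠ 0) : lser f ≠ 0 := by
  rw [Ne, lser_eq_zero_iff hf]; exact h0

/-- quotients of functions with the same character lie in the function field -/
lemma quot_mem_FF {f g : ℍ → ℂ} (hf : IsX N 1 f) (hg : IsX N 1 g) :
    lser f / lser g ∈ FF N := by
  have h1 : lser f ∈ FF N := by
    rw [← Mf_eq]; exact Rsub_le_Mf ⟨f, hf, rfl⟩
  have h2 : lser g ∈ FF N := by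
    rw [← Mf_eq]; exact Rsub_le_Mf ⟨g, hg, rfl⟩
  exact div_mem h1 h2

section Hom

variable {G M : Type*} [Group G] [CommGroup M] (χ ψ : G →* M)

lemma hom_pow_zero : χ ^ 0 = 1 := by
  ext γ; rw [MonoidHom.pow_apply, pow_zero, MonoidHom.one_apply]

lemma hom_pow_succ (m : ℕ) : χ ^ (m + 1) = χ ^ m * χ := by
  ext γ; rw [MonoidHom.pow_apply, pow_succ, MonoidHom.mul_apply, MonoidHom.pow_apply]

lemma hom_one_pow (m : ℕ) : (1 : G →* M) ^ m = 1 := by
  ext γ; rw [MonoidHom.pow_apply, MonoidHom.one_apply, one_pow]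

lemma hom_mul_one : χ * 1 = χ := by
  ext γ; rw [MonoidHom.mul_apply, MonoidHom.one_apply, mul_one]

lemma hom_one_mul : 1 * χ = χ := by
  ext γ; rw [MonoidHom.mul_apply, MonoidHom.one_apply, one_mul]

lemma hom_pow_mul (m n : ℕ) : (χ ^ m) ^ n = χ ^ (n * m) := by
  ext γ; rw [MonoidHom.pow_apply, MonoidHom.pow_apply, MonoidHom.pow_apply, ← pow_mul, mul_comm]

lemma hom_div : χ * ψ⁻¹ = χ / ψ := by
  ext γ; rw [MonoidHom.mul_apply, MonoidHom.inv_apply, MonoidHom.div_apply, div_eq_mul_inv]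

end Hom

namespace IsChar

variable {u v : LaurentSeries ℂ} {χ ψ : Gamma0 N →* ℂˣ}

lemma ne_zero (h : IsChar N n u χ) : u ≠ 0 := by
  rintro rfl
  obtain ⟨G, b, hG, hb, hG0, hb0, he⟩ := h.ex
  rw [zero_mul] at he
  exact pow_ne_zero n (lser_ne_zero (hG.isP h.nh) hG0) he.symm

lemma mul (hu : IsChar N n u χ) (hv : IsChar N n v ψ) : IsChar N n (u * v) (χ * ψ) := by
  refine ⟨hu.nh.mul hv.nh, ?_, ?_⟩
  · have h1 := hu.pw
    have h2 := hv.pw
    ext γ
    have h1' := DFunLike.congr_fun h1 γ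
    have h2' := DFunLike.congr_fun h2 γ
    rw [MonoidHom.pow_apply] at h1' h2' ⊢
    rw [MonoidHom.mul_apply, mul_pow, h1', h2', MonoidHom.one_apply, mul_one]
  · obtain ⟨G, b, hG, hb, hG0, hb0, he⟩ := hu.ex
    obtain ⟨G', b', hG', hb', hG'0, hb'0, he'⟩ := hv.ex
    refine ⟨G * G', b * b', hG.mul hG', hb.mul_one hb', hG.ne_zero_mul hG' hG0 hG'0,
      hb.ne_zero_mul hb' hb0 hb'0, ?_⟩
    rw [lser_mul (hb.isP isNH_one) (hb'.isP isNH_one), lser_mul (hG.isP hu.nh) (hG'.isP hv.nh),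
      mul_pow, mul_pow, ← he, ← he']
    ring

lemma one_fun_ne_zero : (1 : ℍ → ℂ) ≠ 0 := by
  intro h
  have := congrFun h UpperHalfPlane.I
  simp at this

/-- `n`-th powers have trivial character -/
lemma of_pow {g : LaurentSeries ℂ} (hg : g ∈ FF N) (hg0 : g ≠ 0) : IsChar N n (g ^ n) 1 := by
  obtain ⟨f, hf, B, hB, h⟩ := mem_FF.mp hg
  have hb := isX_jev (N := N) B
  have hb0 := ef_jev_ne_zero hB
  refine ⟨isNH_one, hom_one_pow n, f, ef (jev ℂ B), hf, hb, ?_, hb0, ?_⟩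
  · rintro rfl
    have h1 : lser (0 : ℍ → ℂ) = 0 := (lser_eq_zero_iff (hf.isP isNH_one)).mpr rfl
    rw [h1] at h
    have h2 := lser_ne_zero (hb.isP isNH_one) hb0
    rw [lser_ef (jev_mem B)] at h2
    exact mul_ne_zero hg0 h2 h
  · rw [lser_ef (jev_mem B), ← mul_pow, h]

lemma one : IsChar N n (1 : LaurentSeries ℂ) 1 := by
  have := of_pow (N := N) (n := n) (one_mem (FF N)) one_ne_zero
  rwa [one_pow] at this

lemma pow (hu : IsChar N n u χ) (m : ℕ) : IsChar N n (u ^ m) (χ ^ m) := by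
  induction m with
  | zero => rw [_root_.pow_zero, hom_pow_zero]; exact one
  | succ m ih => rw [_root_.pow_succ, hom_pow_succ]; exact ih.mul hu

/-- functions with characters of order dividing `n` -/
lemma mem_FF' (hu : IsChar N n u χ) : u ∈ FF N := by
  obtain ⟨G, b, hG, hb, hG0, hb0, he⟩ := hu.ex
  have h1 : IsX N 1 (G ^ n) := by
    have := hG.pow n
    rw [hu.pw] at this
    exact this
  have h2 : u = lser (G ^ n) / lser (b ^ n) := by
    rw [lser_pow (hG.isP hu.nh), lser_pow (hb.isP isNH_one), ← he,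
      mul_div_cancel_right₀ _ (pow_ne_zero n (lser_ne_zero (hb.isP isNH_one) hb0))]
  rw [h2]
  exact quot_mem_FF h1 (hb.pow_one n)

lemma inv (hn : n ≠ 0) (hu : IsChar N n u χ) : IsChar N n u⁻¹ χ⁻¹ := by
  have h1 := (hu.pow (n - 1)).mul (of_pow (n := n) (inv_mem hu.mem_FF') (inv_ne_zero hu.ne_zero))
  have h2 : u ^ (n - 1) * u⁻¹ ^ n = u⁻¹ := by
    obtain ⟨m, rfl⟩ := Nat.exists_eq_succ_of_ne_zero hn
    rw [Nat.succ_sub_one, _root_.pow_succ, ← mul_assoc, ← mul_pow, mul_inv_cancel₀ hu.ne_zero,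
      one_pow, one_mul]
  have h3 : χ ^ (n - 1) * 1 = χ⁻¹ := by
    rw [hom_mul_one]
    have h4 := hu.pw
    obtain ⟨m, rfl⟩ := Nat.exists_eq_succ_of_ne_zero hn
    rw [Nat.succ_sub_one]
    refine MonoidHom.ext fun γ => ?_
    have := DFunLike.congr_fun h4 γ
    rw [MonoidHom.pow_apply, _root_.pow_succ, MonoidHom.one_apply] at this
    rw [MonoidHom.inv_apply, MonoidHom.pow_apply, eq_inv_iff_mul_eq_one, this]
  rwa [h2, h3] at h1

lemma div (hn : n ≠ 0) (hu : IsChar N n u χ) (hv : IsChar N n v ψ) :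
    IsChar N n (u / v) (χ / ψ) := by
  rw [div_eq_mul_inv, ← hom_div]
  exact hu.mul (hv.inv hn)

/-- trivial characters come from `n`-th powers -/
lemma exists_root (hu : IsChar N n u 1) : ∃ g ∈ FF N, g ≠ 0 ∧ g ^ n = u := by
  obtain ⟨G, b, hG, hb, hG0, hb0, he⟩ := hu.ex
  have h1 := lser_ne_zero (hb.isP isNH_one) hb0
  have h2 := lser_ne_zero (hG.isP isNH_one) hG0
  refine ⟨lser G / lser b, quot_mem_FF hG hb, div_ne_zero h2 h1, ?_⟩
  rw [div_pow, ← he, mul_div_cancel_right₀ _ (pow_ne_zero n h1)]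

/-- the character is unique -/
lemma unique (hn : n ≠ 0) (hu : IsChar N n u χ) (hv : IsChar N n u ψ) : χ = ψ := by
  obtain ⟨G, b, hG, hb, hG0, hb0, he⟩ := hu.ex
  obtain ⟨G', b', hG', hb', hG'0, hb'0, he'⟩ := hv.ex
  have h1 := hG.mul hb'
  have h2 := hG'.mul hb
  have e1 : (G * b') ^ n = (G' * b) ^ n := by
    have hP1 := (hG.isP hu.nh).mul (hb'.isP isNH_one)
    have hP2 := (hG'.isP hv.nh).mul (hb.isP isNH_one)
    apply lser_inj (hP1.pow n) (hP2.pow n)
    rw [lser_pow hP1, lser_pow hP2, lser_mul (hG.isP hu.nh) (hb'.isP isNH_one),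
      lser_mul (hG'.isP hv.nh) (hb.isP isNH_one), mul_pow, mul_pow, ← he, ← he']
    ring
  obtain ⟨μ, hμ, h⟩ := exists_root_scalar hn h1.isA.mdiff h2.isA.mdiff
    (hG'.ne_zero_mul hb hG'0 hb0) e1
  obtain ⟨τ, hτ⟩ := exists_ne_zero (hG'.ne_zero_mul hb hG'0 hb0)
  ext γ
  have h3 := h1.inv γ τ
  have h4 := h2.inv γ τ
  rw [h, h, h4] at h3
  simp only [MonoidHom.mul_apply, MonoidHom.one_apply, mul_one] at h3
  have hμ0 : (μ : ℂ) ≠ 0 := Units.ne_zero _
  have h5 : ((μ : ℂ) * (G' * b) τ) * ((ψ γ : ℂ) - χ γ) = 0 := by linear_combination h3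
  rcases mul_eq_zero.mp h5 with h6 | h6
  · exact absurd h6 (mul_ne_zero hμ0 hτ)
  · exact (sub_eq_zero.mp h6).symm

/-- change of `n` -/
lemma descend {m : ℕ} (hu : IsChar N (n * m) u χ) : IsChar N n u (χ ^ m) := by
  refine ⟨hu.nh.pow m, ?_, ?_⟩
  · rw [← hu.pw, hom_pow_mul]
  · obtain ⟨G, b, hG, hb, hG0, hb0, he⟩ := hu.ex
    refine ⟨G ^ m, b ^ m, hG.pow m, hb.pow_one m, pow_fun_ne_zero hG0 m, pow_fun_ne_zero hb0 m, ?_⟩
    rw [lser_pow (hb.isP isNH_one), lser_pow (hG.isP hu.nh), ← pow_mul, ← pow_mul, mul_comm m n, he]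

end IsChar

lemma mg_disc_inv : MG (fun τ => (discriminant τ)⁻¹) := by
  have h : (fun τ => (discriminant τ)⁻¹) = ef (DeltaInvSer ℂ) := by
    funext τ; exact (evf_DeltaInvSer τ).symm
  rw [h]
  exact ef_mg DeltaInvSer_mem

lemma mdiff_disc_inv : MDiff (fun τ => (discriminant τ)⁻¹) := by
  have h : (fun τ => (discriminant τ)⁻¹) = ef (DeltaInvSer ℂ) := by
    funext τ; exact (evf_DeltaInvSer τ).symm
  rw [h]
  exact ef_mdiff DeltaInvSer_mem

lemma MG.pow {f : ℍ → ℂ} (hf : MG f) (m : ℕ) : MG (f ^ m) := by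
  induction m with
  | zero => rw [pow_zero]; exact mg_const 1
  | succ m ih => rw [pow_succ]; exact ih.mul hf

/-- functions with prescribed character of finite order -/
theorem exists_isX (hn : n ≠ 0) {χ : Gamma0 N →* ℂˣ} (hχ : IsNH χ) (hpw : χ ^ n = 1) :
    ∃ G, IsX N χ G ∧ G ≠ 0 := by
  have hneg : (-1 : SL(2,ℤ)) ∈ Gamma0 N := by
    rw [Gamma0_mem]
    simp
  obtain ⟨l, h, h1, h2, h3, h4⟩ := exists_form (Gamma0 N) χ (fun γ => by
    have := DFunLike.congr_fun hpw γ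
    rw [MonoidHom.pow_apply, MonoidHom.one_apply] at this
    have h5 : (χ γ : ℂ) ^ n = 1 := by
      rw [← Units.val_pow_eq_pow_val, this, Units.val_one]
    exact Complex.norm_eq_one_of_pow_eq_one h5 hn) hneg (hχ _ (by simp))
    (Nat.pos_of_ne_zero (NeZero.ne N)) (fun δ =>
      ⟨Gamma_le_Gamma0 N (conj_T_mem_Gamma N δ), hχ.conj_T δ⟩)
  have hG1 : ∀ (g : SL(2,ℤ)) (τ : ℍ), h (g • τ) * (discriminant (g • τ))⁻¹ ^ l =
      (h ∣[(12 * l : ℤ)] g) τ * (discriminant τ)⁻¹ ^ l := by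
    intro g τ
    have h5 := disc_isL1.apply_smul g τ
    have h6 := SL_slash_apply (k := (12 * l : ℤ)) h g τ
    have hd := denom_ne_zero (g : GL (Fin 2) ℝ) τ
    rw [h5, h6, mul_inv, mul_pow, _root_.zpow_neg, zpow_mul, inv_pow, zpow_natCast]
    ring
  refine ⟨fun τ => h τ * (discriminant τ)⁻¹ ^ l, IsX.of hχ ?_ ?_ ?_, ?_⟩
  · exact h1.mul (mdiff_pow mdiff_disc_inv l)
  · intro γ τ
    rw [hG1, h3]
    simp [mul_assoc]
  · intro δ
    refine MG.congr (f := (h ∣[(12 * l : ℤ)] δ) * (fun τ => (discriminant τ)⁻¹) ^ l) ?_ ?_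
    · exact (MG.of_bdd (h4 δ)).mul (mg_disc_inv.pow l)
    · intro τ
      exact (hG1 δ τ).symm
  · intro h5
    apply h2
    ext τ
    have := congrFun h5 τ
    simp only [Pi.zero_apply] at this
    rcases mul_eq_zero.mp this with h6 | h6
    · exact h6
    · exact absurd h6 (pow_ne_zero _ (inv_ne_zero (discriminant_ne_zero τ)))

/-- every character of order dividing `n` comes from a function -/
theorem exists_isChar (hn : n ≠ 0) {χ : Gamma0 N →* ℂˣ} (hχ : IsNH χ) (hpw : χ ^ n = 1) :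
    ∃ u, IsChar N n u χ := by
  obtain ⟨G, hG, hG0⟩ := exists_isX hn hχ hpw
  refine ⟨lser G ^ n, hχ, hpw, G, 1, hG, IsX.one, hG0, IsChar.one_fun_ne_zero, ?_⟩
  rw [lser_one, one_pow, mul_one]

end Fermat.Agent.AnJac
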