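import Fermat.Agent.AnJac.UdSpot
import Fermat.Agent.EichlerShimura.Period

/-!
From divisors divisible by `n` to characters.
-/

set_option autoImplicit false
set_option linter.unusedSectionVars false

open UpperHalfPlane ModularForm MatrixGroups Matrix.SpecialLinearGroup Filter Function
open scoped Manifold Topology Real ComplexConjugate

noncomputable section

namespace Fermat.Agent.AnJac

open Fermat.Agent.DimS2 Fermat.Agent.ModFun CongruenceSubgroup Fermat.Agent.GenusX0 AlgebraicCurve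
open ModularCurve
open Fermat.Agent.Curves hiding ord_pow

local notation "𝕢" => Function.Periodic.qParam

variable {k : Type*} [Field k] [IsAlgClosed k] [CharZero k] (ι : k →+* ℂ) {N : ℕ} [NeZero N]

/-- comparison with a transformation -/
lemma Spot.ud_transform {U : UD} {φ : ℍ → ℍ} {μ : ℂ} (hμ : μ ≠ 0)
    (h : ∀ τ, U.u (φ τ) = μ * U.u τ) {f : ℍ → ℂ} {r : ℤ} (hf : (Spot.ud U).HasOrd f r) {c : ℂ}
    (hc : ∀ τ, f (φ τ) = c * f τ) : c = μ ^ r := by
  refine hf.eq_of_transform (φ := φ) ?_ (μ := μ) ?_ hμ hc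
  · change Tendsto φ (comap U.u (𝓝[≠] 0)) (comap U.u (𝓝[≠] 0))
    rw [tendsto_comap_iff]
    have e : U.u ∘ φ = (fun z => μ * z) ∘ U.u := funext h
    rw [e]
    refine Tendsto.comp ?_ tendsto_comap
    refine tendsto_nhdsWithin_iff.mpr ⟨?_, ?_⟩
    · have : Tendsto (fun z : ℂ => μ * z) (𝓝 0) (𝓝 (μ * 0)) :=
        (continuous_const.mul continuous_id).tendsto 0
      rw [mul_zero] at this
      exact this.mono_left nhdsWithin_le_nhds
    · filter_upwards [self_mem_nhdsWithin] with z hz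
      exact mul_ne_zero hμ hz
  · refine (tendsto_const_nhds (x := μ)).congr' ?_
    filter_upwards [(Spot.ud U).ev_ne] with τ hτ
    change μ = U.u (φ τ) / U.u τ
    rw [h, mul_div_cancel_right₀]
    exact hτ

lemma fn_eq_ef (x : LaurentSeries k) : fn ι x = ef (coeffMap ι x) := rfl

lemma hasOrd_of_repr (U : UDN N) (g : SL(2,ℤ)) {u : modularFunctionFieldFullC k N} (hu : u ≠ 0)
    {f h : ℍ → ℂ} (hf : IsP f) (hh : IsP h)
    (he : coeffMap ι (u : LaurentSeries k) * lser h = lser f)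
    {t : ℤ} (ht : (Spot.ud U.toUD).HasOrd (fun τ => h (g • τ)) t) :
    (Spot.ud U.toUD).HasOrd (fun τ => f (g • τ)) ((sigma ι U g u).order + t) := by
  obtain ⟨a, b, hb, hab⟩ := IsFractionRing.div_surjective (A := Bk k N) u
  have hb0 : b ≠ 0 := nonZeroDivisors.ne_zero hb
  have hinj : Injective (algebraMap (Bk k N) (modularFunctionFieldFullC k N)) :=
    IsFractionRing.injective _ _
  have hb0' : algebraMap (Bk k N) (modularFunctionFieldFullC k N) b ≠ 0 := by
    rw [Ne, map_eq_zero_iff _ hinj]; exact hb0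
  have hab' : u * algebraMap (Bk k N) (modularFunctionFieldFullC k N) b =
      algebraMap (Bk k N) (modularFunctionFieldFullC k N) a := by
    rw [← hab, div_mul_cancel₀ _ hb0']
  have hab2 : (u : LaurentSeries k) * (b : LaurentSeries k) = a := by
    have := congrArg (fun x : modularFunctionFieldFullC k N => (x : LaurentSeries k)) hab'
    exact this
  have hfn : f * fn ι (b : LaurentSeries k) = fn ι (a : LaurentSeries k) * h := by
    have h1 : lser f * coeffMap ι (b : LaurentSeries k) = coeffMap ι (a : LaurentSeries k) * lser h := by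
      rw [← he, ← hab2, map_mul]
      ring
    have h2 := congrArg ef h1
    rw [ef_mul hf.lser_mem (conv_of_mem_Bk ι b.2), ef_mul (conv_of_mem_Bk ι a.2) hh.lser_mem,
      hf.ef_lser, hh.ef_lser] at h2
    exact h2
  have hsb : (sigma ι U g (algebraMap _ _ b)) ≠ 0 := (map_ne_zero _).mpr hb0'
  have hsu : (sigma ι U g u) ≠ 0 := (map_ne_zero _).mpr hu
  have hsab : sigma ι U g u * sigma ι U g (algebraMap _ _ b) = sigma ι U g (algebraMap _ _ a) := by
    rw [← map_mul, hab']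
  have hsa : (sigma ι U g (algebraMap _ _ a)) ≠ 0 := by rw [← hsab]; exact mul_ne_zero hsu hsb
  have hord : (sigma ι U g (algebraMap _ _ a)).order = (sigma ι U g u).order +
      (sigma ι U g (algebraMap _ _ b)).order := by
    rw [← hsab, HahnSeries.order_mul hsu hsb]
  have hA := HasExp.hasOrd (by
    rw [sigma_algebraMap]; exact expB_spec ι U g a : HasExp U.toUD _ (sigma ι U g (algebraMap _ _ a))) hsa
  have hB := HasExp.hasOrd (by
    rw [sigma_algebraMap]; exact expB_spec ι U g b : HasExp U.toUD _ (sigma ι U g (algebraMap _ _ b))) hsb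
  have h1 := hA.mul ht
  have h2 : ((fun τ => fn ι (a : LaurentSeries k) (g • τ)) * fun τ => h (g • τ)) =
      (fun τ => f (g • τ)) * fun τ => fn ι (b : LaurentSeries k) (g • τ) := by
    funext τ
    exact (congrFun hfn (g • τ)).symm
  rw [h2] at h1
  have h3 := Spot.HasOrd.of_mul h1 hB
  convert h3 using 1
  rw [hord]; ring

/-- dichotomy for embeddings -/
lemma exists_gcd_order (U : UDN N) (g : SL(2,ℤ)) {n : ℕ} {u : modularFunctionFieldFullC k N}
    (hu : u ≠ 0) (hord : ∀ v : Place k (modularFunctionFieldFullC k N), (n : ℤ) ∣ v.ord u) :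
    ∃ (e m : ℤ) (t : modularFunctionFieldFullC k N), t ≠ 0 ∧ (sigma ι U g t).order = e ∧
      (sigma ι U g u).order = n * (e * m) := by
  by_cases h : ∀ z : modularFunctionFieldFullC k N, (sigma ι U g z).order = 0
  · exact ⟨0, 0, 1, one_ne_zero, h 1, by rw [h u]; ring⟩
  · push Not at h
    obtain ⟨z, hz⟩ := h
    obtain ⟨v, ε, hε, hv⟩ := exists_place_of_emb (ι := ι) (sigma ι U g) (sigma_const ι U g) hz
    obtain ⟨m, hm⟩ := hord v
    obtain ⟨t, ht0, ht⟩ := exists_ord_eq v 1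
    refine ⟨ε, m, t, ht0, by rw [hv t ht0, ht, mul_one], ?_⟩
    rw [hv u hu, hm]; ring

/-- `u` has character `χ` -/
structure IsChar (N n : ℕ) (u : LaurentSeries ℂ) (χ : Gamma0 N →* ℂˣ) : Prop where
  nh : IsNH χ
  pw : χ ^ n = 1
  ex : ∃ G b : ℍ → ℂ, IsX N χ G ∧ IsX N 1 b ∧ G ≠ 0 ∧ b ≠ 0 ∧ u * lser b ^ n = lser G ^ n

lemma coeffMap_mem_FF {u : LaurentSeries k} (hu : u ∈ modularFunctionFieldFullC k N) :
    coeffMap ι u ∈ FF N := by
  let _ := ι.toAlgebra
  exact coeffMap_mem_EN (L := ℂ) hu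

lemma coeffMap_injective : Injective (coeffMap ι) := by
  intro x y h
  ext m
  apply ι.injective
  have := congrArg (fun F => HahnSeries.coeff F m) h
  simpa using this

lemma IsX.pow_one {f : ℍ → ℂ} (hf : IsX N 1 f) (n : ℕ) : IsX N 1 (f ^ n) := by
  have := hf.pow n
  exact ⟨this.isA, fun γ τ => by have := this.inv γ τ; simpa using this⟩

lemma isX_jev (B : Polynomial ℂ) : IsX N 1 (ef (jev ℂ B)) :=
  isX_of_level_one N (isP_ef (jev_mem B)) (fun g τ => by rw [ef_jev, ef_jev, jfun_smul])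

lemma ef_jev_smul (B : Polynomial ℂ) (g : SL(2,ℤ)) (τ : ℍ) :
    ef (jev ℂ B) (g • τ) = ef (jev ℂ B) τ := by
  rw [ef_jev, ef_jev, jfun_smul]

lemma ef_jev_ne_zero {B : Polynomial ℂ} (hB : B ≠ 0) : ef (jev ℂ B) ≠ 0 := by
  intro h
  apply hB
  apply jev_injective
  rw [map_zero]
  exact ef_injective (jev_mem B) h

/-- every element of the function field is a quotient of functions, with denominator a polynomial
in `j` -/
lemma exists_repr_FF {u : LaurentSeries k} (hu : u ∈ modularFunctionFieldFullC k N) :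
    ∃ (f : ℍ → ℂ) (B : Polynomial ℂ), IsX N 1 f ∧ B ≠ 0 ∧
      coeffMap ι u * lser (ef (jev ℂ B)) = lser f := by
  obtain ⟨f, hf, B, hB, h⟩ := mem_FF.mp (coeffMap_mem_FF ι hu)
  exact ⟨f, B, hf, hB, by rw [lser_ef (jev_mem B), h]⟩

lemma smul_ne_zero_fun {f : ℍ → ℂ} (hf : f ≠ 0) (g : SL(2,ℤ)) : (fun τ : ℍ => f (g • τ)) ≠ 0 := by
  intro h
  apply hf
  ext τ
  have := congrFun h (g⁻¹ • τ)
  simpa using this

/-- multiplier of a transformation which preserves all functions of the function field -/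
lemma multiplier_pow (U : UDN N) (g : SL(2,ℤ)) {φ : ℍ → ℍ} {μ : ℂ} (hμ : μ ≠ 0)
    (h : ∀ τ, U.u (φ τ) = μ * U.u τ)
    (hinv : ∀ f : ℍ → ℂ, IsX N 1 f → ∀ τ, f (g • φ τ) = f (g • τ))
    (hjev : ∀ f : ℍ → ℂ, IsX N 1 f → f ≠ 0 → ∃ r, (Spot.ud U.toUD).HasOrd (fun τ => f (g • τ)) r)
    {t : modularFunctionFieldFullC k N} (ht : t ≠ 0) : μ ^ (sigma ι U g t).order = 1 := by
  obtain ⟨f, B, hf, hB, he⟩ := exists_repr_FF ι t.2
  obtain ⟨s, hs⟩ := hjev _ (isX_jev (N := N) B) (ef_jev_ne_zero hB)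
  have h1 := hasOrd_of_repr ι U g ht (hf.isP isNH_one) ((isX_jev (N := N) B).isP isNH_one) he hs
  have h2 := Spot.ud_transform hμ h h1 (c := 1) (fun τ => by rw [one_mul]; exact hinv f hf τ)
  have h3 := Spot.ud_transform hμ h hs (c := 1) (fun τ => by rw [one_mul]; exact hinv _ (isX_jev B) τ)
  rw [zpow_add₀ hμ, ← h3, mul_one] at h2
  exact h2.symm

theorem trace_sq_of_abs_le {γ : SL(2,ℤ)} (h : |γ 0 0 + γ 1 1| ≤ 2)
    (h2 : (γ : Matrix (Fin 2) (Fin 2) ℤ).trace ^ 2 ≠ 4) : ∃ z : ℍ, γ • z = z := by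
  rw [Matrix.trace_fin_two] at h2
  set a := γ 0 0 with ha
  set b := γ 0 1 with hb
  set c := γ 1 0 with hc
  set d := γ 1 1 with hd
  have hdet := Matrix.SpecialLinearGroup.det_coe γ
  rw [Matrix.det_fin_two] at hdet
  have h3 : (a + d) ^ 2 < 4 := by
    have h4 : (a + d) ^ 2 ≤ 4 := by
      have := sq_le_sq' (abs_le.mp h).1 (abs_le.mp h).2
      simpa using this
    omega
  have hc0 : c ≠ 0 := by
    intro h0
    rw [← hc, h0, mul_zero, sub_zero] at hdet
    have : (a + d) ^ 2 = 4 + (a - d) ^ 2 := by linear_combination 4 * hdet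
    nlinarith [sq_nonneg (a - d)]
  -- `z = (a - d + i √(4 - t²)) / (2c)` up to sign
  have hpos : (0:ℝ) < 4 - ((a : ℝ) + d) ^ 2 := by
    have : ((a : ℝ) + d) ^ 2 < 4 := by exact_mod_cast h3
    linarith
  set D : ℝ := Real.sqrt (4 - ((a : ℝ) + d) ^ 2) with hD
  have hD0 : 0 < D := Real.sqrt_pos.mpr hpos
  have hD2 : D ^ 2 = 4 - ((a : ℝ) + d) ^ 2 := Real.sq_sqrt hpos.le
  have hcR : (c : ℝ) ≠ 0 := by exact_mod_cast hc0
  obtain ⟨s, hs, hs2⟩ : ∃ s : ℝ, s ^ 2 = 1 ∧ 0 < s * c := by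
    rcases lt_or_gt_of_ne hcR with h | h
    · exact ⟨-1, by norm_num, by linarith⟩
    · exact ⟨1, by norm_num, by linarith⟩
  refine ⟨⟨⟨(a - d) / (2 * c), s * D / (2 * c)⟩, ?_⟩, ?_⟩
  · change 0 < s * D / (2 * c)
    have h5 : s * D / (2 * c) = D * (s * c) / (2 * c ^ 2) := by field_simp
    rw [h5]
    positivity
  · apply UpperHalfPlane.ext
    rw [UpperHalfPlane.coe_specialLinearGroup_apply]
    set z : ℂ := ⟨(a - d) / (2 * c), s * D / (2 * c)⟩ with hz
    have hcC : (c : ℂ) ≠ 0 := by exact_mod_cast hc0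
    have hz2 : (c : ℂ) * z ^ 2 + (d - a) * z - b = 0 := by
      have hz' : z = ((a : ℂ) - d + s * D * Complex.I) / (2 * c) := by
        rw [hz, Complex.mk_eq_add_mul_I]
        push_cast
        field_simp
      have e1 : (s : ℂ) ^ 2 = 1 := by exact_mod_cast hs
      have e2 : (D : ℂ) ^ 2 = 4 - ((a : ℂ) + d) ^ 2 := by exact_mod_cast hD2
      have e3 : (a : ℂ) * d - b * c = 1 := by exact_mod_cast hdet
      have e4 := Complex.I_sq
      rw [hz']
      field_simp
      linear_combination (Complex.I ^ 2 * D ^ 2) * e1 + Complex.I ^ 2 * e2 + (4 - ((a:ℂ) + d) ^ 2) * e4 + 4 * e3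
    have hz2' : ((c : ℂ) * z + d) ≠ 0 := by
      intro h0
      have := congrArg Complex.im h0
      simp [hz] at this
      rcases this with h6 | h6
      · exact hc0 h6
      · rcases h6 with h7 | h7
        · rcases h7 with h8 | h8
          · rw [h8] at hs; norm_num at hs
          · exact hD0.ne' h8
        · exact hc0 h7
    simp only [algebraMap_int_eq, Int.coe_castRingHom, Complex.ofReal_intCast]
    change ((a : ℂ) * z + b) / (c * z + d) = z
    rw [div_eq_iff hz2']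
    linear_combination -hz2


lemma cay_smul_ne {z : ℍ} (γ : SL(2,ℤ)) :
    conj (denom (γ : GL (Fin 2) ℝ) z) / denom (γ : GL (Fin 2) ℝ) z ≠ 0 := by
  have h := denom_ne_zero (γ : GL (Fin 2) ℝ) z
  refine div_ne_zero ?_ h
  rw [Ne, map_eq_zero]
  exact h

lemma one_smul_fun (f : ℍ → ℂ) : (fun τ : ℍ => f ((1 : SL(2,ℤ)) • τ)) = f := by
  funext τ; rw [one_smul]

lemma exists_ne_zero {f : ℍ → ℂ} (h : f ≠ 0) : ∃ τ, f τ ≠ 0 := by
  by_contra hcon
  push Not at hcon
  exact h (funext hcon)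

lemma T_pow_smul_cusp (M : ℕ) [NeZero M] (m : ℤ) (τ : ℍ) :
    (cuspUD M).u (ModularGroup.T ^ m • τ) = ((zetaU M : ℂˣ) : ℂ) ^ m * (cuspUD M).u τ := by
  have h1 : ∀ (m : ℕ) (τ : ℍ), (cuspUD M).u (ModularGroup.T ^ m • τ) =
      ((zetaU M : ℂˣ) : ℂ) ^ m * (cuspUD M).u τ := by
    intro m
    induction m with
    | zero => intro τ; simp
    | succ m ih =>
      intro τ
      rw [pow_succ, mul_smul, ih, pow_succ, mul_assoc]
      congr 1
      exact (cuspUD M).smul τ
  obtain ⟨j, rfl | rfl⟩ := m.eq_nat_or_neg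
  · rw [zpow_natCast, zpow_natCast, h1]
  · have h2 := h1 j (ModularGroup.T ^ (-(j : ℤ)) • τ)
    have h3 : ModularGroup.T ^ j • (ModularGroup.T ^ (-(j : ℤ)) • τ) = τ := by
      rw [← mul_smul, _root_.zpow_neg, zpow_natCast, mul_inv_cancel, one_smul]
    rw [h3] at h2
    have h4 : ((zetaU M : ℂˣ) : ℂ) ^ j ≠ 0 := pow_ne_zero _ (Units.ne_zero _)
    rw [h2, _root_.zpow_neg, zpow_natCast, _root_.zpow_neg, zpow_natCast, inv_mul_cancel_left₀ h4]

lemma zetaU_pow (n N : ℕ) [NeZero n] [NeZero N] :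
    haveI : NeZero (n * N) := ⟨mul_ne_zero (NeZero.ne n) (NeZero.ne N)⟩
    ((zetaU (n * N) : ℂˣ) : ℂ) ^ n = (zetaU N : ℂˣ) := by
  have h1 : (N : ℂ) ≠ 0 := by exact_mod_cast NeZero.ne N
  have h2 : (n : ℂ) ≠ 0 := by exact_mod_cast NeZero.ne n
  rw [zetaU, zetaU, Units.val_mk0, Units.val_mk0, ← Complex.exp_nat_mul]
  congr 1
  push_cast
  field_simp

theorem exists_char {n : ℕ} (hn : n ≠ 0) {u : modularFunctionFieldFullC k N} (hu : u ≠ 0)
    (hord : ∀ v : Place k (modularFunctionFieldFullC k N), (n : ℤ) ∣ v.ord u) :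
    ∃ χ : Gamma0 N →* ℂˣ, IsChar N n (coeffMap ι (u : LaurentSeries k)) χ := by
  have hNn : NeZero n := ⟨hn⟩
  obtain ⟨f, B, hf, hB, he⟩ := exists_repr_FF ι u.2
  set b := ef (jev ℂ B) with hb
  have hbX : IsX N 1 b := isX_jev B
  have hb0 : b ≠ 0 := ef_jev_ne_zero hB
  have hcu : coeffMap ι (u : LaurentSeries k) ≠ 0 := by
    rw [Ne, map_eq_zero_iff _ (coeffMap_injective ι)]
    exact fun h => hu (Subtype.ext h)
  have hlb : lser b ≠ 0 := by
    rw [Ne, lser_eq_zero_iff (hbX.isP isNH_one)]; exact hb0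
  have hf0 : f ≠ 0 := by
    intro h
    have h1 := (lser_eq_zero_iff (hf.isP isNH_one)).mpr h
    rw [h1] at he
    exact mul_ne_zero hcu hlb he
  set C := f * b ^ (n - 1) with hC
  have hCX : IsX N 1 C := hf.mul_one (hbX.pow_one _)
  have hbn0 : b ^ (n - 1) ≠ 0 := by
    intro h
    obtain ⟨τ, hτ⟩ := exists_ne_zero hb0
    have := congrFun h τ
    rw [Pi.pow_apply] at this
    exact pow_ne_zero _ hτ this
  have hC0 : C ≠ 0 := by
    intro h
    rcases (UpperHalfPlane.mul_eq_zero_iff hf.isA.mdiff (hbX.pow_one _).isA.mdiff).mp h with h | h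
    · exact hf0 h
    · exact hbn0 h
  have hCinv : ∀ γ : Gamma0 N, ∀ τ, C ((γ : SL(2,ℤ)) • τ) = C τ := by
    intro γ τ
    have := hCX.inv γ τ
    simpa using this
  -- order formula
  have key : ∀ (U : UDN N) (g : SL(2,ℤ)) (t : ℤ),
      (Spot.ud U.toUD).HasOrd (fun τ => b (g • τ)) t →
      ∃ (e m : ℤ) (t' : modularFunctionFieldFullC k N), t' ≠ 0 ∧ (sigma ι U g t').order = e ∧
        (Spot.ud U.toUD).HasOrd (fun τ => C (g • τ)) (n * (e * m + t)) := by
    intro U g t ht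
    obtain ⟨e, m, t', ht'0, ht', hm⟩ := exists_gcd_order ι U g hu hord
    refine ⟨e, m, t', ht'0, ht', ?_⟩
    have h1 := hasOrd_of_repr ι U g hu (hf.isP isNH_one) (hbX.isP isNH_one) he ht
    have h2 := h1.mul (ht.pow (n - 1))
    have h3 : (fun τ => f (g • τ)) * (fun τ => b (g • τ)) ^ (n - 1) = fun τ => C (g • τ) := rfl
    rw [h3] at h2
    convert h2 using 1
    rw [hm]
    push_cast [Nat.one_le_iff_ne_zero.mpr hn]
    ring
  obtain ⟨G, hG, hGn⟩ := exists_root_H hn hCX.isA.mdiff hC0 (by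
    intro z
    have ht := Spot.hasOrd_ud_pt (ptGen z) hbX.isA.mdiff hb0
    obtain ⟨e, m, _, _, _, h⟩ := key ((ptGen z).toUDN N) 1 _ (by
      rw [one_smul_fun]; exact ht)
    have h2 := Spot.hasOrd_ud_pt (ptGen z) hCX.isA.mdiff hC0
    have h3 : (Spot.ud (ptGen z).toUD).HasOrd C
        (n * (e * m + (analyticOrderNatAt (b ∘ ofComplex) (ptGen z).pt))) := by
      rw [one_smul_fun] at h; exact h
    have h4 := h2.unique h3
    have h5 : (n : ℤ) ∣ (analyticOrderNatAt (C ∘ ofComplex) z : ℤ) := ⟨_, h4⟩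
    exact_mod_cast h5)
  have hG0 : G ≠ 0 := by
    rintro rfl
    apply hC0
    rw [← hGn, zero_pow hn]
  obtain ⟨τ₁, hτ₁⟩ := exists_ne_zero hG0
  have hμ : ∀ γ : Gamma0 N, ∃ μ : ℂˣ, μ ^ n = 1 ∧ ∀ τ, G ((γ : SL(2,ℤ)) • τ) = μ * G τ := by
    intro γ
    refine exists_root_scalar hn (mdiff_comp_smul hG _) hG hG0 ?_
    ext τ
    rw [Pi.pow_apply]
    have := hCinv γ τ
    rw [← hGn] at this
    exact this
  choose μ hμn hμ using hμ
  have hcancel : ∀ c c' : ℂˣ, (c : ℂ) * G τ₁ = c' * G τ₁ → c = c' := fun c c' h =>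
    Units.ext (mul_right_cancel₀ hτ₁ h)
  let χ : Gamma0 N →* ℂˣ :=
    { toFun := μ
      map_one' := by
        apply hcancel
        rw [← hμ, Units.val_one, one_mul]
        simp
      map_mul' := by
        intro γ γ'
        apply hcancel
        rw [← hμ, Subgroup.coe_mul, mul_smul, hμ, hμ, Units.val_mul, mul_assoc] }
  have hχ : ∀ (γ : Gamma0 N) (τ : ℍ), G ((γ : SL(2,ℤ)) • τ) = χ γ * G τ := hμ
  have hχn : ∀ γ : Gamma0 N, χ γ ^ n = 1 := hμn
  -- moderate growth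
  have hGmg : MGA G := by
    intro δ
    refine MG.of_pow hn ?_
    have := hCX.isA.mg δ
    rw [← hGn] at this
    exact this
  have hnh : IsNH χ := by
    intro γ hγ
    by_cases htr : ((γ : SL(2,ℤ)) : Matrix (Fin 2) (Fin 2) ℤ).trace ^ 2 = 4
    · -- parabolic
      obtain ⟨δ, hδ⟩ := EichlerShimura.exists_fixed_vector (γ : SL(2,ℤ)) htr
      obtain ⟨j, hj⟩ := ModularGroup.exists_eq_T_zpow_of_c_eq_zero hδ
      have hjτ : ∀ τ : ℍ, δ • (ModularGroup.T ^ j • τ) = (γ : SL(2,ℤ)) • (δ • τ) := by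
        intro τ
        rw [← hj, ← mul_smul, ← mul_smul]
        congr 1
        group
      set M := n * N with hM
      have hMz : NeZero M := ⟨mul_ne_zero hn (NeZero.ne N)⟩
      set ζ : ℂ := ((zetaU N : ℂˣ) : ℂ) with hζ
      set ζ' : ℂ := ((zetaU M : ℂˣ) : ℂ) with hζ'
      have hζ0 : ζ ^ j ≠ 0 := zpow_ne_zero _ (Units.ne_zero _)
      have hζ'0 : ζ' ^ j ≠ 0 := zpow_ne_zero _ (Units.ne_zero _)
      have hζζ : ζ' ^ n = ζ := zetaU_pow n N
      have hex : ∀ f : ℍ → ℂ, IsX N 1 f → f ≠ 0 →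
          ∃ r, (Spot.ud (cuspUDN N).toUD).HasOrd (fun τ => f (δ • τ)) r := by
        intro f hf hf0
        exact Spot.hasOrd_ud_cusp N (mdiff_comp_smul hf.isA.mdiff δ) (hf.isA.per δ) (hf.isA.mg δ)
          (smul_ne_zero_fun hf0 δ)
      obtain ⟨t, ht⟩ := hex b hbX hb0
      obtain ⟨e, m, t', ht'0, ht', hord'⟩ := key (cuspUDN N) δ t ht
      have hinv : ∀ f : ℍ → ℂ, IsX N 1 f → ∀ τ, f (δ • (ModularGroup.T ^ j • τ)) = f (δ • τ) := by
        intro f hf τ
        rw [hjτ]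
        have := hf.inv γ (δ • τ)
        simpa using this
      have h1 : (ζ ^ j) ^ e = 1 := by
        rw [← ht']
        exact multiplier_pow ι (cuspUDN N) δ hζ0 (T_pow_smul_cusp N j) hinv hex ht'0
      have h2 : (ζ ^ j) ^ t = 1 :=
        (Spot.ud_transform hζ0 (T_pow_smul_cusp N j) ht (c := 1)
          (fun τ => by rw [one_mul]; exact hinv b hbX τ)).symm
      -- order of `G`
      have hT : ∀ τ, G (δ • (ModularGroup.T ^ M • τ)) = G (δ • τ) := by
        intro τ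
        have hmem := Gamma_le_Gamma0 N (conj_T_mem_Gamma N δ)
        have e1 : δ • (ModularGroup.T ^ M • τ) =
            (((⟨_, hmem⟩ : Gamma0 N) ^ n : Gamma0 N) : SL(2,ℤ)) • (δ • τ) := by
          rw [← mul_smul, ← mul_smul]
          congr 1
          rw [Subgroup.coe_pow, conj_pow]
          rw [hM, mul_comm n N, pow_mul]
          group
        rw [e1, hχ, map_pow, hχn]
        simp
      obtain ⟨r, hr⟩ := Spot.hasOrd_ud_cusp M (mdiff_comp_smul hG δ) hT (hGmg δ)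
        (smul_ne_zero_fun hG0 δ)
      have h3 := hasOrd_cusp_mul (n := n) hord'
      have h4 := hr.pow n
      have h5 : (fun τ => G (δ • τ)) ^ n = fun τ => C (δ • τ) := by
        rw [← hGn]; rfl
      rw [h5] at h4
      have h6 := h4.unique h3
      have h7 : r = n * (e * m + t) := mul_left_cancel₀ (by exact_mod_cast hn) h6
      have h8 := Spot.ud_transform hζ'0 (T_pow_smul_cusp M j) hr (c := χ γ) (fun τ => by
        rw [hjτ, hχ])
      have h9 : (χ γ : ℂ) = 1 := by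
        rw [h8, h7, zpow_mul, zpow_natCast, ← zpow_natCast, zpow_comm ζ' j, zpow_natCast, hζζ,
          zpow_add₀ hζ0, zpow_mul, h1, _root_.one_zpow, h2, one_mul]
      exact Units.ext h9
    · -- elliptic
      obtain ⟨z, hz⟩ := trace_sq_of_abs_le hγ htr
      set μ' : ℂ := conj (denom ((γ : SL(2,ℤ)) : GL (Fin 2) ℝ) z) /
        denom ((γ : SL(2,ℤ)) : GL (Fin 2) ℝ) z with hμ'
      have hμ'0 : μ' ≠ 0 := cay_smul_ne _
      have hcay : ∀ τ, ((ptGen z).toUDN N).u ((γ : SL(2,ℤ)) • τ) = μ' * ((ptGen z).toUDN N).u τ :=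
        fun τ => cay_smul hz τ
      have hex : ∀ f : ℍ → ℂ, IsX N 1 f → f ≠ 0 →
          ∃ r, (Spot.ud ((ptGen z).toUDN N).toUD).HasOrd (fun τ => f ((1 : SL(2,ℤ)) • τ)) r := by
        intro f hf hf0
        have := Spot.hasOrd_ud_pt (ptGen z) hf.isA.mdiff hf0
        rw [one_smul_fun]
        exact ⟨_, this⟩
      obtain ⟨t, ht⟩ := hex b hbX hb0
      obtain ⟨e, m, t', ht'0, ht', hord'⟩ := key ((ptGen z).toUDN N) 1 t ht
      have hinv : ∀ f : ℍ → ℂ, IsX N 1 f → ∀ τ, f ((1 : SL(2,ℤ)) • ((γ : SL(2,ℤ)) • τ)) =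
          f ((1 : SL(2,ℤ)) • τ) := by
        intro f hf τ
        rw [one_smul, one_smul]
        have := hf.inv γ τ
        simpa using this
      have h1 : μ' ^ e = 1 := by
        rw [← ht']
        exact multiplier_pow ι ((ptGen z).toUDN N) 1 hμ'0 hcay hinv hex ht'0
      have h2 : μ' ^ t = 1 :=
        (Spot.ud_transform hμ'0 hcay ht (c := 1) (fun τ => by
          rw [one_mul]; exact hinv b hbX τ)).symm
      have hr := Spot.hasOrd_ud_pt (ptGen z) hG hG0
      set r := (analyticOrderNatAt (G ∘ ofComplex) (ptGen z).pt : ℤ) with hrdef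
      have h4 := hr.pow n
      rw [hGn] at h4
      rw [one_smul_fun] at hord'
      have h6 := h4.unique hord'
      have h7 : r = e * m + t := mul_left_cancel₀ (by exact_mod_cast hn) h6
      have h8 := Spot.ud_transform hμ'0 hcay hr (c := χ γ) (fun τ => hχ γ τ)
      have h9 : (χ γ : ℂ) = 1 := by
        rw [h8, h7, zpow_add₀ hμ'0, zpow_mul, h1, _root_.one_zpow, h2, one_mul]
      exact Units.ext h9
  refine ⟨χ, hnh, MonoidHom.ext fun γ => hχn γ, G, b, IsX.of hnh hG hχ hGmg, hbX, hG0, hb0, ?_⟩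
  have hGP : IsP G := (IsX.of hnh hG hχ hGmg).isP hnh
  rw [← lser_pow hGP, hGn, hC, lser_mul (hf.isP isNH_one) ((hbX.pow_one _).isP isNH_one), ← he,
    lser_pow (hbX.isP isNH_one)]
  obtain ⟨m, rfl⟩ := Nat.exists_eq_succ_of_ne_zero hn
  rw [Nat.succ_sub_one, pow_succ]
  ring

end Fermat.Agent.AnJac
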