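import Fermat.Agent.AnJac.Forms

/-!
Conjugates over cosets and the characteristic polynomial over `ℂ[j]`.
-/

set_option autoImplicit false
set_option linter.unusedSectionVars false

open UpperHalfPlane ModularForm MatrixGroups Matrix.SpecialLinearGroup Filter Function
open scoped Manifold Topology Real

noncomputable section

namespace Fermat.Agent.AnJac

open Fermat.Agent.DimS2 Fermat.Agent.ModFun CongruenceSubgroup

/-- conjugate of `f` at a coset -/
def tw {N : ℕ} (f : ℍ → ℂ) (x : Cos N) (τ : ℍ) : ℂ := f ((Quotient.out x)⁻¹ • τ)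

variable {N : ℕ}

lemma IsX.inv_one {f : ℍ → ℂ} (hf : IsX N 1 f) {γ : SL(2,ℤ)} (hγ : γ ∈ Gamma0 N) (τ : ℍ) :
    f (γ • τ) = f τ := by
  have := hf.inv ⟨γ, hγ⟩ τ
  simpa using this

lemma tw_mk {f : ℍ → ℂ} (hf : IsX N 1 f) (g : SL(2,ℤ)) (τ : ℍ) :
    tw f (QuotientGroup.mk g : Cos N) τ = f (g⁻¹ • τ) := by
  unfold tw
  have h : (QuotientGroup.mk (Quotient.out (QuotientGroup.mk g : Cos N)) : Cos N) =
      QuotientGroup.mk g := Quotient.out_eq _
  rw [QuotientGroup.eq] at h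
  have h2 := hf.inv_one h (g⁻¹ • τ)
  rw [← h2, ← mul_smul]
  simp

lemma tw_smul {f : ℍ → ℂ} (hf : IsX N 1 f) (g : SL(2,ℤ)) (x : Cos N) (τ : ℍ) :
    tw f (g • x) (g • τ) = tw f x τ := by
  obtain ⟨h, rfl⟩ := QuotientGroup.mk_surjective x
  have : g • (QuotientGroup.mk h : Cos N) = QuotientGroup.mk (g * h) := rfl
  rw [this, tw_mk hf, tw_mk hf, ← mul_smul]
  congr 2
  group

lemma tw_smul' {f : ℍ → ℂ} (hf : IsX N 1 f) (g : SL(2,ℤ)) (x : Cos N) (τ : ℍ) :
    tw f x (g • τ) = tw f (g⁻¹ • x) τ := by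
  have := tw_smul hf g (g⁻¹ • x) τ
  rwa [smul_inv_smul] at this

lemma tw_isA {f : ℍ → ℂ} (hf : IsX N 1 f) (x : Cos N) : IsA N (tw f x) :=
  hf.isA.translate _

/-! ### evaluation -/

/-- `C` into convergent series -/
def Cc : ℂ →+* convLaurent where
  toFun c := ⟨HahnSeries.C c, C_mem c⟩
  map_one' := Subtype.ext (map_one _)
  map_mul' _ _ := Subtype.ext (map_mul _ _ _)
  map_zero' := Subtype.ext (map_zero _)
  map_add' _ _ := Subtype.ext (map_add _ _ _)

lemma evq_Cc (τ : ℍ) (c : ℂ) : evq τ (Cc c) = c := congrFun (ef_C c) τ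

/-- `P(j)` as convergent series -/
def jevc : Polynomial ℂ →+* convLaurent := Polynomial.eval₂RingHom Cc jConv

lemma coe_jevc (P : Polynomial ℂ) : (jevc P : LaurentSeries ℂ) = jev ℂ P := by
  have h : (convLaurent.subtype.comp jevc) = jev ℂ := by
    ext c
    · simp [jevc, jev, Cc]
    · simp [jevc, jev, jConv]
  exact congrArg (fun φ : Polynomial ℂ →+* LaurentSeries ℂ => φ P) h

lemma evq_jevc (τ : ℍ) (P : Polynomial ℂ) : evq τ (jevc P) = P.eval (jfun τ) := by
  have h : (evq τ).comp jevc = Polynomial.evalRingHom (jfun τ) := by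
    ext c
    · simp [jevc, evq_Cc]
    · simp [jevc, evq_jConv]
  exact congrArg (fun φ : Polynomial ℂ →+* ℂ => φ P) h

lemma jev_mem (P : Polynomial ℂ) : jev ℂ P ∈ convLaurent := coe_jevc P ▸ (jevc P).2

lemma ef_jev (P : Polynomial ℂ) (τ : ℍ) : ef (jev ℂ P) τ = P.eval (jfun τ) := by
  rw [← evq_jevc, ef_eq (jev_mem P)]
  congr 1
  exact Subtype.ext (coe_jevc P).symm

lemma exists_jpoly' {f : ℍ → ℂ} (hf : IsP f) (hS : ∀ g : SL(2,ℤ), ∀ τ, f (g • τ) = f τ) :
    ∃ P : Polynomial ℂ, ∀ τ, f τ = P.eval (jfun τ) := by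
  obtain ⟨P, hP⟩ := exists_jpoly hf hS
  refine ⟨P, fun τ => ?_⟩
  rw [← ef_jev, ← hP, hf.ef_lser]

/-! ### characteristic polynomial -/

variable [Fintype (Cos N)]

/-- the polynomial with functions as coefficients -/
def cpA {f : ℍ → ℂ} (hf : IsX N 1 f) : Polynomial (Asub N) :=
  ∏ x : Cos N, (Polynomial.X - Polynomial.C (⟨tw f x, tw_isA hf x⟩ : Asub N))

/-- evaluation at a point -/
def evA (N : ℕ) (τ : ℍ) : Asub N →+* ℂ where
  toFun f := f.1 τ
  map_one' := rfl
  map_mul' _ _ := rfl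
  map_zero' := rfl
  map_add' _ _ := rfl

lemma cpA_map {f : ℍ → ℂ} (hf : IsX N 1 f) (τ : ℍ) :
    (cpA hf).map (evA N τ) = ∏ x : Cos N, (Polynomial.X - Polynomial.C (tw f x τ)) := by
  unfold cpA
  rw [Polynomial.map_prod]
  refine Finset.prod_congr rfl fun x _ => ?_
  rw [Polynomial.map_sub, Polynomial.map_X, Polynomial.map_C]
  rfl

lemma cpA_coeff_inv {f : ℍ → ℂ} (hf : IsX N 1 f) (i : ℕ) (g : SL(2,ℤ)) (τ : ℍ) :
    ((cpA hf).coeff i).1 (g • τ) = ((cpA hf).coeff i).1 τ := by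
  have h1 : ∀ τ : ℍ, ((cpA hf).coeff i).1 τ =
      (∏ x : Cos N, (Polynomial.X - Polynomial.C (tw f x τ))).coeff i := by
    intro τ
    rw [← cpA_map hf, Polynomial.coeff_map]
    rfl
  rw [h1, h1]
  congr 1
  rw [← Equiv.prod_comp (MulAction.toPerm g)]
  refine Finset.prod_congr rfl fun x _ => ?_
  rw [MulAction.toPerm_apply, tw_smul hf]

lemma cpA_coeff_isP {f : ℍ → ℂ} (hf : IsX N 1 f) (i : ℕ) : IsP ((cpA hf).coeff i).1 := by
  have h : IsA N ((cpA hf).coeff i).1 := ((cpA hf).coeff i).2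
  refine ⟨h.mdiff, cpA_coeff_inv hf i _, (h.mg 1).congr fun τ => by rw [one_smul]⟩

/-- characteristic polynomial of `f` over `ℂ[j]` -/
theorem exists_charpoly {f : ℍ → ℂ} (hf : IsX N 1 f) :
    ∃ Q : Polynomial (Polynomial ℂ), Q.Monic ∧ Q.natDegree = Fintype.card (Cos N) ∧
      ∀ τ : ℍ, Q.map (Polynomial.evalRingHom (jfun τ)) =
        ∏ x : Cos N, (Polynomial.X - Polynomial.C (tw f x τ)) := by
  choose P hP using fun i : ℕ => exists_jpoly' (cpA_coeff_isP hf i) (cpA_coeff_inv hf i)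
  set μ := Fintype.card (Cos N)
  have hdeg : (∑ i ∈ Finset.range μ, Polynomial.C (P i) * Polynomial.X ^ i).degree < (μ : WithBot ℕ) := by
    rw [Polynomial.degree_lt_iff_coeff_zero]
    intro m hm
    rw [Polynomial.finsetSum_coeff]
    refine Finset.sum_eq_zero fun i hi => ?_
    rw [Polynomial.coeff_C_mul, Polynomial.coeff_X_pow, if_neg, mul_zero]
    have := Finset.mem_range.mp hi
    omega
  refine ⟨Polynomial.X ^ μ + ∑ i ∈ Finset.range μ, Polynomial.C (P i) * Polynomial.X ^ i,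
    Polynomial.monic_X_pow_add hdeg,
    Polynomial.natDegree_eq_of_degree_eq_some (by
      rw [Polynomial.degree_add_eq_left_of_degree_lt (by rwa [Polynomial.degree_X_pow]),
        Polynomial.degree_X_pow]), fun τ => ?_⟩
  have hmon : (∏ x : Cos N, (Polynomial.X - Polynomial.C (tw f x τ))).Monic :=
    Polynomial.monic_prod_X_sub_C _ _
  have hnd : (∏ x : Cos N, (Polynomial.X - Polynomial.C (tw f x τ))).natDegree = μ := by
    rw [Polynomial.natDegree_prod_of_monic _ _ fun x _ => Polynomial.monic_X_sub_C _]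
    simp [μ]
  rw [hmon.as_sum, hnd, Polynomial.map_add, Polynomial.map_pow, Polynomial.map_X,
    Polynomial.map_sum]
  congr 1
  refine Finset.sum_congr rfl fun i _ => ?_
  rw [Polynomial.map_mul, Polynomial.map_C, Polynomial.map_pow, Polynomial.map_X,
    ← cpA_map hf, Polynomial.coeff_map]
  congr 2
  exact (hP i τ).symm

/-- evaluating the characteristic polynomial -/
theorem charpoly_eval {f : ℍ → ℂ} (hf : IsX N 1 f) {Q : Polynomial (Polynomial ℂ)}
    (hQ : ∀ τ : ℍ, Q.map (Polynomial.evalRingHom (jfun τ)) =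
        ∏ x : Cos N, (Polynomial.X - Polynomial.C (tw f x τ))) :
    Polynomial.eval₂ (jev ℂ) (lser f) Q = 0 := by
  have hp := hf.isP isNH_one
  have h1 : Polynomial.eval₂ (jev ℂ) (lser f) Q =
      (Polynomial.eval₂ jevc (⟨lser f, hp.lser_mem⟩ : convLaurent) Q : convLaurent) := by
    have := Polynomial.hom_eval₂ Q jevc convLaurent.subtype ⟨lser f, hp.lser_mem⟩
    have h2 : (convLaurent.subtype.comp jevc) = jev ℂ := by
      ext c
      · simp [jevc, jev, Cc]
      · simp [jevc, jev, jConv]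
    rw [h2] at this
    exact this.symm
  have h3 : (Polynomial.eval₂ jevc (⟨lser f, hp.lser_mem⟩ : convLaurent) Q : convLaurent) = 0 := by
    apply Subtype.ext
    refine ef_injective (Subtype.coe_prop _) ?_
    ext τ
    rw [Pi.zero_apply, ef_eq (Subtype.coe_prop _)]
    change evq τ (Polynomial.eval₂ jevc (⟨lser f, hp.lser_mem⟩ : convLaurent) Q) = 0
    rw [Polynomial.hom_eval₂]
    have h4 : (evq τ).comp jevc = Polynomial.evalRingHom (jfun τ) := by
      ext c
      · simp [jevc, evq_Cc]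
      · simp [jevc, evq_jConv]
    have h5 : evq τ ⟨lser f, hp.lser_mem⟩ = f τ := congrFun hp.ef_lser τ
    rw [h4, h5, ← Polynomial.eval_map, hQ, Polynomial.eval_prod]
    refine Finset.prod_eq_zero (Finset.mem_univ (QuotientGroup.mk 1)) ?_
    rw [Polynomial.eval_sub, Polynomial.eval_X, Polynomial.eval_C, tw_mk hf]
    simp
  rw [h1, h3]
  rfl

end Fermat.Agent.AnJac
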