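import Fermat.Agent.AnJac.CharAlg
import Fermat.Agent.AnJac.AutC
import Fermat.Agent.AnJac.Canon

/-!
Descent of functions with characters from `ℂ` to the algebraic numbers.
-/

set_option autoImplicit false
set_option linter.unusedSectionVars false

noncomputable section

namespace Fermat.Agent.AnJac

open ModularCurve AlgebraicCurve IntermediateField Fermat.Agent.GenusX0 Fermat.Agent.ModFun
open Fermat.Agent.Curves CongruenceSubgroup MatrixGroups

/-! ### finiteness of the set of characters -/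

instance : Group.FG SL(2,ℤ) := ⟨⟨{ModularGroup.S, ModularGroup.T}, by
  rw [Finset.coe_insert, Finset.coe_singleton]; exact SpecialLinearGroup.SL2Z_generators⟩⟩

instance (N : ℕ) [NeZero N] : Group.FG (Gamma0 N) := Subgroup.fg_of_index_ne_zero _

lemma finite_hom {G M : Type*} [Group G] [Group.FG G] [CommGroup M] (S : Set M) (hS : S.Finite) :
    {χ : G →* M | ∀ g, χ g ∈ S}.Finite := by
  obtain ⟨T, hT⟩ := Group.FG.out (G := G)
  have hfin : {f : T → M | ∀ t, f t ∈ S}.Finite := Set.Finite.pi' fun _ => hS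
  refine Set.Finite.of_finite_image (f := fun (χ : G →* M) (t : T) => χ t) (hfin.subset ?_) ?_
  · rintro _ ⟨χ, hχ, rfl⟩
    exact fun t => hχ t
  · intro χ _ ψ _ h
    apply MonoidHom.eq_of_eqOn_top
    rw [← hT]
    have : Set.EqOn χ ψ (T : Set G) := fun t ht => congrFun h ⟨t, ht⟩
    exact fun x hx => MonoidHom.eqOn_closure this hx

lemma finite_chars (N : ℕ) [NeZero N] {n : ℕ} (hn : n ≠ 0) :
    {χ : Gamma0 N →* ℂˣ | χ ^ n = 1}.Finite := by
  have : NeZero n := ⟨hn⟩
  have h1 : {μ : ℂˣ | μ ^ n = 1}.Finite := by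
    have h2 : Finite (rootsOfUnity n ℂ) := inferInstance
    exact Set.Finite.subset (Set.finite_coe_iff.mp h2 : (rootsOfUnity n ℂ : Set ℂˣ).Finite)
      (fun μ hμ => (mem_rootsOfUnity n μ).mpr hμ)
  refine (finite_hom _ h1).subset fun χ hχ g => ?_
  have := DFunLike.congr_fun hχ g
  rwa [MonoidHom.pow_apply] at this

/-! ### canonical elements over `ℂ` are algebraic -/

variable {N : ℕ} [NeZero N] {n : ℕ}

lemma exists_char_C (hn : n ≠ 0) {w : FF N} (hw : w ≠ 0)
    (h : ∀ v : Place ℂ (FF N), (n : ℤ) ∣ v.ord w) :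
    ∃ χ : Gamma0 N →* ℂˣ, IsChar N n (w : LaurentSeries ℂ) χ := by
  have := exists_char (RingHom.id ℂ) hn hw h
  rwa [coeffMap_id'] at this

lemma finite_can (hn : n ≠ 0) (m : ℕ) : {w : FF N | IsCan n m w}.Finite := by
  classical
  choose! χ hχ using fun (w : FF N) (hw : IsCan n m w) => exists_char_C hn hw.ne hw.dvd
  refine Set.Finite.of_finite_image (f := χ) ((finite_chars N hn).subset ?_) ?_
  · rintro _ ⟨w, hw, rfl⟩
    exact (hχ w hw).pw
  · intro w hw w' hw' heq
    have h1 := hχ w hw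
    have h2 := hχ w' hw'
    rw [← heq] at h2
    have h3 := h2.div hn h1
    have h4 : χ w / χ w = 1 := by
      ext γ; rw [MonoidHom.div_apply, div_self']; rfl
    rw [h4] at h3
    obtain ⟨g, hg, hg0, h5⟩ := h3.exists_root
    have h6 : w' = w * (⟨g, hg⟩ : FF N) ^ n := by
      apply Subtype.ext
      change (w' : LaurentSeries ℂ) = (w : LaurentSeries ℂ) * g ^ n
      have hw0 : (w : LaurentSeries ℂ) ≠ 0 := fun h => hw.ne (Subtype.ext h)
      rw [h5]
      field_simp
    exact (hw.unique hn hw' (fun h => hg0 (congrArg Subtype.val h)) h6).symm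

lemma isAlgebraic_coeff_can (hn : n ≠ 0) {m : ℕ} {w : FF N} (hw : IsCan n m w) (i : ℤ) :
    IsAlgebraic ℚ ((w : LaurentSeries ℂ).coeff i) := by
  apply isAlgebraic_of_finite_orbit
  refine (Set.Finite.image (fun w : FF N => (w : LaurentSeries ℂ).coeff i)
    (finite_can (N := N) hn m)).subset ?_
  rintro _ ⟨σ, rfl⟩
  refine ⟨galF N σ.toRingEquiv w, hw.galF _, ?_⟩
  change (galF N σ.toRingEquiv w : LaurentSeries ℂ).coeff i = _
  rw [coe_galF, coeffMap_coeff]
  rfl

/-! ### intersection of function fields -/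

section Inter

variable {k : Type*} [Field k] (ι : k →+* ℂ)

/-- products of constants and images of elements of `Bk k N` -/
def genMon (N : ℕ) : Submonoid (LaurentSeries ℂ) where
  carrier := {x | ∃ (c : ℂ) (y : LaurentSeries k), y ∈ Bk k N ∧ x = HahnSeries.C c * coeffMap ι y}
  mul_mem' := by
    rintro _ _ ⟨c, y, hy, rfl⟩ ⟨c', y', hy', rfl⟩
    exact ⟨c * c', y * y', mul_mem hy hy', by rw [map_mul, map_mul]; ring⟩
  one_mem' := ⟨1, 1, one_mem _, by rw [map_one, map_one, one_mul]⟩

lemma mem_genMon_closure {x : LaurentSeries ℂ} (hx : x ∈ Bk ℂ N) :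
    x ∈ AddSubmonoid.closure (genMon ι N : Set (LaurentSeries ℂ)) := by
  rw [← Submonoid.subsemiringClosure_mem]
  induction hx using Algebra.adjoin_induction with
  | mem x hx =>
    obtain ⟨d, hd, hdN, rfl⟩ := hx
    rw [Submonoid.subsemiringClosure_mem]
    apply AddSubmonoid.subset_closure
    refine ⟨1, qExpand k d (jqModC k), Algebra.subset_adjoin (mem_divisorExpansionsC k N hdN), ?_⟩
    rw [map_one, one_mul, coeffMap_qExpand, coeffMap_jqModC]
  | algebraMap c =>
    rw [Submonoid.subsemiringClosure_mem]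
    apply AddSubmonoid.subset_closure
    exact ⟨c, 1, one_mem _, by rw [map_one, mul_one, C_eq_algebraMap]⟩
  | add x y _ _ hx hy => exact add_mem hx hy
  | mul x y _ _ hx hy => exact mul_mem hx hy

lemma coordMap_C_mul [Algebra k ℂ] (π : ℂ →ₗ[k] k) (c : ℂ) (y : LaurentSeries k) :
    coordMap π (HahnSeries.C c * coeffMap (algebraMap k ℂ) y) = y * HahnSeries.C (π c) := by
  rw [mul_comm, coordMap_mul]
  congr 1
  ext m
  rw [coordMap_coeff, HahnSeries.C_apply, HahnSeries.C_apply, HahnSeries.coeff_single,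
    HahnSeries.coeff_single]
  split_ifs
  · rfl
  · exact map_zero π

lemma coordMap_mem_Bk [Algebra k ℂ] (π : ℂ →ₗ[k] k) {x : LaurentSeries ℂ} (hx : x ∈ Bk ℂ N) :
    coordMap π x ∈ Bk k N := by
  have h1 := mem_genMon_closure (algebraMap k ℂ) hx
  clear hx
  induction h1 using AddSubmonoid.closure_induction with
  | mem x hx =>
    obtain ⟨c, y, hy, rfl⟩ := hx
    rw [coordMap_C_mul, C_eq_algebraMap]
    exact mul_mem hy (Subalgebra.algebraMap_mem _ _)
  | zero => rw [map_zero]; exact zero_mem _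
  | add x y _ _ hx hy => rw [map_add]; exact add_mem hx hy

lemma exists_functional [Algebra k ℂ] {c : ℂ} (hc : c ≠ 0) : ∃ π : ℂ →ₗ[k] k, π c ≠ 0 := by
  by_contra h
  push Not at h
  apply hc
  let B := Module.Basis.ofVectorSpace k ℂ
  apply B.ext_elem
  intro β
  have := h (B.coord β)
  simpa using this

/-- an element of the function field over `ℂ` with coefficients in `k` comes from the function
field over `k` -/
theorem mem_of_coeffs [Algebra k ℂ] {w : LaurentSeries k}
    (hw : coeffMap (algebraMap k ℂ) w ∈ FF N) : w ∈ modularFunctionFieldFullC k N := by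
  obtain ⟨a, b, hb, hab⟩ := IsFractionRing.div_surjective (A := Bk ℂ N)
    (⟨coeffMap (algebraMap k ℂ) w, hw⟩ : FF N)
  have hb0 : b ≠ 0 := nonZeroDivisors.ne_zero hb
  have hinj : Function.Injective (algebraMap (Bk ℂ N) (modularFunctionFieldFullC ℂ N)) :=
    IsFractionRing.injective _ _
  have hb0' : algebraMap (Bk ℂ N) (modularFunctionFieldFullC ℂ N) b ≠ 0 := by
    rw [Ne, map_eq_zero_iff _ hinj]; exact hb0
  rw [div_eq_iff hb0'] at hab
  have hab2 : (a : LaurentSeries ℂ) = coeffMap (algebraMap k ℂ) w * (b : LaurentSeries ℂ) :=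
    congrArg Subtype.val hab
  have hbc : (b : LaurentSeries ℂ).coeff (b : LaurentSeries ℂ).order ≠ 0 :=
    HahnSeries.coeff_order_eq_zero.not.mpr fun h => hb0 (Subtype.ext h)
  obtain ⟨π, hπ⟩ := exists_functional (k := k) hbc
  have h1 := congrArg (coordMap π) hab2
  rw [coordMap_mul] at h1
  have hπb : coordMap π (b : LaurentSeries ℂ) ≠ 0 := by
    intro h
    have := congrArg (fun F => HahnSeries.coeff F (b : LaurentSeries ℂ).order) h
    rw [coordMap_coeff] at this
    exact hπ this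
  have h2 : w = coordMap π (a : LaurentSeries ℂ) / coordMap π (b : LaurentSeries ℂ) := by
    rw [h1, mul_div_cancel_right₀ _ hπb]
  have hle : ∀ x ∈ Bk k N, x ∈ modularFunctionFieldFullC k N := by
    intro x hx
    exact (algebraMap (Bk k N) (modularFunctionFieldFullC k N) ⟨x, hx⟩).2
  rw [h2]
  exact div_mem (hle _ (coordMap_mem_Bk π a.2)) (hle _ (coordMap_mem_Bk π b.2))

end Inter

/-! ### series with algebraic coefficients -/

lemma exists_coeffMap_eq {k : Type*} [Field k] (ι : k →+* ℂ) {w : LaurentSeries ℂ}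
    (h : ∀ i, ∃ y : k, ι y = w.coeff i) : ∃ w' : LaurentSeries k, coeffMap ι w' = w := by
  choose c hc using h
  refine ⟨⟨fun i => c i, ?_⟩, ?_⟩
  · refine w.isPWO_support.mono fun i hi => ?_
    simp only [Function.mem_support] at hi
    rw [HahnSeries.mem_support, ← hc]
    exact (map_ne_zero ι).mpr hi
  · ext i
    rw [coeffMap_coeff]
    exact hc i

section Main

variable {k : Type*} [Field k] [IsAlgClosed k] [CharZero k] (ι : k →+* ℂ)

lemma exists_of_isAlgebraic {x : ℂ} (hx : IsAlgebraic ℚ x) : ∃ y : k, ι y = x := by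
  let _ := ι.toAlgebra
  have hx' : IsAlgebraic k x := by
    obtain ⟨p, hp, h⟩ := hx
    refine ⟨p.map (algebraMap ℚ k), (Polynomial.map_ne_zero_iff (algebraMap ℚ k).injective).mpr hp, ?_⟩
    have h1 : (algebraMap k ℂ).comp (algebraMap ℚ k) = algebraMap ℚ ℂ := Subsingleton.elim _ _
    rw [Polynomial.aeval_def, Polynomial.eval₂_map, h1]
    exact h
  exact exists_algebraMap_eq hx'

/-- **Descent**: every character of finite order comes from a function over `k`. -/
theorem exists_isChar_descent (hn : n ≠ 0) {χ : Gamma0 N →* ℂˣ} (hχ : IsNH χ) (hpw : χ ^ n = 1) :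
    ∃ w : modularFunctionFieldFullC k N, w ≠ 0 ∧ IsChar N n (coeffMap ι (w : LaurentSeries k)) χ := by
  let _ := ι.toAlgebra
  obtain ⟨u, hu⟩ := exists_isChar hn hχ hpw
  set u' : FF N := ⟨u, hu.mem_FF'⟩ with hu'
  have hu0 : u' ≠ 0 := fun h => hu.ne_zero (congrArg Subtype.val h)
  have hdvd : ∀ v : Place ℂ (FF N), (n : ℤ) ∣ v.ord u' := by
    intro v
    refine dvd_ord (RingHom.id ℂ) hu0 (χ := χ) ?_ v
    rw [coeffMap_id']
    exact hu
  obtain ⟨m, g, hg, hcan⟩ := exists_isCan hn hu0 hdvd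
  have h1 : IsChar N n ((u' * g ^ n : FF N) : LaurentSeries ℂ) χ := by
    have h2 := hu.mul (IsChar.of_pow (N := N) (n := n) g.2 (fun h => hg (Subtype.ext h)))
    rw [hom_mul_one] at h2
    exact h2
  obtain ⟨w', hw'⟩ := exists_coeffMap_eq ι (w := ((u' * g ^ n : FF N) : LaurentSeries ℂ))
    (fun i => exists_of_isAlgebraic ι (isAlgebraic_coeff_can hn hcan i))
  have h3 : w' ∈ modularFunctionFieldFullC k N := by
    apply mem_of_coeffs
    change coeffMap ι w' ∈ FF N
    rw [hw']
    exact (u' * g ^ n : FF N).2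
  refine ⟨⟨w', h3⟩, ?_, ?_⟩
  · intro h
    have : w' = 0 := congrArg Subtype.val h
    rw [this, map_zero] at hw'
    exact h1.ne_zero hw'.symm
  · change IsChar N n (coeffMap ι w') χ
    rw [hw']
    exact h1

/-- trivial characters come from `n`-th powers over `k` -/
theorem exists_root_descent (hn : n ≠ 0) {u : modularFunctionFieldFullC k N}
    (hu : IsChar N n (coeffMap ι (u : LaurentSeries k)) 1) :
    ∃ g : modularFunctionFieldFullC k N, g ≠ 0 ∧ g ^ n = u := by
  let _ := ι.toAlgebra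
  obtain ⟨g, hg, hg0, hgn⟩ := hu.exists_root
  have h1 : ∀ i, ∃ y : k, ι y = g.coeff i := by
    intro i
    apply exists_algebraMap_eq
    apply isAlgebraic_of_finite_orbit
    have hfin : {μ : ℂ | μ ^ n = 1}.Finite := by
      have : NeZero n := ⟨hn⟩
      have h2 : {μ : ℂ | μ ^ n = 1} = (Polynomial.nthRootsFinset n (1:ℂ) : Set ℂ) := by
        ext μ
        simp [Polynomial.mem_nthRootsFinset (Nat.pos_of_ne_zero hn)]
      rw [h2]
      exact Finset.finite_toSet _
    refine (hfin.image fun μ => μ * g.coeff i).subset ?_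
    rintro _ ⟨σ, rfl⟩
    have hσ : (σ : ℂ →+* ℂ).comp ι = ι := RingHom.ext fun x => σ.commutes x
    have h3 : (coeffMap (σ : ℂ →+* ℂ) g) ^ n = g ^ n := by
      rw [← map_pow, hgn, coeffMap_coeffMap, hσ]
    have h4 : (coeffMap (σ : ℂ →+* ℂ) g / g) ^ n = 1 := by
      rw [div_pow, h3, div_self (pow_ne_zero n hg0)]
    -- roots of unity in the Laurent series field are constant
    obtain ⟨μ, hμ, h5⟩ : ∃ μ : ℂ, μ ^ n = 1 ∧ coeffMap (σ : ℂ →+* ℂ) g / g = HahnSeries.C μ := by
      have h6 : IsAlgebraic ℂ (coeffMap (σ : ℂ →+* ℂ) g / g) := by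
        refine ⟨Polynomial.X ^ n - 1, (Polynomial.monic_X_pow_sub_C (1:ℂ) hn).ne_zero, ?_⟩
        simp [h4]
      obtain ⟨μ, hμ⟩ := exists_algebraMap_eq h6
      refine ⟨μ, ?_, by rw [C_eq_algebraMap, hμ]⟩
      rw [← hμ, ← map_pow] at h4
      apply (algebraMap ℂ (LaurentSeries ℂ)).injective
      rw [h4, map_one]
    refine ⟨μ, hμ, ?_⟩
    have h6 : coeffMap (σ : ℂ →+* ℂ) g = HahnSeries.C μ * g := by
      rw [← h5, div_mul_cancel₀ _ hg0]
    have h7 := congrArg (fun F => HahnSeries.coeff F i) h6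
    simp only [coeffMap_coeff, HahnSeries.C_mul_eq_smul, HahnSeries.coeff_smul, smul_eq_mul] at h7
    exact h7.symm
  obtain ⟨g', hg'⟩ := exists_coeffMap_eq ι h1
  have h3 : g' ∈ modularFunctionFieldFullC k N := by
    apply mem_of_coeffs
    change coeffMap ι g' ∈ FF N
    rw [hg']
    exact hg
  refine ⟨⟨g', h3⟩, ?_, ?_⟩
  · intro h
    have : g' = 0 := congrArg Subtype.val h
    rw [this, map_zero] at hg'
    exact hg0 hg'.symm
  · apply Subtype.ext
    apply coeffMap_injective ι
    change coeffMap ι (g' ^ n) = _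
    rw [map_pow, hg', hgn]

end Main

end Fermat.Agent.AnJac
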