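import Fermat.Agent.AnJac.Chars

/-!
From characters to divisors divisible by `n`.
-/

set_option autoImplicit false
set_option linter.unusedSectionVars false

open UpperHalfPlane ModularForm MatrixGroups Matrix.SpecialLinearGroup Filter Function
open scoped Manifold Topology Real ComplexConjugate

noncomputable section

namespace Fermat.Agent.AnJac

open Fermat.Agent.DimS2 Fermat.Agent.ModFun CongruenceSubgroup Fermat.Agent.GenusX0 AlgebraicCurve
open ModularCurve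
open Fermat.Agent.Curves hiding ord_pow

local notation "𝕢" => Function.Periodic.qParam

variable {k : Type*} [Field k] [IsAlgClosed k] [CharZero k] {ι : k →+* ℂ} {N : ℕ} [NeZero N]

lemma exists_pow_smul {U : UDN N} {z : modularFunctionFieldFullC k N} (h : IsLoc ι U z)
    (x : GenusX0.Cos N) : ∃ m : ℕ, (ctr h x).ord z = m ∧ U.s ^ m • x = x := by
  classical
  have h1 := card_ctr_fibre h (ctr h x) (ctr_pos h x)
  set p := minimalPeriod (U.s⁻¹ • ·) x with hp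
  have h2 : p = Fintype.card (MulAction.orbit (Subgroup.zpowers U.s⁻¹) x) :=
    MulAction.minimalPeriod_eq_card _ _
  have h3 : Fintype.card (MulAction.orbit (Subgroup.zpowers U.s⁻¹) x) =
      (Finset.univ.filter fun y => ctr h y = ctr h x).card := by
    rw [← Set.toFinset_card]
    congr 1
    ext y
    rw [Set.mem_toFinset, Finset.mem_filter, MulAction.mem_orbit_iff]
    constructor
    · rintro ⟨⟨g, hg⟩, rfl⟩
      refine ⟨Finset.mem_univ _, ?_⟩
      obtain ⟨i, rfl⟩ := Subgroup.mem_zpowers_iff.mp hg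
      obtain ⟨n, rfl | rfl⟩ := i.eq_nat_or_neg
      · symm
        rw [ctr_eq_iff]
        exact ⟨n, by change U.s⁻¹ ^ (n : ℤ) • x = _; rw [zpow_natCast]⟩
      · rw [ctr_eq_iff]
        refine ⟨n, ?_⟩
        change x = U.s⁻¹ ^ n • (U.s⁻¹ ^ (-(n : ℤ)) • x)
        rw [_root_.zpow_neg, zpow_natCast, ← mul_smul, mul_inv_cancel, one_smul]
    · rintro ⟨_, hy⟩
      rw [eq_comm, ctr_eq_iff] at hy
      obtain ⟨i, hi⟩ := hy
      exact ⟨⟨U.s⁻¹ ^ (i : ℤ), Subgroup.mem_zpowers_iff.mpr ⟨i, rfl⟩⟩, by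
        change U.s⁻¹ ^ (i : ℤ) • x = y
        rw [zpow_natCast, hi]⟩
  refine ⟨p, ?_, ?_⟩
  · rw [← h1, h2, h3]
  · have h4 : (U.s⁻¹ ^ p) • x = x := by
      have := iterate_minimalPeriod (f := (U.s⁻¹ • ·)) (x := x)
      rwa [smul_iterate] at this
    rw [inv_pow, inv_smul_eq_iff] at h4
    exact h4.symm

lemma s_pow_smul (U : UD) (m : ℕ) (τ : ℍ) : U.u (U.s ^ m • τ) = ((U.ζ : ℂ) ^ m) * U.u τ := by
  induction m with
  | zero => simp
  | succ m ih => rw [pow_succ', mul_smul, U.smul, ih, pow_succ']; ring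

theorem dvd_ord_aux {U : UDN N} {z : modularFunctionFieldFullC k N} (h : IsLoc ι U z)
    (hex : ∀ (χ : Gamma0 N →* ℂˣ) (f : ℍ → ℂ), IsX N χ f → f ≠ 0 → ∀ g : SL(2,ℤ),
      ∃ r, (Spot.ud U.toUD).HasOrd (fun τ => f (g • τ)) r)
    (htr : ∀ m : ℕ, |(U.s ^ m) 0 0 + (U.s ^ m) 1 1| ≤ 2)
    {n : ℕ} {u : modularFunctionFieldFullC k N} (hu : u ≠ 0) {χ : Gamma0 N →* ℂˣ}
    (hχ : IsChar N n (coeffMap ι (u : LaurentSeries k)) χ)
    (v : Place k (modularFunctionFieldFullC k N)) (hv : 0 < v.ord z) : (n : ℤ) ∣ v.ord u := by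
  obtain ⟨x, hx⟩ := exists_ctr_eq h hv
  obtain ⟨m, hm, hmx⟩ := exists_pow_smul h x
  obtain ⟨ε, hε, hord⟩ := ctr_spec h x
  rw [hx] at hm hord
  obtain ⟨g, rfl⟩ := QuotientGroup.mk_surjective x
  rw [sig_mk] at hord
  -- `e = ε m`
  have he : (U.e : ℤ) = ε * m := by
    obtain ⟨ξ, h1, h2⟩ := h.fib
    have h3 := h1 (g : GenusX0.Cos N)
    rw [sig_mk] at h3
    have h4 := hord z (fun h0 => by rw [h0] at hv; simp at hv)
    rw [h3, h2, hm] at h4
    exact h4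
  have hm0 : (m : ℤ) ≠ 0 := by
    rintro h0
    rw [h0, mul_zero] at he
    have := U.e_pos
    omega
  -- the element of `Γ₀(N)`
  have hmem : g⁻¹ * U.s ^ m * g ∈ Gamma0 N := by
    have h1 : ((U.s ^ m * g : SL(2,ℤ)) : GenusX0.Cos N) = (g : GenusX0.Cos N) := hmx
    rw [eq_comm, QuotientGroup.eq] at h1
    rwa [mul_assoc]
  set γ : Gamma0 N := ⟨_, hmem⟩ with hγ
  have hγtr : |(γ : SL(2,ℤ)) 0 0 + (γ : SL(2,ℤ)) 1 1| ≤ 2 := by
    have := trace_conj g⁻¹ (U.s ^ m)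
    rw [inv_inv] at this
    change |(g⁻¹ * U.s ^ m * g) 0 0 + (g⁻¹ * U.s ^ m * g) 1 1| ≤ 2
    rw [this]
    exact htr m
  have hinv : ∀ (ψ : Gamma0 N →* ℂˣ) (f : ℍ → ℂ), IsNH ψ → IsX N ψ f → ∀ τ,
      f (g⁻¹ • (U.s ^ m • τ)) = 1 * f (g⁻¹ • τ) := by
    intro ψ f hψ hf τ
    have h1 := hf.inv γ (g⁻¹ • τ)
    rw [hψ γ hγtr, Units.val_one] at h1
    rw [← h1]
    congr 1
    simp only [hγ, ← mul_smul]
    congr 1
    group
  have hζ0 : ((U.ζ : ℂ) ^ m) ≠ 0 := pow_ne_zero _ (Units.ne_zero _)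
  have hdvd : ∀ (ψ : Gamma0 N →* ℂˣ) (f : ℍ → ℂ) (r : ℤ), IsNH ψ → IsX N ψ f →
      (Spot.ud U.toUD).HasOrd (fun τ => f (g⁻¹ • τ)) r → (ε : ℤ) ∣ r := by
    intro ψ f r hψ hf hr
    have h1 := Spot.ud_transform hζ0 (s_pow_smul U.toUD m) hr (hinv ψ f hψ hf)
    rw [← zpow_natCast, ← zpow_mul] at h1
    have h2 : IsPrimitiveRoot (U.ζ : ℂ) U.e := IsPrimitiveRoot.coe_units_iff.mpr U.prim
    have h3 := (h2.zpow_eq_one_iff_dvd _).mp h1.symm
    rw [he, mul_comm (ε : ℤ)] at h3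
    exact Int.dvd_of_mul_dvd_mul_left hm0 h3
  obtain ⟨G, b, hG, hb, hG0, hb0, heq⟩ := hχ.ex
  obtain ⟨r, hr⟩ := hex χ G hG hG0 g⁻¹
  obtain ⟨t, ht⟩ := hex 1 b hb hb0 g⁻¹
  obtain ⟨r', hr'⟩ := hdvd χ G r hχ.nh hG hr
  obtain ⟨t', ht'⟩ := hdvd 1 b t isNH_one hb ht
  have h1 : coeffMap ι (u : LaurentSeries k) * lser (b ^ n) = lser (G ^ n) := by
    rw [lser_pow (hb.isP isNH_one), lser_pow (hG.isP hχ.nh), heq]
  have h2 := hasOrd_of_repr ι U g⁻¹ hu ((hG.isP hχ.nh).pow n) ((hb.isP isNH_one).pow n) h1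
    (ht.pow n)
  have h3 := (hr.pow n).unique h2
  rw [hord u hu, hr', ht'] at h3
  refine ⟨r' - t', ?_⟩
  have hε0 : (ε : ℤ) ≠ 0 := by omega
  apply mul_left_cancel₀ hε0
  linear_combination -h3

lemma abs_trace_le_of_fix {γ : SL(2,ℤ)} {z : ℍ} (h : γ • z = z) : |γ 0 0 + γ 1 1| ≤ 2 := by
  have h1 := congrArg (fun w : ℍ => (w : ℂ)) h
  simp only [UpperHalfPlane.coe_specialLinearGroup_apply, algebraMap_int_eq, Int.coe_castRingHom,
    Complex.ofReal_intCast] at h1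
  have hd0 : (γ 1 0 : ℂ) * z + γ 1 1 ≠ 0 := by
    have := denom_ne_zero (γ : GL (Fin 2) ℝ) z
    rwa [ModularGroup.denom_apply] at this
  rw [div_eq_iff hd0] at h1
  have hdet := Matrix.SpecialLinearGroup.det_coe γ
  rw [Matrix.det_fin_two] at hdet
  set a := γ 0 0
  set b := γ 0 1
  set c := γ 1 0
  set d := γ 1 1
  have hre := congrArg Complex.re h1
  have him := congrArg Complex.im h1
  simp only [Complex.add_re, Complex.mul_re, Complex.intCast_re, Complex.intCast_im, zero_mul,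
    sub_zero, Complex.add_im, Complex.mul_im, add_zero, UpperHalfPlane.coe_re,
    UpperHalfPlane.coe_im] at hre him
  have hy := z.im_pos
  set x := z.re
  set y := z.im
  have e1 : 2 * (c : ℝ) * x = a - d := by
    have : y * (2 * (c : ℝ) * x - (a - d)) = 0 := by linear_combination -him
    rcases mul_eq_zero.mp this with h | h
    · exact absurd h hy.ne'
    · linarith
  have hdetR : (a : ℝ) * d - b * c = 1 := by exact_mod_cast hdet
  have e2 : ((a : ℝ) + d) ^ 2 = 4 - 4 * (c : ℝ) ^ 2 * y ^ 2 := by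
    linear_combination 4 * hdetR + (4 * (c:ℝ)) * hre + (2 * c * x - ((a:ℝ) - d)) * e1
  have e3 : ((a + d : ℤ) : ℝ) ^ 2 ≤ 2 ^ 2 := by
    push_cast
    rw [e2]
    have : 0 ≤ (c : ℝ) ^ 2 * y ^ 2 := by positivity
    linarith
  have e4 : (a + d) ^ 2 ≤ 2 ^ 2 := by exact_mod_cast e3
  exact abs_le_of_sq_le_sq e4 (by norm_num)

lemma PtData.s_fix (P : PtData) : P.s • P.pt = P.pt := by
  have h := P.smul P.pt
  have h1 : cay P.pt P.pt = 0 := (cayF_eq_zero P.pt.im_pos P.pt.im_pos).mpr rfl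
  rw [h1, mul_zero] at h
  exact UpperHalfPlane.ext ((cayF_eq_zero P.pt.im_pos (P.s • P.pt).im_pos).mp h)

lemma PtData.s_pow_fix (P : PtData) (m : ℕ) : P.s ^ m • P.pt = P.pt := by
  induction m with
  | zero => simp
  | succ m ih => rw [pow_succ, mul_smul, PtData.s_fix, ih]

variable (ι) in
/-- **characters give divisible divisors** -/
theorem dvd_ord {n : ℕ} {u : modularFunctionFieldFullC k N} (hu : u ≠ 0)
    {χ : Gamma0 N →* ℂˣ} (hχ : IsChar N n (coeffMap ι (u : LaurentSeries k)) χ)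
    (v : Place k (modularFunctionFieldFullC k N)) : (n : ℤ) ∣ v.ord u := by
  rcases place_cases v with hv | ⟨c, hv⟩
  · refine dvd_ord_aux (isLoc_cusp (N := N) ι) ?_ ?_ hu hχ v (by rw [v.ord_inv]; omega)
    · intro ψ f hf hf0 g
      exact Spot.hasOrd_ud_cusp N (mdiff_comp_smul hf.isA.mdiff g) (hf.isA.per g) (hf.isA.mg g)
        (smul_ne_zero_fun hf0 g)
    · intro m
      have h1 : ((cuspUDN N).s ^ m) = ModularGroup.T ^ (m : ℤ) := (zpow_natCast _ _).symm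
      rw [h1]
      have := ModularGroup.coe_T_zpow (m : ℤ)
      rw [this]
      simp
  · obtain ⟨P, _, _, hP⟩ := exists_isLoc (N := N) ι c
    refine dvd_ord_aux hP ?_ ?_ hu hχ v hv
    · intro ψ f hf hf0 g
      exact ⟨_, Spot.hasOrd_ud_pt P (mdiff_comp_smul hf.isA.mdiff g) (smul_ne_zero_fun hf0 g)⟩
    · intro m
      exact abs_trace_le_of_fix (PtData.s_pow_fix P m)

end Fermat.Agent.AnJac
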