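import Fermat.Agent.AnJac.Matr

/-!
The function field of `X₀(N)` over `ℂ` as the field of quotients of functions on `Γ₀(N)\ℍ`.
-/

set_option autoImplicit false
set_option linter.unusedSectionVars false

open UpperHalfPlane ModularForm MatrixGroups Matrix.SpecialLinearGroup Filter Function
open scoped Manifold Topology Real

noncomputable section

namespace Fermat.Agent.AnJac

open Fermat.Agent.DimS2 Fermat.Agent.ModFun CongruenceSubgroup IntermediateField ModularCurve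

variable (N : ℕ)

/-- Laurent series of functions on `Γ₀(N)\ℍ` -/
def Rsub : Subalgebra ℂ (LaurentSeries ℂ) where
  carrier := {F | ∃ f, IsX N 1 f ∧ F = lser f}
  mul_mem' := by
    rintro _ _ ⟨f, hf, rfl⟩ ⟨g, hg, rfl⟩
    refine ⟨f * g, ?_, (lser_mul (hf.isP isNH_one) (hg.isP isNH_one)).symm⟩
    have := hf.mul hg
    exact ⟨this.isA, fun γ τ => by have := this.inv γ τ; simpa using this⟩
  add_mem' := by
    rintro _ _ ⟨f, hf, rfl⟩ ⟨g, hg, rfl⟩
    exact ⟨f + g, hf.add hg, (lser_add (hf.isP isNH_one) (hg.isP isNH_one)).symm⟩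
  algebraMap_mem' c := ⟨fun _ => c, IsX.const c, by rw [lser_const, C_eq_algebraMap]⟩

variable {N}

lemma IsX.mul_one {f g : ℍ → ℂ} (hf : IsX N 1 f) (hg : IsX N 1 g) : IsX N 1 (f * g) := by
  have := hf.mul hg
  exact ⟨this.isA, fun γ τ => by have := this.inv γ τ; simpa using this⟩

lemma jev_mem_Rsub (P : Polynomial ℂ) : jev ℂ P ∈ Rsub N := by
  refine ⟨ef (jev ℂ P), isX_of_level_one N (isP_ef (jev_mem P)) (fun g τ => ?_),
    (lser_ef (jev_mem P)).symm⟩
  rw [ef_jev, ef_jev, jfun_smul]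

lemma jev_injective : Function.Injective (jev ℂ) := ModFun.jev_injective (k := ℂ)

variable [NeZero N]

instance : Finite (Cos N) := Subgroup.finite_quotient_of_finiteIndex

noncomputable instance : Fintype (Cos N) := Fintype.ofFinite _

lemma card_Cos : Fintype.card (Cos N) = dedekindPsi N := by
  rw [← Gamma0Comb.index_Gamma0 N, Subgroup.index, Nat.card_eq_fintype_card]

lemma eval₂_mem_Rsub {F : LaurentSeries ℂ} (hF : F ∈ Rsub N) (Q : Polynomial (Polynomial ℂ)) :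
    Polynomial.eval₂ (jev ℂ) F Q ∈ Rsub N := by
  rw [Polynomial.eval₂_eq_sum_range]
  exact sum_mem fun i _ => mul_mem (jev_mem_Rsub _) (pow_mem hF i)

lemma lser_mem_Rsub {f : ℍ → ℂ} (hf : IsX N 1 f) : lser f ∈ Rsub N := ⟨f, hf, rfl⟩

/-- a nonzero element of `Rsub` divides a nonzero polynomial in `j` -/
lemma exists_dvd_jev {F : LaurentSeries ℂ} (hF : F ∈ Rsub N) (hF0 : F ≠ 0) :
    ∃ G ∈ Rsub N, ∃ B : Polynomial ℂ, B ≠ 0 ∧ F * G = jev ℂ B := by
  obtain ⟨f, hf, rfl⟩ := hF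
  obtain ⟨Q, hQm, hQd, hQ⟩ := exists_charpoly hf
  have hev := charpoly_eval hf hQ
  refine ⟨Polynomial.eval₂ (jev ℂ) (lser f) (Polynomial.divX Q),
    eval₂_mem_Rsub (lser_mem_Rsub hf) _, -(Q.coeff 0), ?_, ?_⟩
  · rw [neg_ne_zero]
    intro h0
    have h1 : ∏ x : Cos N, (tw f x) = 0 := by
      ext τ
      have h2 := congrArg (fun P => Polynomial.coeff P 0) (hQ τ)
      simp only [Polynomial.coeff_map, h0, map_zero] at h2
      rw [Polynomial.coeff_zero_eq_eval_zero, Polynomial.eval_prod] at h2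
      have h3 : ∏ x : Cos N, -(tw f x τ) = 0 := by
        rw [h2]
        refine Finset.prod_congr rfl fun x _ => ?_
        simp
      rw [Finset.prod_neg] at h3
      rw [Finset.prod_apply, Pi.zero_apply]
      rcases mul_eq_zero.mp h3 with h4 | h4
      · exact absurd h4 (pow_ne_zero _ (by norm_num))
      · exact h4
    rw [prod_eq_zero_iff (fun x _ => (tw_isA hf x).mdiff)] at h1
    obtain ⟨x, _, hx⟩ := h1
    obtain ⟨g, rfl⟩ := QuotientGroup.mk_surjective x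
    apply hF0
    rw [lser_eq_zero_iff (hf.isP isNH_one)]
    ext τ
    have h2 := congrFun hx (g • τ)
    rw [tw_mk hf] at h2
    simpa using h2
  · have h1 := congrArg (Polynomial.eval₂ (jev ℂ) (lser f)) (Polynomial.divX_mul_X_add Q)
    rw [hev, Polynomial.eval₂_add, Polynomial.eval₂_mul, Polynomial.eval₂_X,
      Polynomial.eval₂_C] at h1
    rw [map_neg]
    linear_combination h1

variable (N) in
/-- the field of quotients -/
def Mf : IntermediateField ℂ (LaurentSeries ℂ) where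
  carrier := {u | ∃ F ∈ Rsub N, ∃ B : Polynomial ℂ, B ≠ 0 ∧ u * jev ℂ B = F}
  mul_mem' := by
    rintro u v ⟨F, hF, B, hB, h⟩ ⟨G, hG, C, hC, h'⟩
    refine ⟨F * G, mul_mem hF hG, B * C, mul_ne_zero hB hC, ?_⟩
    rw [map_mul, ← h, ← h']
    ring
  add_mem' := by
    rintro u v ⟨F, hF, B, hB, h⟩ ⟨G, hG, C, hC, h'⟩
    refine ⟨F * jev ℂ C + G * jev ℂ B, add_mem (mul_mem hF (jev_mem_Rsub C))
      (mul_mem hG (jev_mem_Rsub B)), B * C, mul_ne_zero hB hC, ?_⟩
    rw [map_mul, ← h, ← h']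
    ring
  algebraMap_mem' c := ⟨_, (Rsub N).algebraMap_mem c, 1, one_ne_zero, by simp⟩
  inv_mem' := by
    rintro u ⟨F, hF, B, hB, h⟩
    rcases eq_or_ne u 0 with rfl | hu
    · exact ⟨0, zero_mem _, 1, one_ne_zero, by simp⟩
    · have hjB : jev ℂ B ≠ 0 := by
        rw [Ne, map_eq_zero_iff _ jev_injective]; exact hB
      have hF0 : F ≠ 0 := by rw [← h]; exact mul_ne_zero hu hjB
      obtain ⟨G, hG, C, hC, hFG⟩ := exists_dvd_jev hF hF0
      refine ⟨jev ℂ B * G, mul_mem (jev_mem_Rsub B) hG, C, hC, ?_⟩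
      rw [← hFG, ← h]
      field_simp

lemma mem_Mf {u : LaurentSeries ℂ} : u ∈ Mf N ↔ ∃ F ∈ Rsub N, ∃ B : Polynomial ℂ, B ≠ 0 ∧
    u * jev ℂ B = F := Iff.rfl

lemma Rsub_le_Mf {F : LaurentSeries ℂ} (hF : F ∈ Rsub N) : F ∈ Mf N :=
  ⟨F, hF, 1, one_ne_zero, by simp⟩

variable (N) in
/-- the function field -/
abbrev FF : IntermediateField ℂ (LaurentSeries ℂ) := modularFunctionFieldFullC ℂ N

lemma FF_le_Mf : FF N ≤ Mf N := by
  apply EN_le
  intro d hd
  have hN : N ≠ 0 := NeZero.ne N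
  have : NeZero d := ⟨fun h => hN (by rw [h, zero_dvd_iff] at hd; exact hd)⟩
  apply Rsub_le_Mf
  rw [Jd_eq]
  refine ⟨_, isX_diag hN hd ((isX_jfun N).isP isNH_one) jfun_smul, ?_⟩
  rw [(lser_diag ((isX_jfun N).isP isNH_one)).2, lser_jfun]

/-- every element of `Mf` has degree at most `card (Cos N)` over `ℂ(j)` -/
lemma degree_le {u : LaurentSeries ℂ} (hu : u ∈ Mf N) :
    IsIntegral ℂ⟮jqModC ℂ⟯ u ∧ (minpoly ℂ⟮jqModC ℂ⟯ u).natDegree ≤ dedekindPsi N := by
  obtain ⟨F, ⟨f, hf, rfl⟩, B, hB, h⟩ := hu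
  obtain ⟨Q, hQm, hQd, hQ⟩ := exists_charpoly hf
  have hev := charpoly_eval hf hQ
  have hjB : jev ℂ B ≠ 0 := by
    rw [Ne, map_eq_zero_iff _ jev_injective]; exact hB
  have hjm : ∀ P : Polynomial ℂ, jev ℂ P ∈ ℂ⟮jqModC ℂ⟯ := fun P =>
    ModFun.jev_mem _ (mem_adjoin_simple_self ℂ _) P
  let φ : Polynomial ℂ →+* ℂ⟮jqModC ℂ⟯ := (jev ℂ).codRestrict _ hjm
  have hφ : (algebraMap ℂ⟮jqModC ℂ⟯ (LaurentSeries ℂ)).comp φ = jev ℂ := rfl
  have hQmm : (Q.map φ).Monic := hQm.map φ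
  have hnd : (Q.map φ).natDegree = dedekindPsi N := by
    rw [hQm.natDegree_map, hQd, card_Cos]
  have haev : Polynomial.aeval (lser f) (Q.map φ) = 0 := by
    rw [Polynomial.aeval_def, Polynomial.eval₂_map, hφ]
    exact hev
  have hint : IsIntegral ℂ⟮jqModC ℂ⟯ (lser f) := ⟨Q.map φ, hQmm, by
    rw [Polynomial.eval₂_map, hφ]; exact hev⟩
  -- `ℂ(j)(u) = ℂ(j)(f)`
  have hBK : jev ℂ B ∈ ℂ⟮jqModC ℂ⟯ := hjm B
  have hu : u = algebraMap ℂ⟮jqModC ℂ⟯ (LaurentSeries ℂ) (⟨jev ℂ B, hBK⟩⁻¹) * lser f := by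
    rw [map_inv₀, ← h]
    change u = (jev ℂ B)⁻¹ * (u * jev ℂ B)
    field_simp
  have hint' : IsIntegral ℂ⟮jqModC ℂ⟯ u := by
    rw [hu]
    exact (isIntegral_algebraMap).mul hint
  refine ⟨hint', ?_⟩
  -- monic polynomial of degree ψ
  set c : ℂ⟮jqModC ℂ⟯ := (⟨jev ℂ B, hBK⟩⁻¹ : ℂ⟮jqModC ℂ⟯) with hc
  have hroot : Polynomial.aeval u ((Q.map φ).scaleRoots c) = 0 := by
    rw [hu]
    exact Polynomial.scaleRoots_aeval_eq_zero haev
  have hne : (Q.map φ).scaleRoots c ≠ 0 := Polynomial.scaleRoots_ne_zero hQmm.ne_zero _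
  have h1 := minpoly.degree_le_of_ne_zero ℂ⟮jqModC ℂ⟯ u hne hroot
  have h2 := Polynomial.natDegree_le_natDegree h1
  rwa [Polynomial.natDegree_scaleRoots, hnd] at h2

theorem Mf_eq : Mf N = FF N := by
  apply le_antisymm _ FF_le_Mf
  intro u hu
  have hN0 : N ≠ 0 := NeZero.ne N
  have hNC : (N : ℂ) ≠ 0 := by exact_mod_cast hN0
  set K := ℂ⟮jqModC ℂ⟯ with hK
  have hKF : K ≤ FF N := jmodle ℂ hN0
  have hdeg : relfinrank K (FF N) = dedekindPsi N := relfinrank_modularFunctionField ℂ N hNC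
  have hψ : dedekindPsi N ≠ 0 := dedekindPsi_pos hN0
  have hfinF : FiniteDimensional K (extendScalars hKF) := finite_of_relfinrank hKF (by rwa [hdeg])
  have huint := (degree_le hu).1
  have hfinu : FiniteDimensional K (adjoin K ({u} : Set (LaurentSeries ℂ))) :=
    adjoin.finiteDimensional huint
  set E : IntermediateField K (LaurentSeries ℂ) := extendScalars hKF ⊔ adjoin K {u} with hE
  have hfinE : FiniteDimensional K E := IntermediateField.finiteDimensional_sup _ _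
  have hKM : K ≤ Mf N := hKF.trans FF_le_Mf
  have hEM : E ≤ extendScalars hKM := by
    refine sup_le ?_ ?_
    · intro x hx
      exact FF_le_Mf hx
    · rw [adjoin_simple_le_iff]
      exact hu
  have hchar : CharZero K := charZero_of_injective_algebraMap (algebraMap ℂ K).injective
  have halg : Algebra.IsAlgebraic K E := Algebra.IsAlgebraic.of_finite K E
  have hsep : Algebra.IsSeparable K E := Algebra.IsAlgebraic.isSeparable_of_perfectField
  obtain ⟨θ, hθ⟩ := Field.exists_primitive_element K E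
  have h1 : Module.finrank K E = (minpoly K θ).natDegree := by
    rw [← (Field.primitive_element_iff_minpoly_natDegree_eq K θ).mp hθ]
  have h2 : (minpoly K (θ : LaurentSeries ℂ)) = minpoly K θ :=
    minpoly.algebraMap_eq (algebraMap E (LaurentSeries ℂ)).injective θ
  have h3 : Module.finrank K E ≤ dedekindPsi N := by
    rw [h1, ← h2]
    exact (degree_le (hEM θ.2)).2
  have h4 : Module.finrank K (extendScalars hKF) = dedekindPsi N := by
    rw [← hdeg, relfinrank_eq_finrank_of_le hKF]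
  have h5 : extendScalars hKF = E :=
    IntermediateField.eq_of_le_of_finrank_le le_sup_left (by rw [h4]; exact h3)
  have h6 : u ∈ E := (le_sup_right : adjoin K {u} ≤ E) (mem_adjoin_simple_self K u)
  rw [← h5] at h6
  exact h6

theorem mem_FF {u : LaurentSeries ℂ} : u ∈ FF N ↔ ∃ f, IsX N 1 f ∧ ∃ B : Polynomial ℂ, B ≠ 0 ∧
    u * jev ℂ B = lser f := by
  rw [← Mf_eq, mem_Mf]
  constructor
  · rintro ⟨F, ⟨f, hf, rfl⟩, B, hB, h⟩
    exact ⟨f, hf, B, hB, h⟩
  · rintro ⟨f, hf, B, hB, h⟩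
    exact ⟨_, ⟨f, hf, rfl⟩, B, hB, h⟩

end Fermat.Agent.AnJac
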