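import Fermat.Agent.DimS2.PowerSum
import Fermat.Agent.DimS2.Reg

/-!
Existence of nonzero modular forms with a given finite order character
(Poincaré type series `∑ χ(γ)⁻¹ ((az+b) + i(cz+d))^{-k}`).
-/

set_option autoImplicit false
set_option linter.unusedSectionVars false

open UpperHalfPlane ModularForm MatrixGroups Matrix.SpecialLinearGroup Filter
open scoped Manifold Topology

noncomputable section

namespace Fermat.Agent.AnJac

open EisensteinSeries Fermat.Agent.DimS2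

/-- the linear form `(az+b) + i (cz+d)` -/
def L (γ : SL(2,ℤ)) (z : ℍ) : ℂ :=
  ((γ 0 0 : ℂ) * z + γ 0 1) + Complex.I * ((γ 1 0 : ℂ) * z + γ 1 1)

lemma normSq_L (γ : SL(2,ℤ)) (z : ℍ) : ‖L γ z‖ ^ 2 =
    ‖(γ 0 0 : ℂ) * z + γ 0 1‖ ^ 2 + ‖(γ 1 0 : ℂ) * z + γ 1 1‖ ^ 2 + 2 * z.im := by
  have hdet : (γ 0 0 : ℝ) * γ 1 1 - γ 0 1 * γ 1 0 = 1 := by
    have := γ.det_coe
    rw [Matrix.det_fin_two] at this
    exact_mod_cast this
  rw [← Complex.normSq_eq_norm_sq, ← Complex.normSq_eq_norm_sq, ← Complex.normSq_eq_norm_sq]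
  simp only [L, Complex.normSq_apply, Complex.add_re, Complex.mul_re, Complex.intCast_re,
    Complex.intCast_im, Complex.I_re, Complex.I_im, Complex.add_im, Complex.mul_im, coe_re, coe_im]
  linear_combination (2 * z.im) * hdet

lemma L_ne_zero (γ : SL(2,ℤ)) (z : ℍ) : L γ z ≠ 0 := by
  intro h
  have h1 := normSq_L γ z
  rw [h, norm_zero] at h1
  have := z.im_pos
  nlinarith [sq_nonneg ‖(γ 0 0 : ℂ) * z + γ 0 1‖, sq_nonneg ‖(γ 1 0 : ℂ) * z + γ 1 1‖]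

lemma le_norm_L (γ : SL(2,ℤ)) (z : ℍ) :
    ‖(γ 0 0 : ℂ) * z + γ 0 1‖ * ‖(γ 1 0 : ℂ) * z + γ 1 1‖ ≤ ‖L γ z‖ ^ 2 := by
  rw [normSq_L]
  have := z.im_pos
  nlinarith [sq_nonneg (‖(γ 0 0 : ℂ) * z + γ 0 1‖ - ‖(γ 1 0 : ℂ) * z + γ 1 1‖),
    norm_nonneg ((γ 0 0 : ℂ) * z + γ 0 1), norm_nonneg ((γ 1 0 : ℂ) * z + γ 1 1),
    mul_nonneg (norm_nonneg ((γ 0 0 : ℂ) * z + γ 0 1)) (norm_nonneg ((γ 1 0 : ℂ) * z + γ 1 1))]

lemma L_mul (γ δ : SL(2,ℤ)) (z : ℍ) : L (γ * δ) z = L γ (δ • z) * denom δ z := by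
  have hd := denom_ne_zero δ z
  have hc : ((δ • z : ℍ) : ℂ) = ((δ 0 0 : ℂ) * z + δ 0 1) / denom δ z := by
    rw [UpperHalfPlane.specialLinearGroup_apply]
    simp [ModularGroup.denom_apply]
  have hdd : denom δ z = (δ 1 0 : ℂ) * z + δ 1 1 := ModularGroup.denom_apply δ z
  unfold L
  rw [hc]
  have e00 : (γ * δ) 0 0 = γ 0 0 * δ 0 0 + γ 0 1 * δ 1 0 := by
    simp [Matrix.mul_apply, Fin.sum_univ_two]
  have e01 : (γ * δ) 0 1 = γ 0 0 * δ 0 1 + γ 0 1 * δ 1 1 := by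
    simp [Matrix.mul_apply, Fin.sum_univ_two]
  have e10 : (γ * δ) 1 0 = γ 1 0 * δ 0 0 + γ 1 1 * δ 1 0 := by
    simp [Matrix.mul_apply, Fin.sum_univ_two]
  have e11 : (γ * δ) 1 1 = γ 1 0 * δ 0 1 + γ 1 1 * δ 1 1 := by
    simp [Matrix.mul_apply, Fin.sum_univ_two]
  rw [e00, e01, e10, e11]
  push_cast
  field_simp
  rw [hdd]
  ring

/-- rows -/
def rows (γ : SL(2,ℤ)) : (Fin 2 → ℤ) × (Fin 2 → ℤ) := (γ 0, γ 1)

lemma rows_injective : Function.Injective rows := by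
  intro γ δ h
  simp only [rows, Prod.mk.injEq] at h
  ext i j
  fin_cases i
  · exact congrFun h.1 j
  · exact congrFun h.2 j

/-- majorant -/
def maj (k : ℕ) (γ : SL(2,ℤ)) : ℝ := ‖γ 0‖ ^ (-(k / 2 : ℝ)) * ‖γ 1‖ ^ (-(k / 2 : ℝ))

lemma maj_summable {k : ℕ} (hk : 6 ≤ k) : Summable (maj k) := by
  have hk' : (2 : ℝ) < k / 2 := by
    have : (6 : ℝ) ≤ k := by exact_mod_cast hk
    linarith
  have h1 := summable_one_div_norm_rpow hk'
  have hn : 0 ≤ fun x : Fin 2 → ℤ => ‖x‖ ^ (-(k / 2 : ℝ)) :=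
    fun _ => Real.rpow_nonneg (norm_nonneg _) _
  have h2 := Summable.mul_of_nonneg h1 h1 hn hn
  have h3 : maj k = (fun x : (Fin 2 → ℤ) × (Fin 2 → ℤ) =>
      ‖x.1‖ ^ (-(k / 2 : ℝ)) * ‖x.2‖ ^ (-(k / 2 : ℝ))) ∘ rows := rfl
  rw [h3]
  exact Summable.comp_injective h2 rows_injective

lemma maj_nonneg (k : ℕ) (γ : SL(2,ℤ)) : 0 ≤ maj k γ := by unfold maj; positivity

lemma term_le (k : ℕ) (γ : SL(2,ℤ)) (z : ℍ) {A B : ℝ} (hB : 0 < B) (hz : z ∈ verticalStrip A B) :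
    ‖L γ z‖ ^ (-(k : ℤ)) ≤ (r ⟨⟨A, B⟩, hB⟩ ^ (-(k / 2 : ℝ))) ^ 2 * maj k γ := by
  have hLpos : 0 < ‖L γ z‖ := norm_pos_iff.mpr (L_ne_zero γ z)
  have h0 : (0 : ℝ) ≤ k / 2 := by positivity
  have h1 := summand_bound_of_mem_verticalStrip h0 (γ 0) hB hz
  have h2 := summand_bound_of_mem_verticalStrip h0 (γ 1) hB hz
  set a := ‖(γ 0 0 : ℂ) * z + γ 0 1‖ with ha
  set b := ‖(γ 1 0 : ℂ) * z + γ 1 1‖ with hb
  have hapos : 0 < a := by
    have hx : (γ 0 : Fin 2 → ℤ) ≠ 0 := by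
      intro h
      have := γ.det_coe
      rw [Matrix.det_fin_two] at this
      have h0 : γ 0 0 = 0 := congrFun h 0
      have h1 : γ 0 1 = 0 := congrFun h 1
      rw [h0, h1] at this
      simp at this
    exact (mul_pos (r_pos z) (norm_pos_iff.mpr hx)).trans_le (r_mul_max_le z hx)
  have hbpos : 0 < b := by
    have hx : (γ 1 : Fin 2 → ℤ) ≠ 0 := by
      intro h
      have := γ.det_coe
      rw [Matrix.det_fin_two] at this
      have h0 : γ 1 0 = 0 := congrFun h 0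
      have h1 : γ 1 1 = 0 := congrFun h 1
      rw [h0, h1] at this
      simp at this
    exact (mul_pos (r_pos z) (norm_pos_iff.mpr hx)).trans_le (r_mul_max_le z hx)
  have h3 : ‖L γ z‖ ^ (-(k : ℤ)) = (‖L γ z‖ ^ 2) ^ (-(k / 2 : ℝ)) := by
    rw [← Real.rpow_natCast, ← Real.rpow_mul hLpos.le, ← Real.rpow_intCast]
    congr 1
    push_cast
    ring
  rw [h3]
  calc (‖L γ z‖ ^ 2) ^ (-(k / 2 : ℝ)) ≤ (a * b) ^ (-(k / 2 : ℝ)) := by
        apply Real.rpow_le_rpow_of_nonpos (mul_pos hapos hbpos) (le_norm_L γ z)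
        linarith
    _ = a ^ (-(k / 2 : ℝ)) * b ^ (-(k / 2 : ℝ)) := Real.mul_rpow hapos.le hbpos.le
    _ ≤ (r ⟨⟨A, B⟩, hB⟩ ^ (-(k / 2 : ℝ)) * ‖γ 0‖ ^ (-(k / 2 : ℝ))) *
        (r ⟨⟨A, B⟩, hB⟩ ^ (-(k / 2 : ℝ)) * ‖γ 1‖ ^ (-(k / 2 : ℝ))) := by
        refine mul_le_mul h1 h2 (Real.rpow_nonneg hbpos.le _) ?_
        exact mul_nonneg (Real.rpow_nonneg (r_pos _).le _) (Real.rpow_nonneg (norm_nonneg _) _)
    _ = _ := by unfold maj; ring

/-- the series -/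
def H (k : ℕ) (φ : SL(2,ℤ) → ℂ) (z : ℍ) : ℂ := ∑' γ, φ γ * (L γ z) ^ (-(k : ℤ))

section

variable {φ : SL(2,ℤ) → ℂ} (hφ : ∀ γ, ‖φ γ‖ ≤ 1) {k : ℕ} (hk : 6 ≤ k)
include hφ

lemma norm_term_le (k : ℕ) (γ : SL(2,ℤ)) (z : ℍ) {A B : ℝ} (hB : 0 < B)
    (hz : z ∈ verticalStrip A B) : ‖φ γ * (L γ z) ^ (-(k : ℤ))‖ ≤
      (r ⟨⟨A, B⟩, hB⟩ ^ (-(k / 2 : ℝ))) ^ 2 * maj k γ := by
  rw [norm_mul, norm_zpow]
  calc ‖φ γ‖ * ‖L γ z‖ ^ (-(k : ℤ)) ≤ 1 * ‖L γ z‖ ^ (-(k : ℤ)) := by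
        gcongr
        exact hφ γ
    _ ≤ _ := by rw [one_mul]; exact term_le k γ z hB hz

include hk

lemma H_summable (z : ℍ) : Summable fun γ => φ γ * (L γ z) ^ (-(k : ℤ)) := by
  refine Summable.of_norm_bounded ((maj_summable hk).mul_left _) fun γ =>
    norm_term_le hφ k γ z z.im_pos (A := |z.re|) ⟨le_refl _, le_refl _⟩

lemma H_mdiff : MDiff (H k φ) := by
  intro τ
  suffices DifferentiableAt ℂ (↑ₕ(H k φ)) τ.1 by
    convert!
      MDifferentiableAt.comp τ (DifferentiableAt.mdifferentiableAt this) τ.mdifferentiable_coe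
    exact funext fun z => (comp_ofComplex (H k φ) z).symm
  set U : Set ℂ := {w : ℂ | |w.re| < |τ.re| + 1 ∧ τ.im / 2 < w.im} with hU
  have hUo : IsOpen U :=
    (isOpen_lt (Complex.continuous_re.abs) continuous_const).inter
      (isOpen_lt continuous_const Complex.continuous_im)
  have hτU : (τ : ℂ) ∈ U := by
    refine ⟨?_, ?_⟩
    · show |τ.re| < |τ.re| + 1
      linarith
    · show τ.im / 2 < τ.im
      have := τ.im_pos
      linarith
  have hpos : ∀ w ∈ U, 0 < w.im := fun w hw => (half_pos τ.im_pos).trans hw.2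
  have key : DifferentiableOn ℂ (fun w : ℂ => ∑' γ, φ γ *
      (((γ 0 0 : ℂ) * w + γ 0 1) + Complex.I * ((γ 1 0 : ℂ) * w + γ 1 1)) ^ (-(k : ℤ))) U := by
    refine Complex.differentiableOn_tsum_of_summable_norm
      ((maj_summable hk).mul_left ((r ⟨⟨|τ.re| + 1, τ.im / 2⟩, half_pos τ.im_pos⟩ ^ (-(k / 2 : ℝ))) ^ 2))
      (fun γ => ?_) hUo (fun γ w hw => ?_)
    · refine DifferentiableOn.const_mul ?_ _
      refine DifferentiableOn.zpow (by fun_prop) (Or.inl fun w hw => ?_)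
      exact L_ne_zero γ ⟨w, hpos w hw⟩
    · exact norm_term_le hφ k γ ⟨w, hpos w hw⟩ (half_pos τ.im_pos) ⟨hw.1.le, hw.2.le⟩
  have h2 := key.differentiableAt (hUo.mem_nhds hτU)
  refine h2.congr_of_eventuallyEq ?_
  filter_upwards [hUo.mem_nhds hτU] with w hw
  simp only [Function.comp_apply]
  rw [ofComplex_apply_of_im_pos (hpos w hw)]
  rfl

omit hφ hk in
lemma H_slash (k : ℕ) (φ : SL(2,ℤ) → ℂ) (δ : SL(2,ℤ)) :
    H k φ ∣[(k : ℤ)] δ = H k (fun γ => φ (γ * δ⁻¹)) := by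
  ext z
  rw [SL_slash_apply]
  unfold H
  rw [← tsum_mul_right, ← (Equiv.mulRight δ).tsum_eq (fun γ => φ (γ * δ⁻¹) * L γ z ^ (-(k : ℤ)))]
  refine tsum_congr fun γ => ?_
  simp only [Equiv.coe_mulRight, mul_inv_cancel_right]
  rw [L_mul, mul_zpow]
  ring

lemma H_bdd {M : ℕ} (hM : 0 < M) (hT : ∀ γ, φ (γ * ModularGroup.T ^ M) = φ γ) :
    IsBoundedAtImInfty (H k φ) := by
  rw [UpperHalfPlane.isBoundedAtImInfty_iff]
  refine ⟨∑' γ, (r ⟨⟨M, 1⟩, one_pos⟩ ^ (-(k / 2 : ℝ))) ^ 2 * maj k γ, 1, fun z hz => ?_⟩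
  obtain ⟨n, hn⟩ := ModularGroup_T_zpow_mem_verticalStrip z hM
  have hTz : ∀ m : ℤ, ∀ γ, φ (γ * ModularGroup.T ^ (M * m)) = φ γ := by
    intro m
    induction m using Int.induction_on with
    | zero => intro γ; simp
    | succ m ih =>
      intro γ
      have h1 : (M : ℤ) * (m + 1) = M * m + M := by ring
      rw [h1, zpow_add, ← mul_assoc, zpow_natCast, hT, ih]
    | pred m ih =>
      intro γ
      have h1 := hT (γ * ModularGroup.T ^ ((M : ℤ) * (-m - 1)))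
      rw [← h1, mul_assoc, ← zpow_natCast ModularGroup.T M, ← zpow_add]
      have h2 : (M : ℤ) * (-m - 1) + M = M * -m := by ring
      rw [h2, ih]
  have h1 : H k φ z = H k φ (ModularGroup.T ^ (M * n) • z) := by
    have h2 := congrFun (H_slash k φ (ModularGroup.T ^ ((M : ℤ) * n))) z
    have h3 : (fun γ => φ (γ * (ModularGroup.T ^ ((M : ℤ) * n))⁻¹)) = φ := by
      funext γ
      rw [← hTz n, inv_mul_cancel_right]
    rw [h3, SL_slash_apply] at h2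
    rw [← h2]
    have h4 : denom ((ModularGroup.T ^ ((M : ℤ) * n) : SL(2,ℤ)) : GL (Fin 2) ℝ) z = 1 := by
      rw [ModularGroup.denom_apply, ModularGroup.coe_T_zpow]
      simp
    rw [h4, _root_.one_zpow, mul_one]
  rw [h1]
  have hz' : (ModularGroup.T ^ (M * n) • z) ∈ verticalStrip M 1 := by
    refine verticalStrip_anti_right M hz ?_
    exact_mod_cast hn
  exact tsum_of_norm_bounded ((maj_summable hk).mul_left _).hasSum
    fun γ => norm_term_le hφ k γ _ one_pos hz'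

omit hk in
lemma exists_H_ne_zero {γ₀ : SL(2,ℤ)} (h0 : φ γ₀ ≠ 0) : ∃ k : ℕ, 6 ≤ k ∧ H k φ ≠ 0 := by
  by_contra hcon
  push Not at hcon
  -- the test point
  have hs2 : (0:ℝ) < √2 := by positivity
  set z : ℍ := ⟨⟨0, √2⟩, hs2⟩ with hz
  have hzc : (z : ℂ) = (√2 : ℝ) * Complex.I := by
    apply Complex.ext
    · simp [hz]
    · simp [hz]
  have hirr := irrational_sqrt_two
  have hlin : ∀ a b : ℤ, (a : ℝ) + b * √2 = 0 → a = 0 ∧ b = 0 := by
    intro a b hab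
    have hb : b = 0 := by
      by_contra hb
      apply hirr
      refine ⟨(-a / b : ℚ), ?_⟩
      push_cast
      have hb' : (b : ℝ) ≠ 0 := by exact_mod_cast hb
      field_simp
      linarith
    rw [hb] at hab
    simp only [Int.cast_zero, zero_mul, add_zero, Int.cast_eq_zero] at hab
    exact ⟨hab, hb⟩
  have hinj : Function.Injective fun γ : SL(2,ℤ) => (L γ z)⁻¹ := by
    intro γ δ h
    have h := inv_injective h
    unfold L at h
    rw [hzc] at h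
    have hre := congrArg Complex.re h
    have him := congrArg Complex.im h
    simp only [Complex.add_re, Complex.mul_re, Complex.intCast_re, Complex.intCast_im,
      Complex.ofReal_re, Complex.ofReal_im, Complex.I_re, Complex.I_im, Complex.add_im,
      Complex.mul_im] at hre him
    have h1 := hlin (γ 0 1 - δ 0 1) (δ 1 0 - γ 1 0) (by push_cast; linarith)
    have h2 := hlin (γ 1 1 - δ 1 1) (γ 0 0 - δ 0 0) (by push_cast; linarith)
    ext i j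
    fin_cases i <;> fin_cases j
    · exact sub_eq_zero.mp h2.2
    · exact sub_eq_zero.mp h1.1
    · exact (sub_eq_zero.mp h1.2).symm
    · exact sub_eq_zero.mp h2.1
  refine h0 (powerSum_eq_zero (fun γ : SL(2,ℤ) => (L γ z)⁻¹) hinj φ 6 ?_ ?_ ?_ γ₀
    (inv_ne_zero (L_ne_zero γ₀ z)))
  · intro k hk
    refine (H_summable hφ hk z).congr fun γ => ?_
    rw [_root_.zpow_neg, zpow_natCast, inv_pow]
  · intro k hk
    have := congrFun (hcon k hk) z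
    rw [Pi.zero_apply] at this
    rw [← this]
    unfold H
    refine tsum_congr fun γ => ?_
    rw [_root_.zpow_neg, zpow_natCast, inv_pow]
  · intro ε hε
    have h1 := (maj_summable (le_refl 6)).mul_left ((r ⟨⟨|z.re|, z.im⟩, z.im_pos⟩ ^ (-((6:ℕ) / 2 : ℝ))) ^ 2)
    have h2 := h1.tendsto_cofinite_zero.eventually (gt_mem_nhds (show (0:ℝ) < ε ^ 6 by positivity))
    rw [Filter.eventually_cofinite] at h2
    refine h2.subset ?_
    rintro γ ⟨_, hv⟩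
    simp only [Set.mem_ofPred_eq, not_lt]
    refine le_trans ?_ (term_le 6 γ z z.im_pos (A := |z.re|) ⟨le_refl _, le_refl _⟩)
    rw [_root_.zpow_neg, zpow_natCast, ← inv_pow, ← norm_inv]
    exact pow_le_pow_left₀ hε.le hv 6

end

lemma e46_ne : e4 * e6 ≠ 0 := by
  intro h
  rcases (UpperHalfPlane.mul_eq_zero_iff e4_isL1.holo e6_isL1.holo).mp h with h | h
  · exact e4_ne_zero h
  · exact e6_ne_zero h

/-- a nonzero form with given character -/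
theorem exists_form (Γ : Subgroup SL(2,ℤ)) (χ : Γ →* ℂˣ) (hχ : ∀ γ, ‖(χ γ : ℂ)‖ = 1)
    (hneg : (-1 : SL(2,ℤ)) ∈ Γ) (hneg' : χ ⟨-1, hneg⟩ = 1) {M : ℕ} (hM : 0 < M)
    (hT : ∀ δ : SL(2,ℤ), ∃ h : δ * ModularGroup.T ^ M * δ⁻¹ ∈ Γ, χ ⟨_, h⟩ = 1) :
    ∃ (l : ℕ) (h : ℍ → ℂ), MDiff h ∧ h ≠ 0 ∧
      (∀ γ : Γ, h ∣[(12 * l : ℤ)] (γ : SL(2,ℤ)) = (χ γ : ℂ) • h) ∧
      ∀ δ : SL(2,ℤ), IsBoundedAtImInfty (h ∣[(12 * l : ℤ)] δ) := by
  classical
  let φ : SL(2,ℤ) → ℂ := fun γ => if h : γ ∈ Γ then ((χ ⟨γ, h⟩ : ℂˣ) : ℂ)⁻¹ else 0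
  have hφ : ∀ γ, ‖φ γ‖ ≤ 1 := by
    intro γ
    simp only [φ]
    split_ifs with h
    · rw [norm_inv, hχ, inv_one]
    · simp
  have hφ1 : φ 1 ≠ 0 := by
    simp only [φ]
    rw [dif_pos Γ.one_mem]
    exact inv_ne_zero (Units.ne_zero _)
  have hφΓ : ∀ (γ : SL(2,ℤ)) (δ : Γ), φ (γ * (δ : SL(2,ℤ))⁻¹) = χ δ * φ γ := by
    intro γ δ
    simp only [φ]
    by_cases h : γ ∈ Γ
    · rw [dif_pos h, dif_pos (Γ.mul_mem h (Γ.inv_mem δ.2))]
      have : (⟨γ * (δ : SL(2,ℤ))⁻¹, Γ.mul_mem h (Γ.inv_mem δ.2)⟩ : Γ) = ⟨γ, h⟩ * δ⁻¹ := rfl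
      rw [this, map_mul, map_inv]
      push_cast
      field_simp
    · have h' : ¬ γ * (δ : SL(2,ℤ))⁻¹ ∈ Γ := by
        intro h'
        exact h (by simpa using Γ.mul_mem h' δ.2)
      rw [dif_neg h, dif_neg h', mul_zero]
  have hφneg : ∀ γ, φ (-γ) = φ γ := by
    intro γ
    have h1 := hφΓ γ ⟨-1, hneg⟩
    rw [hneg'] at h1
    simpa using h1
  obtain ⟨k, hk, hHk⟩ := exists_H_ne_zero hφ hφ1
  -- k is even
  have hkev : Even k := by
    by_contra hodd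
    rw [Nat.not_even_iff_odd] at hodd
    apply hHk
    ext z
    have h1 : H k φ z = - H k φ z := by
      unfold H
      rw [← tsum_neg, ← (Equiv.neg SL(2,ℤ)).tsum_eq (fun γ => φ γ * L γ z ^ (-(k : ℤ)))]
      refine tsum_congr fun γ => ?_
      simp only [Equiv.neg_apply]
      rw [hφneg]
      have h2 : L (-γ) z = - L γ z := by
        unfold L
        simp
        ring
      rw [h2, Odd.neg_zpow (by simpa using hodd)]
      ring
    have : (2:ℂ) * H k φ z = 0 := by linear_combination h1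
    simpa using this
  obtain ⟨l, hl⟩ := hkev
  -- multiply by `(E₄ E₆)^l`
  have he : IsL1 (10 * l : ℤ) ((e4 * e6) ^ l) := by
    have := (e4_isL1.mul e6_isL1).pow l
    refine this.congr_weight ?_
    ring
  have he0 : (e4 * e6) ^ l ≠ 0 := by
    intro h
    apply e46_ne
    ext z
    exact eq_zero_of_pow_eq_zero (congrFun h z)
  have hkl : (12 * l : ℤ) = 10 * l + k := by rw [hl]; push_cast; ring
  refine ⟨l, (e4 * e6) ^ l * H k φ, he.holo.mul (H_mdiff hφ hk), ?_, ?_, ?_⟩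
  · intro h
    rcases (UpperHalfPlane.mul_eq_zero_iff he.holo (H_mdiff hφ hk)).mp h with h | h
    · exact he0 h
    · exact hHk h
  · intro γ
    rw [hkl, mul_slash_SL2, he.slash, H_slash]
    have : H k (fun δ => φ (δ * (γ : SL(2,ℤ))⁻¹)) = (χ γ : ℂ) • H k φ := by
      ext z
      rw [Pi.smul_apply, smul_eq_mul]
      unfold H
      rw [← tsum_mul_left]
      refine tsum_congr fun δ => ?_
      show φ (δ * (γ : SL(2,ℤ))⁻¹) * _ = _
      rw [hφΓ]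
      ring
    rw [this]
    ext z
    simp only [Pi.mul_apply, Pi.smul_apply, smul_eq_mul]
    ring
  · intro δ
    rw [hkl, mul_slash_SL2, he.slash, H_slash]
    refine he.bdd.mul (H_bdd (fun γ => hφ _) hk hM fun γ => ?_)
    obtain ⟨h1, h2⟩ := hT δ
    have h3 := hφΓ (γ * δ⁻¹) ⟨_, Γ.inv_mem h1⟩
    have h4 : χ ⟨_, Γ.inv_mem h1⟩ = 1 := by
      have : (⟨_, Γ.inv_mem h1⟩ : Γ) = ⟨_, h1⟩⁻¹ := rfl
      rw [this, map_inv, h2, inv_one]
    rw [h4, Units.val_one, one_mul] at h3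
    rw [← h3]
    congr 1
    group

end Fermat.Agent.AnJac
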