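import Fermat.Agent.AnJac.Orders
import Fermat.Agent.AnJac.Poincare
import Fermat.Agent.DimS2.Eis

/-!
The ring `𝒜_N` and functions on `Γ₀(N)\ℍ` with character.
-/

set_option autoImplicit false
set_option linter.unusedSectionVars false

open UpperHalfPlane ModularForm MatrixGroups Matrix.SpecialLinearGroup Filter Function
open scoped Manifold Topology Real

noncomputable section

namespace Fermat.Agent.AnJac

open Fermat.Agent.DimS2 Fermat.Agent.ModFun CongruenceSubgroup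

local notation "𝕢" => Function.Periodic.qParam

/-- the class `𝒜_N` -/
structure IsA (N : ℕ) (f : ℍ → ℂ) : Prop where
  mdiff : MDiff f
  per : ∀ (δ : SL(2,ℤ)) (τ : ℍ), f (δ • (ModularGroup.T ^ N • τ)) = f (δ • τ)
  mg : ∀ δ : SL(2,ℤ), MG (fun τ => f (δ • τ))

lemma mdiff_comp_smul {f : ℍ → ℂ} (hf : MDiff f) (g : SL(2,ℤ)) : MDiff (fun τ => f (g • τ)) := by
  have h1 : MDiff (fun τ : ℍ => (g : GL (Fin 2) ℝ) • τ) :=
    mdifferentiable_smul (by simp)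
  exact hf.comp h1

namespace IsA

variable {N : ℕ} {f g : ℍ → ℂ}

lemma add (hf : IsA N f) (hg : IsA N g) : IsA N (f + g) :=
  ⟨hf.mdiff.add hg.mdiff, fun δ τ => by rw [Pi.add_apply, Pi.add_apply, hf.per, hg.per],
    fun δ => (hf.mg δ).add (hg.mg δ)⟩

lemma mul (hf : IsA N f) (hg : IsA N g) : IsA N (f * g) :=
  ⟨hf.mdiff.mul hg.mdiff, fun δ τ => by rw [Pi.mul_apply, Pi.mul_apply, hf.per, hg.per],
    fun δ => (hf.mg δ).mul (hg.mg δ)⟩

lemma const (c : ℂ) : IsA N (fun _ => c) :=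
  ⟨mdifferentiable_const, fun _ _ => rfl, fun _ => mg_const c⟩

lemma translate (hf : IsA N f) (g : SL(2,ℤ)) : IsA N (fun τ => f (g • τ)) := by
  refine ⟨mdiff_comp_smul hf.mdiff g, fun δ τ => ?_, fun δ => ?_⟩
  · simp only [← mul_smul g δ]
    exact hf.per (g * δ) τ
  · refine (hf.mg (g * δ)).congr fun τ => ?_
    rw [mul_smul]

end IsA

/-- `𝒜_N` as a subalgebra -/
def Asub (N : ℕ) : Subalgebra ℂ (ℍ → ℂ) where
  carrier := {f | IsA N f}
  mul_mem' := IsA.mul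
  add_mem' := IsA.add
  algebraMap_mem' := IsA.const

/-- admissible spots -/
def Spot.Adm (N : ℕ) (s : Spot) : Prop := ∀ f : ℍ → ℂ, IsA N f → f ≠ 0 → ∃ r : ℤ, s.HasOrd f r

lemma Spot.adm_pt (N : ℕ) (z : ℍ) : (Spot.pt z).Adm N :=
  fun _ hf h0 => ⟨_, Spot.hasOrd_pt hf.mdiff h0 z⟩

lemma Spot.adm_cusp {N : ℕ} (hN : 0 < N) : (Spot.cusp N hN).Adm N := by
  intro f hf h0
  refine Spot.hasOrd_cusp hN hf.mdiff (fun τ => ?_) ?_ h0
  · have := hf.per 1 τ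
    simpa using this
  · refine (hf.mg 1).congr fun τ => ?_
    rw [one_smul]

lemma Spot.Adm.smul {N : ℕ} {s : Spot} (h : s.Adm N) (g : SL(2,ℤ)) : (Spot.smul g s).Adm N := by
  intro f hf h0
  obtain ⟨r, hr⟩ := h _ (hf.translate g) (by
    intro h
    apply h0
    ext τ
    have := congrFun h (g⁻¹ • τ)
    simpa using this)
  exact ⟨r, Spot.hasOrd_smul.mpr hr⟩

/-! ### characters -/

/-- homomorphisms killing all elements of trace at most two in absolute value -/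
def IsNH {N : ℕ} {M : Type*} [Monoid M] (χ : Gamma0 N →* M) : Prop :=
  ∀ γ : Gamma0 N, |(γ : SL(2,ℤ)) 0 0 + (γ : SL(2,ℤ)) 1 1| ≤ 2 → χ γ = 1

lemma isNH_one {N : ℕ} {M : Type*} [Monoid M] : IsNH (1 : Gamma0 N →* M) := fun _ _ => rfl

lemma IsNH.mul {N : ℕ} {M : Type*} [CommMonoid M] {χ ψ : Gamma0 N →* M} (hχ : IsNH χ)
    (hψ : IsNH ψ) : IsNH (χ * ψ) := fun γ hγ => by
  rw [MonoidHom.mul_apply, hχ γ hγ, hψ γ hγ, mul_one]

lemma IsNH.pow {N : ℕ} {M : Type*} [CommMonoid M] {χ : Gamma0 N →* M} (hχ : IsNH χ)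
    (n : ℕ) : IsNH (χ ^ n) := fun γ hγ => by
  rw [MonoidHom.pow_apply, hχ γ hγ, one_pow]

lemma IsNH.inv {N : ℕ} {M : Type*} [CommGroup M] {χ : Gamma0 N →* M} (hχ : IsNH χ) :
    IsNH χ⁻¹ := fun γ hγ => by
  rw [MonoidHom.inv_apply, hχ γ hγ, inv_one]

/-- functions with character on `Γ₀(N)\ℍ` -/
structure IsX (N : ℕ) (χ : Gamma0 N →* ℂˣ) (f : ℍ → ℂ) : Prop where
  isA : IsA N f
  inv : ∀ (γ : Gamma0 N) (τ : ℍ), f ((γ : SL(2,ℤ)) • τ) = χ γ * f τ

lemma T_mem (N : ℕ) : ModularGroup.T ∈ Gamma0 N := by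
  rw [Gamma0_mem]
  simp [ModularGroup.T]

/-- `T` as an element of `Γ₀(N)` -/
def TT (N : ℕ) : Gamma0 N := ⟨ModularGroup.T, T_mem N⟩

lemma IsNH.T {N : ℕ} {M : Type*} [Monoid M] {χ : Gamma0 N →* M} (h : IsNH χ) : χ (TT N) = 1 := by
  apply h
  simp [TT, ModularGroup.T]

namespace IsX

variable {N : ℕ} {χ ψ : Gamma0 N →* ℂˣ} {f g : ℍ → ℂ}

lemma isP (hf : IsX N χ f) (hχ : IsNH χ) : IsP f := by
  refine ⟨hf.isA.mdiff, fun τ => ?_, ?_⟩
  · have := hf.inv (TT N) τ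
    rw [hχ.T, Units.val_one, one_mul] at this
    exact this
  · refine (hf.isA.mg 1).congr fun τ => ?_
    rw [one_smul]

lemma mul (hf : IsX N χ f) (hg : IsX N ψ g) : IsX N (χ * ψ) (f * g) :=
  ⟨hf.isA.mul hg.isA, fun γ τ => by
    rw [Pi.mul_apply, Pi.mul_apply, hf.inv, hg.inv, MonoidHom.mul_apply, Units.val_mul]; ring⟩

lemma add (hf : IsX N χ f) (hg : IsX N χ g) : IsX N χ (f + g) :=
  ⟨hf.isA.add hg.isA, fun γ τ => by
    rw [Pi.add_apply, Pi.add_apply, hf.inv, hg.inv]; ring⟩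

lemma const (c : ℂ) : IsX N 1 (fun _ => c) := ⟨IsA.const c, fun γ τ => by simp⟩

lemma one : IsX N 1 1 := const 1

lemma pow (hf : IsX N χ f) (n : ℕ) : IsX N (χ ^ n) (f ^ n) := by
  refine ⟨(Asub N).pow_mem hf.isA n, fun γ τ => ?_⟩
  rw [Pi.pow_apply, Pi.pow_apply, hf.inv, mul_pow, MonoidHom.pow_apply, Units.val_pow_eq_pow_val]

lemma smul (hf : IsX N χ f) (c : ℂ) : IsX N χ (fun τ => c * f τ) :=
  ⟨(IsA.const c).mul hf.isA, fun γ τ => by
    rw [hf.inv]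
    ring⟩

end IsX

/-! ### level one -/

lemma coeffMap_id (F : LaurentSeries ℂ) : ModularCurve.coeffMap (RingHom.id ℂ) F = F := by
  ext n
  simp

lemma exists_jpoly {f : ℍ → ℂ} (hf : IsP f) (hS : ∀ g : SL(2,ℤ), ∀ τ, f (g • τ) = f τ) :
    ∃ P : Polynomial ℂ, lser f = jev ℂ P := by
  obtain ⟨P, hP⟩ := exists_poly (RingHom.id ℂ) Function.injective_id (lser f) (by
    rw [coeffMap_id]; exact hf.lser_mem) (fun τ => by
      have h1 : ∀ τ : ℍ, evq τ ⟨ModularCurve.coeffMap (RingHom.id ℂ) (lser f), by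
          rw [coeffMap_id]; exact hf.lser_mem⟩ = f τ := by
        intro τ
        have h2 : evf (ModularCurve.coeffMap (RingHom.id ℂ) (lser f)) (𝕢 1 τ) = f τ := by
          rw [coeffMap_id]
          exact congrFun hf.ef_lser τ
        exact h2
      rw [h1, h1, hS])
  exact ⟨P, hP.symm⟩

end Fermat.Agent.AnJac
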