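import Fermat.Agent.AnJac.HeckeF
import Fermat.Agent.GalRep.Data

/-!
The Hecke-Galois data of `X₀(N)`, given the congruence relation and good reduction.
-/

set_option autoImplicit false
set_option linter.unusedSectionVars false

noncomputable section

namespace Fermat.Agent.AnJac

open ModularCurve AlgebraicCurve IntermediateField Fermat.Agent.GenusX0 Fermat.Agent.ModFun
open Fermat.Agent.Curves CongruenceSubgroup MatrixGroups UpperHalfPlane GalRep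

local notation "Qbar" => AlgebraicClosure ℚ
local notation "GQ" => Qbar ≃ₐ[ℚ] Qbar

/-- the Eichler-Shimura congruence relation and good reduction, at the level of functions -/
structure ESHyp (N p : ℕ) : Prop where
  frob : ∀ (ℓ : ℕ) [NeZero ℓ], ℓ.Prime → ¬ ℓ ∣ N * p → ∀ ζ : Qbarˣ, IsPrimitiveRoot ζ ℓ →
    ∀ A : ValuationSubring Qbar, A.LiesOverPrime ℓ → ∀ τ : GQ, A.IsFrobeniusAt τ ℓ →
    ∀ (n : ℕ) (u : modularFunctionFieldFullC Qbar N), u ≠ 0 →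
      (∀ v : Place Qbar (modularFunctionFieldFullC Qbar N), ((p ^ n : ℕ) : ℤ) ∣ v.ord u) →
      ∃ g : modularFunctionFieldFullC Qbar N, g ≠ 0 ∧
        heckeMul ζ ℓ (u : LaurentSeries Qbar) = coeffMap (fQ τ : Qbar →+* Qbar) u *
          coeffMap (fQ τ⁻¹ : Qbar →+* Qbar) u ^ ℓ * (g : LaurentSeries Qbar) ^ (p ^ n)
  inert : ∀ q : ℕ, q.Prime → ¬ q ∣ N * p → ∀ A : ValuationSubring Qbar, A.LiesOverPrime q →
    ∀ σ ∈ A.inertiaSubgroupIn ℚ,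
    ∀ (n : ℕ) (u : modularFunctionFieldFullC Qbar N), u ≠ 0 →
      (∀ v : Place Qbar (modularFunctionFieldFullC Qbar N), ((p ^ n : ℕ) : ℤ) ∣ v.ord u) →
      ∃ g : modularFunctionFieldFullC Qbar N, g ≠ 0 ∧
        coeffMap (fQ σ : Qbar →+* Qbar) u =
          (u : LaurentSeries Qbar) * (g : LaurentSeries Qbar) ^ (p ^ n)

variable (N p : ℕ) [NeZero N] [hp : Fact p.Prime]

/-- an embedding of the algebraic numbers -/
def ιQ : Qbar →+* ℂ :=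
  haveI : Algebra.IsAlgebraic ℚ Qbar := AlgebraicClosure.isAlgebraic ℚ
  (IsAlgClosed.lift : Qbar →ₐ[ℚ] ℂ).toRingHom

/-- the Kummer system over the algebraic numbers -/
abbrev KQ : KSys (modularFunctionFieldFullC Qbar N) GQ (Lat N) := kX0 N ιQ fQ

/-- the basis of the lattice -/
def bL : Module.Basis (Fin (Module.finrank ℤ (Lat N))) ℤ (Lat N) := Module.finBasis ℤ (Lat N)

/-- Hecke operators on the lattice -/
def LTot (ℓ : ℕ) : Lat N →+ Lat N :=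
  if h : ℓ.Prime then
    if hN : ℓ ∣ N then haveI : NeZero ℓ := ⟨h.ne_zero⟩; LU N ℓ hN
    else haveI : Fact ℓ.Prime := ⟨h⟩; LT N ℓ hN
  else 0

lemma LTot_of_not_dvd (ℓ : ℕ) [h : Fact ℓ.Prime] (hN : ¬ ℓ ∣ N) : LTot N ℓ = LT N ℓ hN := by
  rw [LTot, dif_pos h.out, dif_neg hN]

lemma LTot_of_dvd (ℓ : ℕ) [NeZero ℓ] (h : ℓ.Prime) (hN : ℓ ∣ N) : LTot N ℓ = LU N ℓ hN := by
  rw [LTot, dif_pos h, dif_pos hN]

lemma exists_zeta (ℓ : ℕ) [NeZero ℓ] : ∃ ζ : Qbarˣ, IsPrimitiveRoot ζ ℓ := by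
  obtain ⟨ζ, hζ⟩ := HasEnoughRootsOfUnity.exists_primitiveRoot Qbar ℓ
  exact ⟨(hζ.isUnit (NeZero.ne ℓ)).unit, hζ.isUnit_unit (NeZero.ne ℓ)⟩

lemma rho_cont (n : ℕ) : ∃ L : IntermediateField ℚ Qbar, FiniteDimensional ℚ L ∧
    ∀ σ : GQ, (∀ x ∈ L, σ x = x) → ∀ i j,
      PadicInt.toZModPow n ((KQ N).rho (bL N) p σ i j) =
        (1 : Matrix (Fin (Module.finrank ℤ (Lat N))) (Fin (Module.finrank ℤ (Lat N)))
          (ZMod (p ^ n))) i j := by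
  obtain ⟨u, hu⟩ := (KQ N).exists_control (bL N) (KSys.pn0 p n)
  obtain ⟨L, hL, h⟩ := exists_finite_fixed_fam u
  refine ⟨L, hL, fun σ hσ i j => ?_⟩
  have h1 := hu σ (h σ hσ)
  have h2 := (KQ N).rho_spec (bL N) p σ n
  rw [h1] at h2
  exact congrFun (congrFun h2 i) j

lemma rho_comm_LTot (g : GQ) (ℓ : ℕ) :
    (KQ N).rho (bL N) p g * castHom _ ℤ_[p] (KSys.tm (bL N) (LTot N ℓ)) =
      castHom _ ℤ_[p] (KSys.tm (bL N) (LTot N ℓ)) * (KQ N).rho (bL N) p g := by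
  by_cases h : ℓ.Prime
  · have : NeZero ℓ := ⟨h.ne_zero⟩
    have : Fact ℓ.Prime := ⟨h⟩
    obtain ⟨ζ, hζ⟩ := exists_zeta ℓ
    by_cases hN : ℓ ∣ N
    · rw [LTot_of_dvd N ℓ h hN]
      exact (KQ N).rho_comm (bL N) (fun n _ => compat_LU ιQ fQ hN hζ) g
        (fun u => FU_act ιQ fQ hN hζ g u)
    · rw [LTot_of_not_dvd N ℓ hN]
      exact (KQ N).rho_comm (bL N) (fun n _ => compat_LT ιQ fQ hN hζ) g
        (fun u => FT_act ιQ fQ hN hζ g u)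
  · have h0 : LTot N ℓ = 0 := by rw [LTot, dif_neg h]
    have h1 : KSys.tm (bL N) (LTot N ℓ) = 0 := by
      ext i j
      simp [h0, KSys.tm]
    rw [h1, map_zero, mul_zero, zero_mul]

variable {N p} in
lemma rho_frob_LTot (H : ESHyp N p) {ℓ : ℕ} (hℓ : ℓ.Prime) (hℓN : ¬ ℓ ∣ N * p)
    {A : ValuationSubring Qbar} (hA : A.LiesOverPrime ℓ) {τ : GQ} (hτ : A.IsFrobeniusAt τ ℓ) :
    castHom _ ℤ_[p] (KSys.tm (bL N) (LTot N ℓ)) = (KQ N).rho (bL N) p τ +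
      (ℓ : ℤ_[p]) • (KQ N).rho (bL N) p τ⁻¹ := by
  have : NeZero ℓ := ⟨hℓ.ne_zero⟩
  have : Fact ℓ.Prime := ⟨hℓ⟩
  have hN : ¬ ℓ ∣ N := fun h => hℓN (h.mul_right p)
  obtain ⟨ζ, hζ⟩ := exists_zeta ℓ
  rw [LTot_of_not_dvd N ℓ hN]
  refine (KQ N).rho_frob (bL N) (fun n _ => compat_LT ιQ fQ hN hζ) τ ℓ fun n φ u hu => ?_
  obtain ⟨g, hg, h⟩ := H.frob ℓ hℓ hℓN ζ hζ A hA τ hτ n u ((KQ N).ne_zero hu)
    (fun v => ClX.dvd_ord ιQ hu v)
  exact ⟨g, hg, Subtype.ext h⟩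

/-- **the Hecke-Galois data of `X₀(N)`** -/
def hdata (H : ESHyp N p) : HData N p where
  r := Module.finrank ℤ (Lat N)
  T ℓ := KSys.tm (bL N) (LTot N ℓ)
  ρ := (KQ N).rho (bL N) p
  cont := rho_cont N p
  comm g ℓ _ _ := rho_comm_LTot N p g ℓ
  frob ℓ hℓ hℓN A hA τ hτ := by
    have h1 := rho_frob_LTot H hℓ hℓN hA hτ
    have h2 : (KQ N).rho (bL N) p τ⁻¹ * (KQ N).rho (bL N) p τ = 1 := by
      rw [← map_mul, inv_mul_cancel, map_one]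
    rw [h1, add_mul, Matrix.smul_mul, h2]
    abel
  inert q hq hqN A hA σ hσ := by
    refine (KQ N).rho_inert (bL N) fun n φ u hu => ?_
    obtain ⟨g, hg, h⟩ := H.inert q hq hqN A hA σ hσ n u ((KQ N).ne_zero hu)
      (fun v => ClX.dvd_ord ιQ hu v)
    exact ⟨g, hg, Subtype.ext h⟩

end Fermat.Agent.AnJac
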