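import Fermat.Agent.AnJac.Lat

/-!
Hecke operators on the Kummer system of `X₀(N)`.
-/

set_option autoImplicit false
set_option linter.unusedSectionVars false

noncomputable section

namespace Fermat.Agent.AnJac

open ModularCurve AlgebraicCurve IntermediateField Fermat.Agent.GenusX0 Fermat.Agent.ModFun
open Fermat.Agent.Curves CongruenceSubgroup MatrixGroups UpperHalfPlane

variable {N : ℕ} [NeZero N]

/-- Hecke families preserve the function field -/
lemma HF.mem_FF {κ : Type*} [Fintype κ] (F : HF (Gamma0 N) κ) (Hm : LaurentSeries ℂ →* LaurentSeries ℂ)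
    (hHm : ∀ G : ℍ → ℂ, IsP G → IsP (F.Nm G) → lser (F.Nm G) = Hm (lser G))
    {u : LaurentSeries ℂ} (hu : u ∈ FF N) : Hm u ∈ FF N := by
  obtain ⟨f, hf, B, hB, h⟩ := AnJac.mem_FF.mp hu
  have hb := isX_jev (N := N) B
  have hb0 := ef_jev_ne_zero hB
  have key : ∀ G : ℍ → ℂ, IsX N 1 G → IsX N 1 (F.Nm G) := by
    intro G hG
    have := F.isX_Nm hG (by rw [F.Tm_one]; exact isNH_one)
    rwa [F.Tm_one] at this
  have h1 : u * lser (ef (jev ℂ B)) = lser f := by rw [lser_ef (jev_mem B), h]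
  have h2 : Hm u * lser (F.Nm (ef (jev ℂ B))) = lser (F.Nm f) := by
    rw [hHm _ (hb.isP isNH_one) ((key _ hb).isP isNH_one),
      hHm _ (hf.isP isNH_one) ((key _ hf).isP isNH_one), ← map_mul, h1]
  have h3 : lser (F.Nm (ef (jev ℂ B))) ≠ 0 :=
    lser_ne_zero ((key _ hb).isP isNH_one) (F.Nm_ne_zero hb.isA.mdiff hb0)
  have h4 : Hm u = lser (F.Nm f) / lser (F.Nm (ef (jev ℂ B))) := by
    rw [← h2, mul_div_cancel_right₀ _ h3]
  rw [h4]
  exact quot_mem_FF (key _ hf) (key _ hb)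

lemma heckeW_mem_FF {p : ℕ} [NeZero p] (hpN : p ∣ N) {ζ : ℂˣ} (hζ : IsPrimitiveRoot ζ p)
    {u : LaurentSeries ℂ} (hu : u ∈ FF N) : heckeW ζ p u ∈ FF N := by
  rw [heckeW_congr hζ (zetaU_prim p)]
  refine HF.mem_FF (hfU N p hpN) (heckeWHom (zetaU_prim p)) (fun G hG _ => ?_) hu
  rw [Nm_hfU, (isP_Wfun hG).2]
  rfl

lemma heckeMul_mem_FF {q : ℕ} [hq : Fact q.Prime] [NeZero q] (hqN : ¬ q ∣ N) {ζ : ℂˣ}
    (hζ : IsPrimitiveRoot ζ q) {u : LaurentSeries ℂ} (hu : u ∈ FF N) : heckeMul ζ q u ∈ FF N := by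
  rw [heckeMul_congr hζ (zetaU_prim q)]
  refine HF.mem_FF (hfT N q hqN) (heckeMulHom (zetaU_prim q)) (fun G hG _ => ?_) hu
  rw [Nm_hfT, lser_mul (lser_diag hG).1 (isP_Wfun hG).1, (lser_diag hG).2, (isP_Wfun hG).2]
  rfl

section K

variable {k : Type*} [Field k] [IsAlgClosed k] [CharZero k] (ι : k →+* ℂ)

include ι in
lemma heckeW_mem_k {p : ℕ} [NeZero p] (hpN : p ∣ N) {ζ : kˣ} (hζ : IsPrimitiveRoot ζ p)
    {u : LaurentSeries k} (hu : u ∈ modularFunctionFieldFullC k N) :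
    heckeW ζ p u ∈ modularFunctionFieldFullC k N := by
  let _ := ι.toAlgebra
  apply mem_of_coeffs
  change coeffMap ι (heckeW ζ p u) ∈ FF N
  rw [coeffMap_heckeW ι hζ]
  exact heckeW_mem_FF hpN (isPrimitiveRoot_map ι hζ) (coeffMap_mem_FF ι hu)

include ι in
lemma heckeMul_mem_k {q : ℕ} [hq : Fact q.Prime] [NeZero q] (hqN : ¬ q ∣ N) {ζ : kˣ}
    (hζ : IsPrimitiveRoot ζ q) {u : LaurentSeries k} (hu : u ∈ modularFunctionFieldFullC k N) :
    heckeMul ζ q u ∈ modularFunctionFieldFullC k N := by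
  let _ := ι.toAlgebra
  apply mem_of_coeffs
  change coeffMap ι (heckeMul ζ q u) ∈ FF N
  rw [coeffMap_heckeMul ι hζ]
  exact heckeMul_mem_FF hqN (isPrimitiveRoot_map ι hζ) (coeffMap_mem_FF ι hu)

end K

section Q

variable {k : Type*} [Field k] [IsAlgClosed k] [CharZero k]

/-- the operator `T_q`, `q ∤ N` prime, on the function field over `k` -/
def FT (ι : k →+* ℂ) {q : ℕ} [Fact q.Prime] [NeZero q] (hqN : ¬ q ∣ N) {ζ : kˣ}
    (hζ : IsPrimitiveRoot ζ q) (u : modularFunctionFieldFullC k N) :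
    modularFunctionFieldFullC k N :=
  ⟨heckeMul ζ q (u : LaurentSeries k), heckeMul_mem_k ι hqN hζ u.2⟩

/-- the operator `U_p`, `p ∣ N`, on the function field over `k` -/
def FU (ι : k →+* ℂ) {p : ℕ} [NeZero p] (hpN : p ∣ N) {ζ : kˣ} (hζ : IsPrimitiveRoot ζ p)
    (u : modularFunctionFieldFullC k N) : modularFunctionFieldFullC k N :=
  ⟨heckeW ζ p (u : LaurentSeries k), heckeW_mem_k ι hpN hζ u.2⟩

variable (N) in
/-- the operator `T_q` on the lattice -/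
def LT (q : ℕ) [Fact q.Prime] (hqN : ¬ q ∣ N) : Lat N →+ Lat N :=
  ((hfT N q hqN).T.comp (Lat N).subtype).codRestrict _ fun φ => (hfT N q hqN).T_mem φ.2

variable (N) in
/-- the operator `U_p` on the lattice -/
def LU (p : ℕ) [NeZero p] (hpN : p ∣ N) : Lat N →+ Lat N :=
  ((hfU N p hpN).T.comp (Lat N).subtype).codRestrict _ fun φ => (hfU N p hpN).T_mem φ.2

lemma coe_LT (q : ℕ) [Fact q.Prime] (hqN : ¬ q ∣ N) (φ : Lat N) :
    (LT N q hqN φ : Additive (Gamma0 N) →+ ℤ) = (hfT N q hqN).T φ := rfl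

lemma coe_LU (p : ℕ) [NeZero p] (hpN : p ∣ N) (φ : Lat N) :
    (LU N p hpN φ : Additive (Gamma0 N) →+ ℤ) = (hfU N p hpN).T φ := rfl

variable (ι : k →+* ℂ) {G : Type*} [Group G] (f : G →* RingAut k)

lemma compat_LT {q : ℕ} [Fact q.Prime] [NeZero q] (hqN : ¬ q ∣ N) {ζ : kˣ}
    (hζ : IsPrimitiveRoot ζ q) {n : ℕ} :
    (kX0 N ι f).Compat n (LT N q hqN) (FT ι hqN hζ) := by
  intro φ u hu
  change IsChar N n (coeffMap ι (heckeMul ζ q (u : LaurentSeries k)))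
    (ech n ((hfT N q hqN).T (φ : Additive (Gamma0 N) →+ ℤ)))
  rw [← Tm_ech, coeffMap_heckeMul ι hζ]
  refine IsChar.heckeT hu q hqN ?_ (isPrimitiveRoot_map ι hζ)
  rw [Tm_ech]
  exact isNH_ech (LT N q hqN φ).2

lemma compat_LU {p : ℕ} [NeZero p] (hpN : p ∣ N) {ζ : kˣ}
    (hζ : IsPrimitiveRoot ζ p) {n : ℕ} :
    (kX0 N ι f).Compat n (LU N p hpN) (FU ι hpN hζ) := by
  intro φ u hu
  change IsChar N n (coeffMap ι (heckeW ζ p (u : LaurentSeries k)))
    (ech n ((hfU N p hpN).T (φ : Additive (Gamma0 N) →+ ℤ)))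
  rw [← Tm_ech, coeffMap_heckeW ι hζ]
  refine IsChar.heckeU hu hpN ?_ (isPrimitiveRoot_map ι hζ)
  rw [Tm_ech]
  exact isNH_ech (LU N p hpN φ).2

lemma FT_act {q : ℕ} [Fact q.Prime] [NeZero q] (hqN : ¬ q ∣ N) {ζ : kˣ}
    (hζ : IsPrimitiveRoot ζ q) (σ : G) (u : modularFunctionFieldFullC k N) :
    FT ι hqN hζ (actG N f σ u) = actG N f σ (FT ι hqN hζ u) := by
  apply Subtype.ext
  exact (coeffMap_heckeMul' ((f σ : RingAut k) : k →+* k) hζ hζ (u : LaurentSeries k)).symm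

lemma FU_act {p : ℕ} [NeZero p] (hpN : p ∣ N) {ζ : kˣ}
    (hζ : IsPrimitiveRoot ζ p) (σ : G) (u : modularFunctionFieldFullC k N) :
    FU ι hpN hζ (actG N f σ u) = actG N f σ (FU ι hpN hζ u) := by
  apply Subtype.ext
  exact (coeffMap_heckeW' ((f σ : RingAut k) : k →+* k) hζ hζ (u : LaurentSeries k)).symm

end Q

/-! ### finiteness of the field of definition -/

section Open

local notation "Qbar" => AlgebraicClosure ℚ
local notation "GQ" => Qbar ≃ₐ[ℚ] Qbar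

/-- the group homomorphism to ring automorphisms -/
def fQ : GQ →* RingAut Qbar := MulSemiringAction.toRingAut GQ Qbar

lemma fQ_apply (σ : GQ) (x : Qbar) : (fQ σ : Qbar →+* Qbar) x = σ x := rfl

/-- functions fixed by an open subgroup -/
def smoothF : IntermediateField Qbar (LaurentSeries Qbar) where
  carrier := {u | ∃ L : IntermediateField ℚ Qbar, FiniteDimensional ℚ L ∧
    ∀ σ : GQ, (∀ x ∈ L, σ x = x) → coeffMap (fQ σ : Qbar →+* Qbar) u = u}
  mul_mem' := by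
    rintro u v ⟨L, hL, hu⟩ ⟨M, hM, hv⟩
    refine ⟨L ⊔ M, inferInstance, fun σ hσ => ?_⟩
    rw [map_mul, hu σ fun x hx => hσ x (le_sup_left (a := L) hx),
      hv σ fun x hx => hσ x (le_sup_right (a := L) hx)]
  add_mem' := by
    rintro u v ⟨L, hL, hu⟩ ⟨M, hM, hv⟩
    refine ⟨L ⊔ M, inferInstance, fun σ hσ => ?_⟩
    rw [map_add, hu σ fun x hx => hσ x (le_sup_left (a := L) hx),
      hv σ fun x hx => hσ x (le_sup_right (a := L) hx)]
  algebraMap_mem' c := by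
    refine ⟨ℚ⟮c⟯, IntermediateField.adjoin.finiteDimensional
      (AlgebraicClosure.isAlgebraic ℚ |>.isAlgebraic c).isIntegral, fun σ hσ => ?_⟩
    rw [← C_eq_algebraMap, coeffMap_C]
    congr 1
    exact hσ c (IntermediateField.mem_adjoin_simple_self ℚ c)
  inv_mem' := by
    rintro u ⟨L, hL, hu⟩
    exact ⟨L, hL, fun σ hσ => by rw [map_inv₀, hu σ hσ]⟩

lemma modularFunctionFieldFullC_le_smoothF : modularFunctionFieldFullC Qbar N ≤ smoothF := by
  apply IntermediateField.adjoin_le_iff.mpr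
  rintro _ ⟨d, hd, hdN, rfl⟩
  refine ⟨⊥, inferInstance, fun σ _ => ?_⟩
  rw [coeffMap_qExpand, coeffMap_jqModC]

lemma exists_finite_fixed (u : modularFunctionFieldFullC Qbar N) :
    ∃ L : IntermediateField ℚ Qbar, FiniteDimensional ℚ L ∧
      ∀ σ : GQ, (∀ x ∈ L, σ x = x) → actG N fQ σ u = u := by
  obtain ⟨L, hL, h⟩ := modularFunctionFieldFullC_le_smoothF u.2
  exact ⟨L, hL, fun σ hσ => Subtype.ext (h σ hσ)⟩

lemma exists_finite_fixed_fam {r : ℕ} (u : Fin r → modularFunctionFieldFullC Qbar N) :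
    ∃ L : IntermediateField ℚ Qbar, FiniteDimensional ℚ L ∧
      ∀ σ : GQ, (∀ x ∈ L, σ x = x) → ∀ j, actG N fQ σ (u j) = u j := by
  choose L hL h using fun j => exists_finite_fixed (u j)
  refine ⟨⨆ j, L j, IntermediateField.finiteDimensional_iSup_of_finite, fun σ hσ j => ?_⟩
  exact h j σ fun x hx => hσ x (le_iSup L j hx)

end Open

end Fermat.Agent.AnJac
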