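import Fermat.Agent.ModFun.Twist

/-!
The multiplicative Hecke correspondence on Laurent series.

`tprod ζ p u = ∏_{x mod p} u(ζ^x q)`, `heckeW ζ p u` is the series `w` with
`w(q^p) = ∏_x u(ζ^x q)`, and `heckeMul ζ p u = u(q^p) * w(q)`.
-/

set_option autoImplicit false
set_option linter.unusedSectionVars false

noncomputable section

namespace Fermat.Agent.AnJac

open ModularCurve Fermat.Agent.ModFun

section Ring

variable {A : Type*} [CommRing A] (p : ℕ) [NeZero p]

/-- the product of the twists -/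
def tprod (ζ : Aˣ) : LaurentSeries A →* LaurentSeries A where
  toFun u := ∏ x : ZMod p, twist (ζ ^ x.val) u
  map_one' := by simp
  map_mul' u v := by
    simp only [map_mul]
    exact Finset.prod_mul_distrib

variable {p}

lemma tprod_apply (ζ : Aˣ) (u : LaurentSeries A) :
    tprod p ζ u = ∏ x : ZMod p, twist (ζ ^ x.val) u := rfl

lemma pow_val_add {ζ : Aˣ} (hζ : ζ ^ p = 1) (x y : ZMod p) :
    ζ ^ (x + y).val = ζ ^ x.val * ζ ^ y.val := by
  rw [ZMod.val_add, ← pow_eq_pow_mod _ hζ, ← pow_add]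

lemma pow_val_mul {ζ : Aˣ} (hζ : ζ ^ p = 1) (x y : ZMod p) :
    ζ ^ (x * y).val = (ζ ^ x.val) ^ y.val := by
  rw [ZMod.val_mul, ← pow_eq_pow_mod _ hζ, ← pow_mul]

lemma twist_tprod {ζ : Aˣ} (hζ : ζ ^ p = 1) (y : ZMod p) (u : LaurentSeries A) :
    twist (ζ ^ y.val) (tprod p ζ u) = tprod p ζ u := by
  rw [tprod_apply, map_prod]
  simp only [twist_twist, ← pow_val_add hζ]
  exact Equiv.sum_comp (M := Additive (LaurentSeries A)) (Equiv.addLeft y)
    (fun x => Additive.ofMul (twist (ζ ^ x.val) u))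

lemma twist_tprod' {ζ : Aˣ} (hζ : ζ ^ p = 1) (u : LaurentSeries A) :
    twist ζ (tprod p ζ u) = tprod p ζ u := by
  have h := twist_tprod hζ (1 : ZMod p) u
  have h1 : ζ ^ (1 : ZMod p).val = ζ := by
    have := ZMod.val_natCast p 1
    rw [Nat.cast_one] at this
    rw [this, ← pow_eq_pow_mod _ hζ, pow_one]
  rwa [h1] at h

/-- independence of the choice of the root of unity -/
lemma tprod_pow {ζ : Aˣ} (hζ : ζ ^ p = 1) {a : ℕ} (ha : a.Coprime p) (u : LaurentSeries A) :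
    tprod p (ζ ^ a) u = tprod p ζ u := by
  rw [tprod_apply, tprod_apply]
  let e : (ZMod p)ˣ := ZMod.unitOfCoprime a ha
  have h1 : ∀ x : ZMod p, (ζ ^ a) ^ x.val = ζ ^ ((e : ZMod p) * x).val := by
    intro x
    rw [pow_val_mul hζ]
    congr 1
    rw [ZMod.coe_unitOfCoprime, ZMod.val_natCast, ← pow_eq_pow_mod _ hζ]
  simp only [h1]
  exact Equiv.prod_comp (Units.mulLeft e) (fun x => twist (ζ ^ x.val) u)

lemma coeffMap_tprod {B : Type*} [CommRing B] (f : A →+* B) (ζ : Aˣ) (u : LaurentSeries A) :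
    coeffMap f (tprod p ζ u) = tprod p (Units.map (f : A →* B) ζ) (coeffMap f u) := by
  rw [tprod_apply, tprod_apply, map_prod]
  refine Finset.prod_congr rfl fun x _ => ?_
  rw [coeffMap_twist, map_pow]

end Ring

section Field

variable {K : Type*} [Field K] {p : ℕ} [NeZero p]

lemma exists_heckeW {ζ : Kˣ} (hζ : IsPrimitiveRoot ζ p) (u : LaurentSeries K) :
    ∃ w : LaurentSeries K, qExpand K p w = tprod p ζ u :=
  exists_qExpand_of_twist ζ p hζ _ (twist_tprod' hζ.pow_eq_one u)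

open Classical in
/-- `w(q^p) = ∏_x u(ζ^x q)` -/
def heckeW (ζ : Kˣ) (p : ℕ) [NeZero p] (u : LaurentSeries K) : LaurentSeries K :=
  if h : ∃ w : LaurentSeries K, qExpand K p w = tprod p ζ u then h.choose else 0

lemma qExpand_heckeW {ζ : Kˣ} (hζ : IsPrimitiveRoot ζ p) (u : LaurentSeries K) :
    qExpand K p (heckeW ζ p u) = tprod p ζ u := by
  unfold heckeW
  rw [dif_pos (exists_heckeW hζ u)]
  exact (exists_heckeW hζ u).choose_spec

lemma heckeW_eq {ζ : Kˣ} (hζ : IsPrimitiveRoot ζ p) {u w : LaurentSeries K}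
    (h : qExpand K p w = tprod p ζ u) : heckeW ζ p u = w :=
  qExpand_injective (R := K) p ((qExpand_heckeW hζ u).trans h.symm)

lemma heckeW_mul {ζ : Kˣ} (hζ : IsPrimitiveRoot ζ p) (u v : LaurentSeries K) :
    heckeW ζ p (u * v) = heckeW ζ p u * heckeW ζ p v := by
  apply heckeW_eq hζ
  rw [map_mul, map_mul, qExpand_heckeW hζ, qExpand_heckeW hζ]

lemma heckeW_one {ζ : Kˣ} (hζ : IsPrimitiveRoot ζ p) : heckeW ζ p (1 : LaurentSeries K) = 1 := by
  apply heckeW_eq hζ
  rw [map_one, map_one]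

/-- `heckeW` as a homomorphism -/
def heckeWHom {ζ : Kˣ} (hζ : IsPrimitiveRoot ζ p) : LaurentSeries K →* LaurentSeries K where
  toFun := heckeW ζ p
  map_one' := heckeW_one hζ
  map_mul' := heckeW_mul hζ

lemma heckeW_congr {ζ ζ' : Kˣ} (hζ : IsPrimitiveRoot ζ p) (hζ' : IsPrimitiveRoot ζ' p)
    (u : LaurentSeries K) : heckeW ζ p u = heckeW ζ' p u := by
  symm
  apply heckeW_eq hζ'
  rw [qExpand_heckeW hζ]
  obtain ⟨a, _, ha, rfl⟩ := (hζ.isPrimitiveRoot_iff').mp hζ'
  exact (tprod_pow hζ.pow_eq_one ha u).symm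

/-- the multiplicative Hecke correspondence -/
def heckeMul (ζ : Kˣ) (p : ℕ) [NeZero p] (u : LaurentSeries K) : LaurentSeries K :=
  qExpand K p u * heckeW ζ p u

/-- `heckeMul` as a homomorphism -/
def heckeMulHom {ζ : Kˣ} (hζ : IsPrimitiveRoot ζ p) : LaurentSeries K →* LaurentSeries K where
  toFun := heckeMul ζ p
  map_one' := by rw [heckeMul, map_one, heckeW_one hζ, mul_one]
  map_mul' u v := by
    rw [heckeMul, heckeMul, heckeMul, map_mul, heckeW_mul hζ]
    ring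

lemma heckeMulHom_apply {ζ : Kˣ} (hζ : IsPrimitiveRoot ζ p) (u : LaurentSeries K) :
    heckeMulHom hζ u = heckeMul ζ p u := rfl

lemma heckeWHom_apply {ζ : Kˣ} (hζ : IsPrimitiveRoot ζ p) (u : LaurentSeries K) :
    heckeWHom hζ u = heckeW ζ p u := rfl

lemma heckeMul_congr {ζ ζ' : Kˣ} (hζ : IsPrimitiveRoot ζ p) (hζ' : IsPrimitiveRoot ζ' p)
    (u : LaurentSeries K) : heckeMul ζ p u = heckeMul ζ' p u := by
  rw [heckeMul, heckeMul, heckeW_congr hζ hζ']

section Map

variable {L : Type*} [Field L] (f : K →+* L)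

lemma isPrimitiveRoot_map {ζ : Kˣ} (hζ : IsPrimitiveRoot ζ p) :
    IsPrimitiveRoot (Units.map (f : K →* L) ζ) p :=
  hζ.map_of_injective (Units.map_injective f.injective)

lemma coeffMap_heckeW {ζ : Kˣ} (hζ : IsPrimitiveRoot ζ p) (u : LaurentSeries K) :
    coeffMap f (heckeW ζ p u) = heckeW (Units.map (f : K →* L) ζ) p (coeffMap f u) := by
  symm
  apply heckeW_eq (isPrimitiveRoot_map f hζ)
  rw [← coeffMap_tprod, ← qExpand_heckeW hζ, coeffMap_qExpand]

lemma coeffMap_heckeMul {ζ : Kˣ} (hζ : IsPrimitiveRoot ζ p) (u : LaurentSeries K) :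
    coeffMap f (heckeMul ζ p u) = heckeMul (Units.map (f : K →* L) ζ) p (coeffMap f u) := by
  rw [heckeMul, heckeMul, map_mul, coeffMap_heckeW f hζ, coeffMap_qExpand]

/-- `heckeMul` commutes with all coefficient maps, for any choices of roots of unity -/
lemma coeffMap_heckeMul' {ζ : Kˣ} {ζ' : Lˣ} (hζ : IsPrimitiveRoot ζ p) (hζ' : IsPrimitiveRoot ζ' p)
    (u : LaurentSeries K) : coeffMap f (heckeMul ζ p u) = heckeMul ζ' p (coeffMap f u) := by
  rw [coeffMap_heckeMul f hζ, heckeMul_congr (isPrimitiveRoot_map f hζ) hζ']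

lemma coeffMap_heckeW' {ζ : Kˣ} {ζ' : Lˣ} (hζ : IsPrimitiveRoot ζ p) (hζ' : IsPrimitiveRoot ζ' p)
    (u : LaurentSeries K) : coeffMap f (heckeW ζ p u) = heckeW ζ' p (coeffMap f u) := by
  rw [coeffMap_heckeW f hζ, heckeW_congr (isPrimitiveRoot_map f hζ) hζ']

end Map

end Field

end Fermat.Agent.AnJac
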