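import Fermat.Agent.AnJac.HeckeHom
import Fermat.Agent.AnJac.HeckeMul

/-!
`q`-expansions of norms along Hecke families.
-/

set_option autoImplicit false
set_option linter.unusedSectionVars false

noncomputable section

namespace Fermat.Agent.AnJac

open UpperHalfPlane MatrixGroups CongruenceSubgroup ModularForm Matrix.SpecialLinearGroup
open scoped Manifold
open Fermat.Agent.ModFun ModularCurve
open P2MW.S_ModularForm_heckeT_slash_eq_self_of_mem_Gamma0.ModularForm.HeckeSlashInvariance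
open Fermat.Agent.GenusX0 (zetaU zetaU_prim)

local notation "𝕢" => Function.Periodic.qParam

variable {p : ℕ} [NeZero p]

/-- product over the upper triangular representatives -/
def Wfun (p : ℕ) [NeZero p] (G : ℍ → ℂ) : ℍ → ℂ := fun τ => ∏ x : ZMod p, G (heckeMatrix p x.val • τ)

lemma convAt_of_qExpand {F : LaurentSeries ℂ} {z : ℂ} (h : ConvAt (qExpand ℂ p F) z) :
    ConvAt F (z ^ p) := by
  unfold ConvAt at h ⊢
  have hinj : Function.Injective fun n : ℤ => (p : ℤ) * n :=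
    mul_right_injective₀ (by exact_mod_cast NeZero.ne p)
  rw [← hinj.summable_iff] at h
  · refine h.congr fun n => ?_
    simp only [Function.comp_apply, qExpand_coeff_mul, zpow_mul, zpow_natCast]
  · intro n hn
    rw [qExpand_coeff_of_not_dvd p F, zero_mul, norm_zero]
    rintro ⟨m, rfl⟩
    exact hn ⟨m, rfl⟩

lemma mem_convLaurent_of_qExpand {F : LaurentSeries ℂ} (h : qExpand ℂ p F ∈ convLaurent) :
    F ∈ convLaurent := by
  intro z hz
  obtain ⟨w, rfl⟩ := IsAlgClosed.exists_pow_nat_eq z (NeZero.pos p)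
  apply convAt_of_qExpand
  apply h
  unfold PDisc at hz ⊢
  rw [norm_pow] at hz
  refine ⟨?_, ?_⟩
  · by_contra hcon
    have : ‖w‖ = 0 := le_antisymm (not_lt.mp hcon) (norm_nonneg _)
    rw [this, zero_pow (NeZero.ne p)] at hz
    exact lt_irrefl _ hz.1
  · by_contra hcon
    push Not at hcon
    have := one_le_pow₀ hcon (n := p)
    linarith [hz.2]

lemma norm_zetaU_pow (m : ℕ) : ‖((zetaU p ^ m : ℂˣ) : ℂ)‖ = 1 := by
  have h1 : ((zetaU p ^ m : ℂˣ) : ℂ) ^ p = 1 := by
    rw [← Units.val_pow_eq_pow_val, ← pow_mul, mul_comm, pow_mul, (zetaU_prim p).pow_eq_one,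
      one_pow, Units.val_one]
  exact Complex.norm_eq_one_of_pow_eq_one h1 (NeZero.ne p)

lemma tprod_mem {u : LaurentSeries ℂ} (hu : u ∈ convLaurent) : tprod p (zetaU p) u ∈ convLaurent := by
  rw [tprod_apply]
  exact prod_mem fun x _ => twist_mem_convLaurent _ (norm_zetaU_pow (p := p) _) hu

lemma heckeW_mem {u : LaurentSeries ℂ} (hu : u ∈ convLaurent) :
    heckeW (zetaU p) p u ∈ convLaurent := by
  apply mem_convLaurent_of_qExpand (p := p)
  rw [qExpand_heckeW (zetaU_prim p)]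
  exact tprod_mem hu

lemma ef_prod {κ : Type*} (s : Finset κ) {F : κ → LaurentSeries ℂ} (hF : ∀ i ∈ s, F i ∈ convLaurent) :
    ef (∏ i ∈ s, F i) = ∏ i ∈ s, ef (F i) := by
  classical
  induction s using Finset.induction_on with
  | empty => rw [Finset.prod_empty, Finset.prod_empty, ef_one]
  | insert a s ha ih =>
    rw [Finset.prod_insert ha, Finset.prod_insert ha,
      ef_mul (hF a (Finset.mem_insert_self _ _))
        (prod_mem fun i hi => hF i (Finset.mem_insert_of_mem hi)),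
      ih fun i hi => hF i (Finset.mem_insert_of_mem hi)]

/-- the value at `pτ` -/
lemma ef_heckeW {u : LaurentSeries ℂ} (hu : u ∈ convLaurent) :
    ef (heckeW (zetaU p) p u) = Wfun p (ef u) := by
  have hp : p ≠ 0 := NeZero.ne p
  have hpC : (p : ℂ) ≠ 0 := by exact_mod_cast hp
  have key : ∀ τ : ℍ, ef (heckeW (zetaU p) p u) (heckeDiagMatrix p • τ) =
      Wfun p (ef u) (heckeDiagMatrix p • τ) := by
    intro τ
    have hq : (𝕢 1 τ) ^ p = 𝕢 1 (heckeDiagMatrix p • τ : ℍ) := by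
      rw [coe_heckeDiagMatrix_smul hp]
      simp only [Function.Periodic.qParam]
      rw [← Complex.exp_nat_mul]
      congr 1
      ring
    have h1 : ef (heckeW (zetaU p) p u) (heckeDiagMatrix p • τ) =
        ef (qExpand ℂ p (heckeW (zetaU p) p u)) τ := by
      rw [ef, ef, evf_qExpand, hq]
    rw [h1, qExpand_heckeW (zetaU_prim p), tprod_apply,
      ef_prod _ fun x _ => twist_mem_convLaurent _ (norm_zetaU_pow (p := p) _) hu,
      Finset.prod_apply]
    unfold Wfun
    refine Finset.prod_congr rfl fun x _ => ?_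
    rw [ef, evf_twist, ef]
    congr 1
    rw [coe_heckeMatrix_smul hp, coe_heckeDiagMatrix_smul hp, zetaU, Units.val_pow_eq_pow_val,
      Units.val_mk0]
    simp only [Function.Periodic.qParam]
    rw [← Complex.exp_nat_mul, ← Complex.exp_add]
    congr 1
    push_cast
    field_simp
    ring
  ext τ
  have h2 := key ((heckeDiagMatrix p)⁻¹ • τ)
  rwa [smul_inv_smul] at h2

lemma isP_Wfun {G : ℍ → ℂ} (hG : IsP G) :
    IsP (Wfun p G) ∧ lser (Wfun p G) = heckeW (zetaU p) p (lser G) := by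
  have h1 := ef_heckeW (p := p) hG.lser_mem
  rw [hG.ef_lser] at h1
  rw [← h1]
  exact ⟨isP_ef (heckeW_mem hG.lser_mem), lser_ef (heckeW_mem hG.lser_mem)⟩

section Fam

variable {N : ℕ} [NeZero N]

lemma Nm_hfU (hpN : p ∣ N) (G : ℍ → ℂ) : (hfU N p hpN).Nm G = Wfun p G := by
  ext τ
  rw [HF.Nm_apply]
  rfl

lemma Nm_hfT (q : ℕ) [hq : Fact q.Prime] (hqN : ¬ q ∣ N) (G : ℍ → ℂ) :
    haveI : NeZero q := ⟨hq.out.ne_zero⟩
    (hfT N q hqN).Nm G = (fun τ => G (heckeDiagMatrix q • τ)) * Wfun q G := by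
  ext τ
  rw [HF.Nm_apply, Pi.mul_apply]
  exact Fintype.prod_option (fun x : OnePoint (ZMod q) => G (heckeRep q x • τ))

/-- `U_p` on functions with characters -/
theorem IsChar.heckeU {n : ℕ} {u : LaurentSeries ℂ} {χ : Gamma0 N →* ℂˣ} (hu : IsChar N n u χ)
    (hpN : p ∣ N) (hnh : IsNH ((hfU N p hpN).Tm χ)) {ζ : ℂˣ} (hζ : IsPrimitiveRoot ζ p) :
    IsChar N n (heckeW ζ p u) ((hfU N p hpN).Tm χ) := by
  rw [heckeW_congr hζ (zetaU_prim p)]
  refine IsChar.hecke (hfU N p hpN) hu hnh (heckeWHom (zetaU_prim p)) fun G hG _ => ?_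
  rw [Nm_hfU, (isP_Wfun hG).2]
  rfl

/-- `T_q` on functions with characters -/
theorem IsChar.heckeT {n : ℕ} {u : LaurentSeries ℂ} {χ : Gamma0 N →* ℂˣ} (hu : IsChar N n u χ)
    (q : ℕ) [hq : Fact q.Prime] [NeZero q] (hqN : ¬ q ∣ N) (hnh : IsNH ((hfT N q hqN).Tm χ))
    {ζ : ℂˣ} (hζ : IsPrimitiveRoot ζ q) :
    IsChar N n (heckeMul ζ q u) ((hfT N q hqN).Tm χ) := by
  rw [heckeMul_congr hζ (zetaU_prim q)]
  refine IsChar.hecke (hfT N q hqN) hu hnh (heckeMulHom (zetaU_prim q)) fun G hG _ => ?_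
  rw [Nm_hfT, lser_mul (lser_diag hG).1 (isP_Wfun hG).1, (lser_diag hG).2, (isP_Wfun hG).2]
  rfl

end Fam

end Fermat.Agent.AnJac
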