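import Fermat.Agent.AnJac.CharAlg
import Fermat.Agent.SL2Pres.Lift
import Fermat.Agent.EichlerShimura.HeckeSign

/-!
Hecke operators on homomorphisms.
-/

set_option autoImplicit false
set_option linter.unusedSectionVars false

noncomputable section

namespace Fermat.Agent.AnJac

open UpperHalfPlane MatrixGroups CongruenceSubgroup ModularForm Matrix.SpecialLinearGroup
open scoped Manifold

/-- the image of an integral matrix -/
abbrev gl (g : SL(2,ℤ)) : GL (Fin 2) ℝ := (g : GL (Fin 2) ℝ)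

lemma gl_mul (g h : SL(2,ℤ)) : gl (g * h) = gl g * gl h :=
  map_mul (Matrix.SpecialLinearGroup.mapGL ℝ) g h

lemma gl_inj {g h : SL(2,ℤ)} (e : gl g = gl h) : g = h := by
  have h1 := congrArg (fun A : GL (Fin 2) ℝ => (A : Matrix (Fin 2) (Fin 2) ℝ)) e
  ext i j
  have h2 := congrFun (congrFun h1 i) j
  simpa using h2

/-- A Hecke family: representatives of a double coset of `Γ`. -/
structure HF (Γ : Subgroup SL(2,ℤ)) (ι : Type*) where
  A : ι → GL (Fin 2) ℝ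
  pos : ∀ i, 0 < (A i).det.val
  int : ∀ i, IsInt (A i)
  tr : ∀ (γ : Γ) (i : ι), ∃ (g : Γ) (j : ι), A i * gl γ = gl g * A j
  uniq : ∀ (i j : ι) (g : SL(2,ℤ)), A i = gl g * A j → i = j

namespace HF

variable {Γ : Subgroup SL(2,ℤ)} {ι : Type*} (F : HF Γ ι)

/-- the cocycle -/
def g (γ : Γ) (i : ι) : Γ := (F.tr γ i).choose

/-- the permutation -/
def s (γ : Γ) (i : ι) : ι := (F.tr γ i).choose_spec.choose

lemma spec (γ : Γ) (i : ι) : F.A i * gl γ = gl (F.g γ i) * F.A (F.s γ i) :=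
  (F.tr γ i).choose_spec.choose_spec

lemma eq_of {γ : Γ} {i j : ι} {h : Γ} (e : F.A i * gl γ = gl h * F.A j) :
    F.s γ i = j ∧ F.g γ i = h := by
  have h1 := (F.spec γ i).symm.trans e
  have h2 : F.A (F.s γ i) = gl ((F.g γ i : SL(2,ℤ))⁻¹ * h) * F.A j := by
    rw [gl_mul, mul_assoc, ← h1, ← mul_assoc, ← gl_mul, inv_mul_cancel]
    simp [gl]
  have h3 := F.uniq _ _ _ h2
  refine ⟨h3, ?_⟩
  rw [h3] at h1
  exact Subtype.ext (gl_inj (mul_right_cancel h1))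

lemma mul_spec (γ γ' : Γ) (i : ι) :
    F.s (γ * γ') i = F.s γ' (F.s γ i) ∧ F.g (γ * γ') i = F.g γ i * F.g γ' (F.s γ i) := by
  apply F.eq_of
  rw [Subgroup.coe_mul, gl_mul, ← mul_assoc, F.spec, mul_assoc, F.spec, ← mul_assoc, ← gl_mul]
  rfl

lemma s_mul (γ γ' : Γ) (i : ι) : F.s (γ * γ') i = F.s γ' (F.s γ i) := (F.mul_spec γ γ' i).1

lemma g_mul (γ γ' : Γ) (i : ι) : F.g (γ * γ') i = F.g γ i * F.g γ' (F.s γ i) :=
  (F.mul_spec γ γ' i).2

lemma one_spec (i : ι) : F.s 1 i = i ∧ F.g 1 i = 1 := by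
  apply F.eq_of
  simp [gl]

/-- the permutation as an equivalence -/
def sE (γ : Γ) : ι ≃ ι where
  toFun := F.s γ
  invFun := F.s γ⁻¹
  left_inv i := by rw [← F.s_mul, mul_inv_cancel, (F.one_spec i).1]
  right_inv i := by rw [← F.s_mul, inv_mul_cancel, (F.one_spec i).1]

variable [Fintype ι]

/-- Hecke operator on homomorphisms -/
def T {M : Type*} [AddCommGroup M] : (Additive Γ →+ M) →+ (Additive Γ →+ M) where
  toFun φ :=
    { toFun := fun x => ∑ i, φ (Additive.ofMul (F.g (Additive.toMul x) i))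
      map_zero' := by
        refine Finset.sum_eq_zero fun i _ => ?_
        rw [toMul_zero, (F.one_spec i).2, ofMul_one, map_zero]
      map_add' := by
        intro x y
        rw [toMul_add]
        simp only [F.g_mul, ofMul_mul, map_add]
        rw [Finset.sum_add_distrib]
        congr 1
        exact Equiv.sum_comp (F.sE (Additive.toMul x))
          (fun i => φ (Additive.ofMul (F.g (Additive.toMul y) i))) }
  map_zero' := by
    ext x
    simp
  map_add' φ ψ := by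
    ext x
    change ∑ i, (φ + ψ) _ = ∑ i, φ _ + ∑ i, ψ _
    rw [← Finset.sum_add_distrib]
    rfl

lemma T_apply {M : Type*} [AddCommGroup M] (φ : Additive Γ →+ M) (γ : Γ) :
    F.T φ (Additive.ofMul γ) = ∑ i, φ (Additive.ofMul (F.g γ i)) := rfl

lemma T_comp {M M' : Type*} [AddCommGroup M] [AddCommGroup M'] (π : M →+ M')
    (φ : Additive Γ →+ M) : F.T (π.comp φ) = π.comp (F.T φ) := by
  ext γ
  change ∑ i, π (φ _) = π (∑ i, φ _)
  rw [map_sum]

/-- multiplicative version -/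
def Tm {M : Type*} [CommGroup M] (χ : Γ →* M) : Γ →* M where
  toFun γ := ∏ i, χ (F.g γ i)
  map_one' := Finset.prod_eq_one fun i _ => by rw [(F.one_spec i).2, map_one]
  map_mul' γ γ' := by
    simp only [F.g_mul, map_mul]
    rw [Finset.prod_mul_distrib]
    congr 1
    exact Equiv.prod_comp (F.sE γ) (fun i => χ (F.g γ' i))

lemma Tm_apply {M : Type*} [CommGroup M] (χ : Γ →* M) (γ : Γ) :
    F.Tm χ γ = ∏ i, χ (F.g γ i) := rfl

end HF

/-! ### traces -/

lemma trace_gl_conj {A : GL (Fin 2) ℝ} {γ h : SL(2,ℤ)} (e : A * gl γ = gl h * A) :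
    h 0 0 + h 1 1 = γ 0 0 + γ 1 1 := by
  have h1 : gl h = A * gl γ * A⁻¹ := by rw [e, mul_inv_cancel_right]
  have h2 := congrArg (fun B : GL (Fin 2) ℝ => Matrix.trace (B : Matrix (Fin 2) (Fin 2) ℝ)) h1
  simp only [Units.val_mul] at h2
  rw [Matrix.trace_mul_comm, ← mul_assoc] at h2
  have h3 : ((A⁻¹ : GL (Fin 2) ℝ) : Matrix (Fin 2) (Fin 2) ℝ) * (A : Matrix (Fin 2) (Fin 2) ℝ) = 1 := by
    rw [← Units.val_mul, inv_mul_cancel, Units.val_one]
  rw [h3, one_mul, Matrix.trace_fin_two, Matrix.trace_fin_two] at h2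
  have h4 : ((h 0 0 + h 1 1 : ℤ) : ℝ) = ((γ 0 0 + γ 1 1 : ℤ) : ℝ) := by
    push_cast
    simpa using h2
  exact_mod_cast h4

lemma trace_sq_le_iff (γ : SL(2,ℤ)) :
    (γ : Matrix (Fin 2) (Fin 2) ℤ).trace ^ 2 ≤ 4 ↔ |γ 0 0 + γ 1 1| ≤ 2 := by
  rw [Matrix.trace_fin_two]
  constructor
  · intro h
    exact abs_le_of_sq_le_sq (by linarith) (by norm_num)
  · intro h
    have := sq_le_sq' (abs_le.mp h).1 (abs_le.mp h).2
    linarith

lemma abs_trace_pow_le {γ : SL(2,ℤ)} (h : |γ 0 0 + γ 1 1| ≤ 2) (m : ℕ) :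
    |(γ ^ m) 0 0 + (γ ^ m) 1 1| ≤ 2 := by
  by_cases htr : (γ : Matrix (Fin 2) (Fin 2) ℤ).trace ^ 2 = 4
  · obtain ⟨δ, hδ⟩ := EichlerShimura.exists_fixed_vector γ htr
    have h1 : (δ⁻¹ * γ * δ) ^ m ∈ SL2Pres.PP := pow_mem (SL2Pres.mem_PP.mpr hδ) m
    have h2 := SL2Pres.trace_of_mem_PP h1
    have h3 : (δ⁻¹ * γ * δ) ^ m = δ⁻¹ * γ ^ m * δ := by
      have := conj_pow (i := m) (a := δ⁻¹) (b := γ)
      rwa [inv_inv] at this
    rw [h3] at h2
    have h4 := trace_conj δ⁻¹ (γ ^ m)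
    rw [inv_inv] at h4
    rw [← h4, ← trace_sq_le_iff]
    exact h2.le
  · obtain ⟨z, hz⟩ := trace_sq_of_abs_le h htr
    have hm : γ ^ m • z = z := by
      induction m with
      | zero => simp
      | succ m ih => rw [pow_succ, mul_smul, hz, ih]
    exact abs_trace_le_of_fix hm

/-! ### homomorphisms killing non-hyperbolic elements -/

/-- homomorphisms killing all elements with trace of absolute value at most `2`. -/
def NHA (Γ : Subgroup SL(2,ℤ)) (M : Type*) [AddCommGroup M] : AddSubgroup (Additive Γ →+ M) where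
  carrier := {φ | ∀ γ : Γ, |(γ : SL(2,ℤ)) 0 0 + (γ : SL(2,ℤ)) 1 1| ≤ 2 → φ (Additive.ofMul γ) = 0}
  zero_mem' := fun _ _ => rfl
  add_mem' := fun {φ ψ} hφ hψ γ hγ => by rw [AddMonoidHom.add_apply, hφ γ hγ, hψ γ hγ, add_zero]
  neg_mem' := fun {φ} hφ γ hγ => by rw [AddMonoidHom.neg_apply, hφ γ hγ, neg_zero]

lemma mem_NHA {Γ : Subgroup SL(2,ℤ)} {M : Type*} [AddCommGroup M] {φ : Additive Γ →+ M} :
    φ ∈ NHA Γ M ↔ ∀ γ : Γ, |(γ : SL(2,ℤ)) 0 0 + (γ : SL(2,ℤ)) 1 1| ≤ 2 →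
      φ (Additive.ofMul γ) = 0 := Iff.rfl

lemma HF.T_mem {Γ : Subgroup SL(2,ℤ)} {ι : Type*} [Fintype ι] (F : HF Γ ι) {M : Type*}
    [AddCommGroup M] [IsAddTorsionFree M] {φ : Additive Γ →+ M} (hφ : φ ∈ NHA Γ M) :
    F.T φ ∈ NHA Γ M := by
  intro γ hγ
  -- `γ ^ m` acts trivially on the index set
  have hs : ∀ (m : ℕ) (i : ι), F.s (γ ^ m) i = ((F.sE γ) ^ m) i := by
    intro m
    induction m with
    | zero => intro i; rw [pow_zero, (F.one_spec i).1, pow_zero]; rfl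
    | succ m ih =>
      intro i
      rw [pow_succ, F.s_mul, ih, pow_succ']
      rfl
  set m := orderOf (F.sE γ : Equiv.Perm ι) with hm
  have hm0 : m ≠ 0 := (orderOf_pos _).ne'
  have hs' : ∀ i, F.s (γ ^ m) i = i := by
    intro i
    rw [hs, pow_orderOf_eq_one]
    rfl
  have h1 : F.T φ (Additive.ofMul (γ ^ m)) = 0 := by
    rw [F.T_apply]
    refine Finset.sum_eq_zero fun i _ => ?_
    apply hφ
    have h2 := F.spec (γ ^ m) i
    rw [hs'] at h2
    rw [trace_gl_conj h2]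
    exact abs_trace_pow_le hγ m
  rw [ofMul_pow, map_nsmul] at h1
  exact (nsmul_eq_zero_iff_right hm0).mp h1

/-! ### the families `T_p` and `U_p` -/

section Fam

open P2MW.S_ModularForm_heckeT_slash_eq_self_of_mem_Gamma0.ModularForm.HeckeSlashInvariance

lemma heckeMatrix_eq {p : ℕ} (hp : p ≠ 0) {a b : ℕ} {g : SL(2,ℤ)}
    (e : heckeMatrix p a = gl g * heckeMatrix p b) : (p : ℤ) ∣ (a : ℤ) - b := by
  have h1 := congrArg (fun B : GL (Fin 2) ℝ => (B : Matrix (Fin 2) (Fin 2) ℝ)) e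
  simp only [Units.val_mul, val_heckeMatrix hp] at h1
  have e00 := congrFun (congrFun h1 0) 0
  have e01 := congrFun (congrFun h1 0) 1
  simp [Matrix.mul_apply, Fin.sum_univ_two] at e00 e01
  rw [← e00, one_mul] at e01
  refine ⟨g 0 1, ?_⟩
  have : ((a : ℤ) : ℝ) - (b : ℤ) = (p : ℤ) * (g 0 1 : ℤ) := by
    push_cast; linarith
  exact_mod_cast this

lemma diag_ne_heckeMatrix {p : ℕ} (hp : 1 < p) {b : ℕ} {g : SL(2,ℤ)} :
    heckeDiagMatrix p ≠ gl g * heckeMatrix p b := by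
  intro e
  have h1 := congrArg (fun B : GL (Fin 2) ℝ => (B : Matrix (Fin 2) (Fin 2) ℝ)) e
  simp only [Units.val_mul, val_heckeMatrix (by omega : p ≠ 0),
    val_heckeDiagMatrix (by omega : p ≠ 0)] at h1
  have e10 := congrFun (congrFun h1 1) 0
  have e11 := congrFun (congrFun h1 1) 1
  simp [Matrix.mul_apply, Fin.sum_univ_two] at e10 e11
  rw [← e10, zero_mul, zero_add] at e11
  have h3 : (1 : ℤ) = g 1 1 * p := by exact_mod_cast e11
  have h4 : (p : ℤ) ∣ 1 := ⟨g 1 1, by linarith⟩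
  have := Int.le_of_dvd one_pos h4
  omega

lemma heckeMatrix_ne_diag {p : ℕ} (hp : 1 < p) {b : ℕ} {g : SL(2,ℤ)} :
    heckeMatrix p b ≠ gl g * heckeDiagMatrix p := by
  intro e
  have h1 := congrArg (fun B : GL (Fin 2) ℝ => (B : Matrix (Fin 2) (Fin 2) ℝ)) e
  simp only [Units.val_mul, val_heckeMatrix (by omega : p ≠ 0),
    val_heckeDiagMatrix (by omega : p ≠ 0)] at h1
  have e00 := congrFun (congrFun h1 0) 0
  simp [Matrix.mul_apply, Fin.sum_univ_two] at e00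
  have h3 : (1 : ℤ) = g 0 0 * p := by exact_mod_cast e00
  have h4 : (p : ℤ) ∣ 1 := ⟨g 0 0, by linarith⟩
  have := Int.le_of_dvd one_pos h4
  omega

lemma zmod_eq_of_dvd {p : ℕ} [NeZero p] {x y : ZMod p} (h : (p : ℤ) ∣ (x.val : ℤ) - y.val) :
    x = y := by
  have h1 := (ZMod.intCast_zmod_eq_zero_iff_dvd _ _).mpr h
  push_cast at h1
  rw [ZMod.natCast_zmod_val, ZMod.natCast_zmod_val, sub_eq_zero] at h1
  exact h1

variable (N : ℕ)

/-- the Hecke family of `T_p`, `p ∤ N`. -/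
def hfT (p : ℕ) [hp : Fact p.Prime] (hpN : ¬ p ∣ N) : HF (Gamma0 N) (OnePoint (ZMod p)) where
  A := heckeRep p
  pos x := by
    induction x using OnePoint.rec with
    | infty => exact det_heckeDiagMatrix_pos p
    | coe x => exact det_heckeMatrix_pos p _
  int x := by
    induction x using OnePoint.rec with
    | infty => exact isInt_heckeDiag hp.out.ne_zero
    | coe x => exact isInt_hecke hp.out.ne_zero _
  tr γ x := by
    have hN : (N : ℤ) ∣ (γ : SL(2,ℤ)) 1 0 :=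
      (ZMod.intCast_zmod_eq_zero_iff_dvd _ _).mp (Gamma0_mem.mp γ.2)
    obtain ⟨g, hg, h⟩ := heckeRep_mul (p := p) hpN (γ : SL(2,ℤ)) hN x
    exact ⟨⟨g, Gamma0_mem.mpr ((ZMod.intCast_zmod_eq_zero_iff_dvd _ _).mpr hg)⟩, _, h⟩
  uniq x y g h := by
    have : NeZero p := ⟨hp.out.ne_zero⟩
    induction x using OnePoint.rec with
    | infty =>
      induction y using OnePoint.rec with
      | infty => rfl
      | coe y => exact absurd h (diag_ne_heckeMatrix hp.out.one_lt)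
    | coe x =>
      induction y using OnePoint.rec with
      | infty => exact absurd h (heckeMatrix_ne_diag hp.out.one_lt)
      | coe y => rw [zmod_eq_of_dvd (heckeMatrix_eq hp.out.ne_zero h)]

/-- the Hecke family of `U_p`, `p ∣ N`. -/
def hfU (p : ℕ) [hp : NeZero p] (hpN : p ∣ N) : HF (Gamma0 N) (ZMod p) where
  A x := heckeMatrix p x.val
  pos x := det_heckeMatrix_pos p _
  int x := isInt_hecke hp.out _
  tr γ x := by
    have hN : (N : ℤ) ∣ (γ : SL(2,ℤ)) 1 0 :=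
      (ZMod.intCast_zmod_eq_zero_iff_dvd _ _).mp (Gamma0_mem.mp γ.2)
    have hc : (p : ℤ) ∣ (γ : SL(2, ℤ)) 1 0 := (Int.natCast_dvd_natCast.mpr hpN).trans hN
    obtain ⟨g, hg, h⟩ := heckeMatrix_mul_of_dvd (p := p) (γ : SL(2, ℤ)) hc x
    exact ⟨⟨g, by
      rw [Gamma0_mem, hg]
      push_cast
      rw [Gamma0_mem.mp γ.2, mul_zero]⟩, _, h⟩
  uniq x y g h := zmod_eq_of_dvd (heckeMatrix_eq hp.out h)

end Fam

/-! ### the action on functions -/

section Fun

variable {N : ℕ} [NeZero N] {ι : Type*} [Fintype ι] (F : HF (Gamma0 N) ι)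

/-- norm along a Hecke family -/
def HF.Nm (G : ℍ → ℂ) : ℍ → ℂ := ∏ i, fun τ => G (F.A i • τ)

lemma HF.Nm_apply (G : ℍ → ℂ) (τ : ℍ) : F.Nm G τ = ∏ i, G (F.A i • τ) := by
  rw [HF.Nm, Finset.prod_apply]

lemma mdiff_prod {κ : Type*} (s : Finset κ) {f : κ → ℍ → ℂ} (hf : ∀ i ∈ s, MDiff (f i)) :
    MDiff (∏ i ∈ s, f i) := by
  classical
  induction s using Finset.induction_on with
  | empty => exact mdifferentiable_const
  | insert a s ha ih =>
    rw [Finset.prod_insert ha]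
    exact (hf a (Finset.mem_insert_self _ _)).mul (ih fun i hi => hf i (Finset.mem_insert_of_mem hi))

theorem HF.isX_Nm {χ : Gamma0 N →* ℂˣ} {G : ℍ → ℂ} (hG : IsX N χ G) (hnh : IsNH (F.Tm χ)) :
    IsX N (F.Tm χ) (F.Nm G) := by
  refine IsX.of hnh ?_ ?_ ?_
  · exact mdiff_prod _ fun i _ => mdiff_comp_GL hG.isA.mdiff (F.pos i)
  · intro γ τ
    rw [F.Nm_apply, F.Nm_apply, HF.Tm_apply]
    have h1 : ∀ i, G (F.A i • ((γ : SL(2,ℤ)) • τ)) =
        (χ (F.g γ i) : ℂ) * G (F.A (F.s γ i) • τ) := by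
      intro i
      rw [← hG.inv]
      congr 1
      rw [SL_smul_eq, SL_smul_eq, ← mul_smul, ← mul_smul]
      exact congrArg (fun B : GL (Fin 2) ℝ => B • τ) (F.spec γ i)
    simp only [h1]
    rw [Finset.prod_mul_distrib, Units.coe_prod]
    congr 1
    exact Equiv.prod_comp (F.sE γ) (fun i => G (F.A i • τ))
  · exact MGA.prod _ fun i _ => MGA.comp_int hG.isA.mga (F.pos i) (F.int i)

lemma HF.Nm_mul (G H : ℍ → ℂ) : F.Nm (G * H) = F.Nm G * F.Nm H := by
  ext τ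
  rw [Pi.mul_apply, F.Nm_apply, F.Nm_apply, F.Nm_apply, ← Finset.prod_mul_distrib]
  rfl

lemma comp_GL_ne_zero {G : ℍ → ℂ} (hG : G ≠ 0) (A : GL (Fin 2) ℝ) :
    (fun τ : ℍ => G (A • τ)) ≠ 0 := by
  intro h
  apply hG
  ext τ
  have := congrFun h (A⁻¹ • τ)
  simpa using this

lemma HF.Nm_ne_zero {G : ℍ → ℂ} (hG : MDiff G) (h0 : G ≠ 0) : F.Nm G ≠ 0 := by
  intro h
  rw [HF.Nm, prod_eq_zero_iff (fun i _ => mdiff_comp_GL hG (F.pos i))] at h
  obtain ⟨i, _, hi⟩ := h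
  exact comp_GL_ne_zero h0 _ hi

lemma HF.Tm_one {M : Type*} [CommGroup M] : F.Tm (1 : Gamma0 N →* M) = 1 := by
  ext γ
  rw [HF.Tm_apply]
  simp

/-- **Hecke operators and characters** -/
theorem IsChar.hecke {n : ℕ} {u : LaurentSeries ℂ} {χ : Gamma0 N →* ℂˣ} (hu : IsChar N n u χ)
    (hnh : IsNH (F.Tm χ)) (Hm : LaurentSeries ℂ →* LaurentSeries ℂ)
    (hHm : ∀ G : ℍ → ℂ, IsP G → IsP (F.Nm G) → lser (F.Nm G) = Hm (lser G)) :
    IsChar N n (Hm u) (F.Tm χ) := by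
  obtain ⟨G, b, hG, hb, hG0, hb0, he⟩ := hu.ex
  refine ⟨hnh, ?_, F.Nm G, F.Nm b, F.isX_Nm hG hnh, ?_, F.Nm_ne_zero hG.isA.mdiff hG0,
    F.Nm_ne_zero hb.isA.mdiff hb0, ?_⟩
  · ext γ
    rw [MonoidHom.pow_apply, HF.Tm_apply, ← Finset.prod_pow, MonoidHom.one_apply]
    rw [Finset.prod_eq_one]
    intro i _
    have := DFunLike.congr_fun hu.pw (F.g γ i)
    rwa [MonoidHom.pow_apply] at this
  · have := F.isX_Nm hb (by rw [F.Tm_one]; exact isNH_one)
    rwa [F.Tm_one] at this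
  · have h1 := F.isX_Nm hb (by rw [F.Tm_one]; exact isNH_one)
    rw [F.Tm_one] at h1
    rw [hHm G (hG.isP hu.nh) ((F.isX_Nm hG hnh).isP hnh), hHm b (hb.isP isNH_one)
      (h1.isP isNH_one), ← map_pow, ← map_pow, ← map_mul, he]

end Fun

end Fermat.Agent.AnJac
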