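import Mathlib

/-!
Kummer systems: a field `F` with an action of a group `G`, a lattice `Λ` and, for each `n`,
a relation `cl n φ u` identifying `Λ / n` with a subgroup of `Fˣ / n`.
-/

set_option autoImplicit false
set_option linter.unusedSectionVars false

noncomputable section

namespace Fermat.Agent.AnJac

open Matrix

/-- Kummer systems -/
structure KSys (F G Λ : Type*) [Field F] [Group G] [AddCommGroup Λ] where
  act : G →* RingAut F
  cl : ℕ → Λ → F → Prop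
  ne_zero : ∀ {n : ℕ} {φ : Λ} {u : F}, cl n φ u → u ≠ 0
  mul : ∀ {n : ℕ} {φ ψ : Λ} {u v : F}, cl n φ u → cl n ψ v → cl n (φ + ψ) (u * v)
  ex : ∀ {n : ℕ}, n ≠ 0 → ∀ φ : Λ, ∃ u, cl n φ u
  gal : ∀ {n : ℕ}, n ≠ 0 → ∀ {φ : Λ} {u : F} (σ : G), cl n φ u → ∃ ψ, cl n ψ (act σ u)
  root : ∀ {n : ℕ}, n ≠ 0 → ∀ {φ : Λ} {u : F}, cl n (n • φ) u → ∃ g, g ^ n = u
  pow : ∀ {n : ℕ}, n ≠ 0 → ∀ {g : F}, g ≠ 0 → ∀ φ : Λ, cl n (n • φ) (g ^ n)
  uniq : ∀ {n : ℕ}, n ≠ 0 → ∀ {φ ψ : Λ} {u : F}, cl n φ u → cl n ψ u → ∃ χ : Λ, φ - ψ = n • χ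
  lev : ∀ {n m : ℕ}, n ≠ 0 → m ≠ 0 → ∀ {φ : Λ} {u : F}, cl (n * m) φ u → cl n φ u

namespace KSys

variable {F G Λ : Type*} [Field F] [Group G] [AddCommGroup Λ] (K : KSys F G Λ)

lemma shift {n : ℕ} (hn : n ≠ 0) {φ : Λ} {u : F} (h : K.cl n φ u) (χ : Λ) :
    K.cl n (φ + n • χ) u := by
  have := K.mul h (K.pow hn one_ne_zero χ)
  rwa [one_pow, mul_one] at this

lemma zero_one {n : ℕ} (hn : n ≠ 0) : K.cl n 0 1 := by
  have := K.pow hn (one_ne_zero (α := F)) 0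
  rwa [one_pow, smul_zero] at this

lemma npow {n : ℕ} (hn : n ≠ 0) {φ : Λ} {u : F} (h : K.cl n φ u) (m : ℕ) :
    K.cl n (m • φ) (u ^ m) := by
  induction m with
  | zero => rw [zero_smul, pow_zero]; exact K.zero_one hn
  | succ m ih => rw [succ_nsmul, pow_succ]; exact K.mul ih h

lemma inv {n : ℕ} (hn : n ≠ 0) {φ : Λ} {u : F} (h : K.cl n φ u) : K.cl n (-φ) u⁻¹ := by
  have h1 := K.mul (K.npow hn h (n - 1)) (K.pow hn (inv_ne_zero (K.ne_zero h)) (-φ))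
  have h2 : u ^ (n - 1) * u⁻¹ ^ n = u⁻¹ := by
    obtain ⟨m, rfl⟩ := Nat.exists_eq_succ_of_ne_zero hn
    rw [Nat.succ_sub_one, _root_.pow_succ, ← mul_assoc, ← mul_pow, mul_inv_cancel₀ (K.ne_zero h),
      one_pow, one_mul]
  have h3 : (n - 1) • φ + n • -φ = -φ := by
    obtain ⟨m, rfl⟩ := Nat.exists_eq_succ_of_ne_zero hn
    rw [Nat.succ_sub_one, succ_nsmul, smul_neg]
    abel
  rwa [h2, h3] at h1

lemma div {n : ℕ} (hn : n ≠ 0) {φ ψ : Λ} {u v : F} (h : K.cl n φ u) (h' : K.cl n ψ v) :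
    K.cl n (φ - ψ) (u / v) := by
  rw [sub_eq_add_neg, div_eq_mul_inv]
  exact K.mul h (K.inv hn h')

/-- two elements with congruent classes differ by an `n`-th power -/
lemma eq_mul_pow {n : ℕ} (hn : n ≠ 0) {φ ψ χ : Λ} {u v : F} (h : K.cl n φ u) (h' : K.cl n ψ v)
    (e : φ - ψ = n • χ) : ∃ g, g ≠ 0 ∧ u = v * g ^ n := by
  have h1 := K.div hn h h'
  rw [e] at h1
  obtain ⟨g, hg⟩ := K.root hn h1
  have hv := K.ne_zero h'
  have hu := K.ne_zero h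
  refine ⟨g, ?_, ?_⟩
  · rintro rfl
    rw [zero_pow hn] at hg
    exact div_ne_zero hu hv hg.symm
  · rw [hg]; field_simp

variable {r : ℕ} (b : Module.Basis (Fin r) ℤ Λ)

/-- reduced coordinates -/
def red (n : ℕ) : Λ →+ (Fin r → ZMod n) where
  toFun φ i := (b.repr φ i : ZMod n)
  map_zero' := by ext i; simp
  map_add' φ ψ := by ext i; simp

lemma red_apply (n : ℕ) (φ : Λ) (i : Fin r) : red b n φ i = (b.repr φ i : ZMod n) := rfl

lemma red_eq_zero {n : ℕ} {φ : Λ} : red b n φ = 0 ↔ ∃ χ : Λ, φ = n • χ := by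
  constructor
  · intro h
    have h1 : ∀ i, ∃ c : ℤ, b.repr φ i = n * c := by
      intro i
      have := congrFun h i
      rw [red_apply, Pi.zero_apply, ZMod.intCast_zmod_eq_zero_iff_dvd] at this
      exact this
    choose c hc using h1
    refine ⟨∑ i, c i • b i, ?_⟩
    rw [← b.sum_repr φ, Finset.smul_sum]
    refine Finset.sum_congr rfl fun i _ => ?_
    rw [hc, mul_smul, natCast_zsmul]
  · rintro ⟨χ, rfl⟩
    rw [map_nsmul]
    ext i
    simp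

lemma red_eq_iff {n : ℕ} {φ ψ : Λ} : red b n φ = red b n ψ ↔ ∃ χ : Λ, φ - ψ = n • χ := by
  rw [← red_eq_zero b, map_sub, sub_eq_zero]

lemma red_basis (n : ℕ) (j : Fin r) : red b n (b j) = Pi.single j 1 := by
  ext i
  rw [red_apply, b.repr_self, Finsupp.single_apply, Pi.single_apply]
  split_ifs with h1 h2 h2
  · simp
  · exact absurd h1.symm h2
  · exact absurd h2.symm h1
  · simp

lemma gal_congr {n : ℕ} (hn : n ≠ 0) (σ : G) {φ φ' ψ ψ' : Λ} {u u' : F} (h : K.cl n φ u)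
    (h' : K.cl n φ' u') (hs : K.cl n ψ (K.act σ u)) (hs' : K.cl n ψ' (K.act σ u'))
    (e : red b n φ = red b n φ') : red b n ψ = red b n ψ' := by
  obtain ⟨χ, hχ⟩ := (red_eq_iff b).mp e
  obtain ⟨g, hg, rfl⟩ := K.eq_mul_pow hn h h' hχ
  rw [map_mul, map_pow] at hs
  have h1 := K.mul hs' (K.pow hn ((map_ne_zero (K.act σ)).mpr hg) 0)
  rw [smul_zero, add_zero] at h1
  obtain ⟨χ', hχ'⟩ := K.uniq hn hs h1
  exact (red_eq_iff b).mpr ⟨χ', hχ'⟩

/-- the action as a homomorphism on the lattice -/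
def gm {n : ℕ} (hn : n ≠ 0) (σ : G) : Λ →+ (Fin r → ZMod n) where
  toFun φ := red b n (K.gal hn σ (K.ex hn φ).choose_spec).choose
  map_zero' := by
    have h1 := (K.gal hn σ (K.ex hn (0 : Λ)).choose_spec).choose_spec
    have h2 := K.zero_one hn
    have h3 : K.cl n 0 (K.act σ 1) := by rw [map_one]; exact h2
    have := K.gal_congr b hn σ (K.ex hn (0 : Λ)).choose_spec h2 h1 h3 rfl
    rw [this, map_zero]
  map_add' φ ψ := by
    rw [← map_add]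
    refine K.gal_congr b hn σ (K.ex hn (φ + ψ)).choose_spec
      (K.mul (K.ex hn φ).choose_spec (K.ex hn ψ).choose_spec)
      (K.gal hn σ (K.ex hn (φ + ψ)).choose_spec).choose_spec ?_ rfl
    rw [map_mul]
    exact K.mul (K.gal hn σ (K.ex hn φ).choose_spec).choose_spec
      (K.gal hn σ (K.ex hn ψ).choose_spec).choose_spec

lemma gm_eq {n : ℕ} (hn : n ≠ 0) (σ : G) {φ ψ : Λ} {u : F} (h : K.cl n φ u)
    (hs : K.cl n ψ (K.act σ u)) : K.gm b hn σ φ = red b n ψ :=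
  K.gal_congr b hn σ (K.ex hn φ).choose_spec h
    (K.gal hn σ (K.ex hn φ).choose_spec).choose_spec hs rfl

/-- the matrix of the action on `Λ / n` -/
def M {n : ℕ} (hn : n ≠ 0) (σ : G) : Matrix (Fin r) (Fin r) (ZMod n) :=
  Matrix.of fun i j => K.gm b hn σ (b j) i

lemma eq_mulVec {n : ℕ} (f : Λ →+ (Fin r → ZMod n)) (φ : Λ) :
    f φ = (Matrix.of fun i j => f (b j) i) *ᵥ red b n φ := by
  have h1 : f φ = ∑ j, (b.repr φ j) • f (b j) := by
    conv_lhs => rw [← b.sum_repr φ]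
    rw [map_sum]
    simp
  rw [h1]
  ext i
  rw [Finset.sum_apply, Matrix.mulVec, dotProduct]
  refine Finset.sum_congr rfl fun j _ => ?_
  rw [Pi.smul_apply, Matrix.of_apply, red_apply, zsmul_eq_mul, mul_comm]

lemma M_mulVec {n : ℕ} (hn : n ≠ 0) (σ : G) {φ ψ : Λ} {u : F} (h : K.cl n φ u)
    (hs : K.cl n ψ (K.act σ u)) : K.M b hn σ *ᵥ red b n φ = red b n ψ := by
  rw [← K.gm_eq b hn σ h hs, eq_mulVec b (K.gm b hn σ) φ]
  rfl

/-- matrices are determined by the action on reductions -/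
lemma mat_ext {n : ℕ} {A B : Matrix (Fin r) (Fin r) (ZMod n)}
    (h : ∀ φ : Λ, A *ᵥ red b n φ = B *ᵥ red b n φ) : A = B := by
  ext i j
  have := congrFun (h (b j)) i
  rw [red_basis, Matrix.mulVec_single_one, Matrix.mulVec_single_one] at this
  exact this

lemma M_one {n : ℕ} (hn : n ≠ 0) : K.M b hn 1 = 1 := by
  apply mat_ext b
  intro φ
  obtain ⟨u, hu⟩ := K.ex hn φ
  rw [Matrix.one_mulVec]
  exact K.M_mulVec b hn 1 hu (by rw [map_one]; exact hu)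

lemma M_mul {n : ℕ} (hn : n ≠ 0) (σ τ : G) : K.M b hn (σ * τ) = K.M b hn σ * K.M b hn τ := by
  apply mat_ext b
  intro φ
  obtain ⟨u, hu⟩ := K.ex hn φ
  obtain ⟨ψ, hψ⟩ := K.gal hn τ hu
  obtain ⟨χ, hχ⟩ := K.gal hn σ hψ
  rw [← Matrix.mulVec_mulVec, K.M_mulVec b hn τ hu hψ, K.M_mulVec b hn σ hψ hχ]
  exact K.M_mulVec b hn (σ * τ) hu (by rw [map_mul]; exact hχ)

/-- the representation on `Λ / n` -/
def rep {n : ℕ} (hn : n ≠ 0) : G →* Matrix (Fin r) (Fin r) (ZMod n) where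
  toFun := K.M b hn
  map_one' := K.M_one b hn
  map_mul' := K.M_mul b hn

lemma rep_apply {n : ℕ} (hn : n ≠ 0) (σ : G) : K.rep b hn σ = K.M b hn σ := rfl

lemma M_lev {n m : ℕ} (hn : n ≠ 0) (hm : m ≠ 0) (σ : G) (i j : Fin r) :
    ZMod.castHom (dvd_mul_right n m) (ZMod n) (K.M b (mul_ne_zero hn hm) σ i j) =
      K.M b hn σ i j := by
  obtain ⟨u, hu⟩ := K.ex (mul_ne_zero hn hm) (b j)
  obtain ⟨ψ, hψ⟩ := K.gal (mul_ne_zero hn hm) σ hu
  have h1 := K.gm_eq b (mul_ne_zero hn hm) σ hu hψ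
  have h2 := K.gm_eq b hn σ (K.lev hn hm hu) (K.lev hn hm hψ)
  change ZMod.castHom (dvd_mul_right n m) (ZMod n) (K.gm b (mul_ne_zero hn hm) σ (b j) i) =
    K.gm b hn σ (b j) i
  rw [h1, h2, red_apply, red_apply, map_intCast]

/-- the matrix of an endomorphism of the lattice -/
def tm (t : Λ →+ Λ) : Matrix (Fin r) (Fin r) ℤ := Matrix.of fun i j => b.repr (t (b j)) i

lemma tm_mulVec (t : Λ →+ Λ) (n : ℕ) (φ : Λ) :
    ((Int.castRingHom (ZMod n)).mapMatrix (tm b t)) *ᵥ red b n φ = red b n (t φ) := by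
  rw [show red b n (t φ) = ((red b n).comp t) φ from rfl, eq_mulVec b ((red b n).comp t) φ]
  congr 1

/-- compatibility of an endomorphism of the lattice with an operator on the field -/
def Compat (n : ℕ) (t : Λ →+ Λ) (H : F → F) : Prop :=
  ∀ (φ : Λ) (u : F), K.cl n φ u → K.cl n (t φ) (H u)

lemma M_comm {n : ℕ} (hn : n ≠ 0) {t : Λ →+ Λ} {H : F → F} (h : K.Compat n t H) (σ : G)
    (hH : ∀ u, H (K.act σ u) = K.act σ (H u)) :
    K.M b hn σ * (Int.castRingHom (ZMod n)).mapMatrix (tm b t) =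
      (Int.castRingHom (ZMod n)).mapMatrix (tm b t) * K.M b hn σ := by
  apply mat_ext b
  intro φ
  obtain ⟨u, hu⟩ := K.ex hn φ
  obtain ⟨ψ, hψ⟩ := K.gal hn σ hu
  rw [← Matrix.mulVec_mulVec, ← Matrix.mulVec_mulVec, tm_mulVec, K.M_mulVec b hn σ hu hψ,
    tm_mulVec]
  refine K.M_mulVec b hn σ (h _ _ hu) ?_
  rw [← hH]
  exact h _ _ hψ

/-- the Eichler-Shimura relation -/
lemma M_frob {n : ℕ} (hn : n ≠ 0) {t : Λ →+ Λ} {H : F → F} (h : K.Compat n t H) (τ : G) (ℓ : ℕ)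
    (hH : ∀ φ u, K.cl n φ u → ∃ g, g ≠ 0 ∧ H u = K.act τ u * K.act τ⁻¹ u ^ ℓ * g ^ n) :
    (Int.castRingHom (ZMod n)).mapMatrix (tm b t) =
      K.M b hn τ + (ℓ : ZMod n) • K.M b hn τ⁻¹ := by
  apply mat_ext b
  intro φ
  obtain ⟨u, hu⟩ := K.ex hn φ
  obtain ⟨ψ, hψ⟩ := K.gal hn τ hu
  obtain ⟨ψ', hψ'⟩ := K.gal hn τ⁻¹ hu
  rw [tm_mulVec, Matrix.add_mulVec, Matrix.smul_mulVec, K.M_mulVec b hn τ hu hψ,
    K.M_mulVec b hn τ⁻¹ hu hψ']
  obtain ⟨g, hg, e⟩ := hH φ u hu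
  have h1 := h _ _ hu
  rw [e] at h1
  have h2 := K.mul (K.mul hψ (K.npow hn hψ' ℓ)) (K.pow hn hg 0)
  obtain ⟨χ, hχ⟩ := K.uniq hn h1 h2
  have h3 := (red_eq_iff b).mpr ⟨χ, hχ⟩
  rw [h3, smul_zero, add_zero, map_add, map_nsmul]
  congr 1
  ext i
  simp

lemma M_eq_one {n : ℕ} (hn : n ≠ 0) (σ : G)
    (hH : ∀ φ u, K.cl n φ u → ∃ g, g ≠ 0 ∧ K.act σ u = u * g ^ n) : K.M b hn σ = 1 := by
  apply mat_ext b
  intro φ
  obtain ⟨u, hu⟩ := K.ex hn φ
  obtain ⟨g, hg, e⟩ := hH φ u hu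
  rw [Matrix.one_mulVec]
  refine K.M_mulVec b hn σ hu ?_
  rw [e]
  have := K.mul hu (K.pow hn hg 0)
  rwa [smul_zero, add_zero] at this

/-- finitely many functions control the action modulo `n` -/
lemma exists_control {n : ℕ} (hn : n ≠ 0) : ∃ u : Fin r → F, ∀ σ : G,
    (∀ j, K.act σ (u j) = u j) → K.M b hn σ = 1 := by
  choose u hu using fun j => K.ex hn (b j)
  refine ⟨u, fun σ hσ => ?_⟩
  ext i j
  have h1 := K.gm_eq b hn σ (hu j) (by rw [hσ j]; exact hu j)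
  change K.gm b hn σ (b j) i = _
  rw [h1, red_basis, Pi.single_apply, Matrix.one_apply]

end KSys

end Fermat.Agent.AnJac
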