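import Fermat.Agent.AnJac.KSys

/-!
The `p`-adic representation of a Kummer system.
-/

set_option autoImplicit false
set_option linter.unusedSectionVars false

noncomputable section

namespace Fermat.Agent.AnJac

open Matrix

/-- limits of compatible elements -/
lemma exists_padic_lim (p : ℕ) [hp : Fact p.Prime] (a : ∀ n : ℕ, ZMod (p ^ n))
    (h : ∀ n, ZMod.castHom (pow_dvd_pow p (Nat.le_succ n)) (ZMod (p ^ n)) (a (n + 1)) = a n) :
    ∃ x : ℤ_[p], ∀ n, PadicInt.toZModPow n x = a n := by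
  have : ∀ n, NeZero (p ^ n) := fun n => ⟨pow_ne_zero n hp.out.ne_zero⟩
  have hi : ∀ i, (p : ℤ) ^ i ∣ ((a (i + 1)).val : ℤ) - ((a i).val : ℤ) := by
    intro i
    have h1 : (((a (i + 1)).val : ℤ) : ZMod (p ^ i)) = (((a i).val : ℤ) : ZMod (p ^ i)) := by
      rw [Int.cast_natCast, Int.cast_natCast, ZMod.natCast_zmod_val (a i), ← h i]
      conv_rhs => rw [← ZMod.natCast_zmod_val (a (i + 1)), map_natCast]
    have h2 := (ZMod.intCast_eq_intCast_iff_dvd_sub _ _ _).mp h1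
    have h3 : ((p ^ i : ℕ) : ℤ) ∣ ((a (i + 1)).val : ℤ) - ((a i).val : ℤ) := by
      rw [← dvd_neg, neg_sub]; exact h2
    push_cast at h3
    exact h3
  refine ⟨_, fun n => (PadicInt.toZModPow_ofIntSeq_of_pow_dvd_sub
    (fun i => ((a i).val : ℤ)) p hi n).trans ?_⟩
  rw [Int.cast_natCast, ZMod.natCast_zmod_val]

namespace KSys

variable {F G Λ : Type*} [Field F] [Group G] [AddCommGroup Λ] (K : KSys F G Λ)
variable {r : ℕ} (b : Module.Basis (Fin r) ℤ Λ) (p : ℕ) [hp : Fact p.Prime]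

lemma pn0 (n : ℕ) : p ^ n ≠ 0 := pow_ne_zero n hp.out.ne_zero

lemma exists_entry (σ : G) (i j : Fin r) :
    ∃ x : ℤ_[p], ∀ n, PadicInt.toZModPow n x = K.M b (pn0 p n) σ i j := by
  apply exists_padic_lim
  intro n
  have := K.M_lev b (pn0 p n) hp.out.ne_zero σ i j
  exact this

/-- the matrices over the `p`-adic integers -/
def Mp (σ : G) : Matrix (Fin r) (Fin r) ℤ_[p] := Matrix.of fun i j =>
  (K.exists_entry b p σ i j).choose

lemma Mp_spec (σ : G) (n : ℕ) :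
    (PadicInt.toZModPow n).mapMatrix (K.Mp b p σ) = K.M b (pn0 p n) σ := by
  ext i j
  exact (K.exists_entry b p σ i j).choose_spec n

variable {p} in
lemma padic_mat_ext {A B : Matrix (Fin r) (Fin r) ℤ_[p]}
    (h : ∀ n, (PadicInt.toZModPow n).mapMatrix A = (PadicInt.toZModPow n).mapMatrix B) :
    A = B := by
  ext i j
  rw [← PadicInt.ext_of_toZModPow]
  intro n
  exact congrFun (congrFun (h n) i) j

/-- the `p`-adic representation -/
def rho : G →* Matrix (Fin r) (Fin r) ℤ_[p] where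
  toFun := K.Mp b p
  map_one' := by
    apply padic_mat_ext
    intro n
    rw [K.Mp_spec, K.M_one, map_one]
  map_mul' σ τ := by
    apply padic_mat_ext
    intro n
    rw [K.Mp_spec, K.M_mul, map_mul, K.Mp_spec, K.Mp_spec]

lemma rho_spec (σ : G) (n : ℕ) :
    (PadicInt.toZModPow n).mapMatrix (K.rho b p σ) = K.M b (pn0 p n) σ := K.Mp_spec b p σ n

variable {p}

lemma map_castHom (n : ℕ) (A : Matrix (Fin r) (Fin r) ℤ) :
    (PadicInt.toZModPow n).mapMatrix ((Int.castRingHom ℤ_[p]).mapMatrix A) =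
      (Int.castRingHom (ZMod (p ^ n))).mapMatrix A := by
  ext i j
  simp

lemma rho_comm {t : Λ →+ Λ} {H : F → F} (h : ∀ n, n ≠ 0 → K.Compat n t H) (σ : G)
    (hH : ∀ u, H (K.act σ u) = K.act σ (H u)) :
    K.rho b p σ * (Int.castRingHom ℤ_[p]).mapMatrix (tm b t) =
      (Int.castRingHom ℤ_[p]).mapMatrix (tm b t) * K.rho b p σ := by
  apply padic_mat_ext
  intro n
  rw [map_mul, map_mul, K.rho_spec, map_castHom]
  exact K.M_comm b (pn0 p n) (h _ (pn0 p n)) σ hH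

lemma rho_frob {t : Λ →+ Λ} {H : F → F} (h : ∀ n, n ≠ 0 → K.Compat n t H) (τ : G) (ℓ : ℕ)
    (hH : ∀ n φ u, K.cl (p ^ n) φ u →
      ∃ g, g ≠ 0 ∧ H u = K.act τ u * K.act τ⁻¹ u ^ ℓ * g ^ (p ^ n)) :
    (Int.castRingHom ℤ_[p]).mapMatrix (tm b t) =
      K.rho b p τ + (ℓ : ℤ_[p]) • K.rho b p τ⁻¹ := by
  apply padic_mat_ext
  intro n
  have h1 := K.M_frob b (pn0 p n) (h _ (pn0 p n)) τ ℓ (hH n)
  rw [map_castHom, h1, map_add, K.rho_spec, ← K.rho_spec b p τ⁻¹ n]
  congr 1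
  ext i j
  simp

lemma rho_inert {σ : G}
    (hH : ∀ n φ u, K.cl (p ^ n) φ u → ∃ g, g ≠ 0 ∧ K.act σ u = u * g ^ (p ^ n)) :
    K.rho b p σ = 1 := by
  apply padic_mat_ext
  intro n
  rw [K.rho_spec, map_one]
  exact K.M_eq_one b (pn0 p n) σ (hH n)

end KSys

end Fermat.Agent.AnJac
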