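import Fermat.Agent.AnJac.Descent
import Fermat.Agent.AnJac.HeckeFun
import Fermat.Agent.AnJac.PadicRep

/-!
The Kummer system of `X₀(N)`.
-/

set_option autoImplicit false
set_option linter.unusedSectionVars false

noncomputable section

namespace Fermat.Agent.AnJac

open ModularCurve AlgebraicCurve IntermediateField Fermat.Agent.GenusX0 Fermat.Agent.ModFun
open Fermat.Agent.Curves CongruenceSubgroup MatrixGroups

/-! ### exponentials of integral homomorphisms -/

section Ech

variable {Γ : Subgroup SL(2,ℤ)}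

/-- `ζ_n ^ φ` -/
def ech (n : ℕ) (φ : Additive Γ →+ ℤ) : Γ →* ℂˣ where
  toFun γ := zetaU n ^ φ (Additive.ofMul γ)
  map_one' := by rw [ofMul_one, map_zero, zpow_zero]
  map_mul' γ δ := by rw [ofMul_mul, map_add, zpow_add]

lemma ech_apply (n : ℕ) (φ : Additive Γ →+ ℤ) (γ : Γ) :
    ech n φ γ = zetaU n ^ φ (Additive.ofMul γ) := rfl

lemma ech_add (n : ℕ) (φ ψ : Additive Γ →+ ℤ) : ech n (φ + ψ) = ech n φ * ech n ψ := by
  ext γ
  rw [MonoidHom.mul_apply, ech_apply, ech_apply, ech_apply, AddMonoidHom.add_apply, zpow_add]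

lemma zetaU_pow_self {n : ℕ} (hn : n ≠ 0) : zetaU n ^ n = 1 := by
  have : NeZero n := ⟨hn⟩
  exact (zetaU_prim n).pow_eq_one

lemma ech_pow_self {n : ℕ} (hn : n ≠ 0) (φ : Additive Γ →+ ℤ) : ech n φ ^ n = 1 := by
  ext γ
  rw [MonoidHom.pow_apply, ech_apply, ← zpow_natCast, ← zpow_mul, mul_comm, zpow_mul, zpow_natCast,
    zetaU_pow_self hn, one_zpow, MonoidHom.one_apply]

lemma ech_nsmul {n : ℕ} (hn : n ≠ 0) (φ : Additive Γ →+ ℤ) : ech n (n • φ) = 1 := by
  ext γ
  rw [ech_apply, AddMonoidHom.nsmul_apply, nsmul_eq_mul, zpow_mul, zpow_natCast, zetaU_pow_self hn,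
    one_zpow, MonoidHom.one_apply]

lemma zetaU_mul_pow {n m : ℕ} (hm : m ≠ 0) : zetaU (n * m) ^ m = zetaU n := by
  apply Units.ext
  rw [Units.val_pow_eq_pow_val, zetaU, zetaU, Units.val_mk0, Units.val_mk0, ← Complex.exp_nat_mul]
  congr 1
  have : (m : ℂ) ≠ 0 := Nat.cast_ne_zero.mpr hm
  push_cast
  field_simp

lemma ech_lev {n m : ℕ} (hm : m ≠ 0) (φ : Additive Γ →+ ℤ) : ech (n * m) φ ^ m = ech n φ := by
  ext γ
  rw [MonoidHom.pow_apply, ech_apply, ech_apply, ← zpow_natCast, ← zpow_mul,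
    mul_comm (φ _) (m : ℤ), zpow_mul, zpow_natCast, zetaU_mul_pow hm]

lemma ech_eq_iff {n : ℕ} (hn : n ≠ 0) {φ ψ : Additive Γ →+ ℤ} :
    ech n φ = ech n ψ ↔ ∀ x, (n : ℤ) ∣ φ x - ψ x := by
  have : NeZero n := ⟨hn⟩
  constructor
  · intro h x
    have h1 := DFunLike.congr_fun h (Additive.toMul x)
    rw [ech_apply, ech_apply] at h1
    have h2 : zetaU n ^ (φ x - ψ x) = 1 := by
      rw [zpow_sub, mul_inv_eq_one]
      exact h1
    exact ((zetaU_prim n).zpow_eq_one_iff_dvd _).mp h2
  · intro h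
    ext γ
    obtain ⟨m, hm⟩ := h (Additive.ofMul γ)
    rw [sub_eq_iff_eq_add] at hm
    rw [ech_apply, ech_apply, hm, zpow_add, zpow_mul, zpow_natCast, zetaU_pow_self hn, one_zpow,
      one_mul]

lemma Tm_ech {ι : Type*} [Fintype ι] (F : HF Γ ι) (n : ℕ) (φ : Additive Γ →+ ℤ) :
    F.Tm (ech n φ) = ech n (F.T φ) := by
  ext γ
  rw [F.Tm_apply, ech_apply, F.T_apply]
  simp only [ech_apply]
  congr 1
  exact (map_sum (zmultiplesHom (Additive ℂˣ) (Additive.ofMul (zetaU n))) _ _).symm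

end Ech

variable {N : ℕ} [NeZero N]

lemma neg_one_mem (N : ℕ) : (-1 : SL(2,ℤ)) ∈ Gamma0 N := by
  rw [Gamma0_mem]
  simp

lemma isNH_ech {n : ℕ} {φ : Additive (Gamma0 N) →+ ℤ} (h : φ ∈ NHA (Gamma0 N) ℤ) :
    IsNH (ech n φ) := fun γ hγ => by
  rw [ech_apply, h γ hγ, zpow_zero]

/-- characters of order `n` are exponentials of integral homomorphisms -/
theorem exists_ech {n : ℕ} (hn : n ≠ 0) {χ : Gamma0 N →* ℂˣ} (hχ : IsNH χ) (hpw : χ ^ n = 1) :
    ∃ φ ∈ NHA (Gamma0 N) ℤ, ech n φ = χ := by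
  have hNn : NeZero n := ⟨hn⟩
  have hmem : ∀ γ, χ γ ∈ Subgroup.zpowers (zetaU n) := by
    intro γ
    rw [(zetaU_prim n).zpowers_eq, mem_rootsOfUnity]
    have := DFunLike.congr_fun hpw γ
    rwa [MonoidHom.pow_apply] at this
  let π : ℤ →+ Additive (Subgroup.zpowers (zetaU n)) :=
    zmultiplesHom _ (Additive.ofMul ⟨zetaU n, Subgroup.mem_zpowers _⟩)
  have hπ : Function.Surjective π := by
    intro x
    obtain ⟨m, hm⟩ := Subgroup.mem_zpowers_iff.mp (Additive.toMul x).2
    refine ⟨m, ?_⟩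
    apply Additive.toMul.injective
    apply Subtype.ext
    rw [← hm]
    simp [π]
  let φ : Additive (Gamma0 N) →+ Additive (Subgroup.zpowers (zetaU n)) :=
    MonoidHom.toAdditive (χ.codRestrict _ hmem)
  obtain ⟨ψ, hψ, h⟩ := SL2Pres.exists_lift_hom (neg_one_mem N) π hπ φ (by
    intro γ hγ
    apply Additive.toMul.injective
    apply Subtype.ext
    exact hχ γ ((trace_sq_le_iff _).mp hγ))
  refine ⟨ψ, fun γ hγ => hψ γ ((trace_sq_le_iff _).mpr hγ), ?_⟩
  refine MonoidHom.ext fun γ => ?_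
  have h1 := congrArg (fun x => ((Additive.toMul x : Subgroup.zpowers (zetaU n)) : ℂˣ))
    (h (Additive.ofMul γ))
  rw [ech_apply]
  simpa [π, φ] using h1

/-! ### the lattice -/

/-- the lattice of integral homomorphisms killing the non-hyperbolic elements -/
abbrev Lat (N : ℕ) := NHA (Gamma0 N) ℤ

/-- evaluation on generators -/
def evL {G : Type*} [Group G] (S : Finset G) : (Additive G →+ ℤ) →ₗ[ℤ] (S → ℤ) where
  toFun φ s := φ (Additive.ofMul (s : G))
  map_add' _ _ := rfl
  map_smul' m φ := by ext s; simp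

lemma evL_injective {G : Type*} [Group G] {S : Finset G} (hS : Subgroup.closure (S : Set G) = ⊤) :
    Function.Injective (evL S) := by
  intro φ ψ h
  have h1 : (AddMonoidHom.toMultiplicativeRight φ : G →* Multiplicative ℤ) =
      AddMonoidHom.toMultiplicativeRight ψ := by
    apply MonoidHom.eq_of_eqOn_top
    rw [← hS]
    have : Set.EqOn (AddMonoidHom.toMultiplicativeRight φ : G →* Multiplicative ℤ)
        (AddMonoidHom.toMultiplicativeRight ψ) (S : Set G) := fun t ht => congrFun h ⟨t, ht⟩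
    exact fun x hx => MonoidHom.eqOn_closure this hx
  ext x
  exact DFunLike.congr_fun h1 x

instance finite_homZ {G : Type*} [Group G] [Group.FG G] : Module.Finite ℤ (Additive G →+ ℤ) := by
  obtain ⟨S, hS⟩ := Group.FG.out (G := G)
  exact Module.Finite.of_injective (evL S) (evL_injective hS)

instance : Module.Finite ℤ (Lat N) :=
  Module.Finite.of_injective ((Lat N).subtype.toIntLinearMap) Subtype.val_injective

instance tfHom {G : Type*} [Group G] : IsAddTorsionFree (Additive G →+ ℤ) where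
  nsmul_right_injective n hn φ ψ h := by
    ext x
    have h1 := DFunLike.congr_fun h x
    exact nsmul_right_injective hn h1

instance : IsAddTorsionFree (Lat N) :=
  Function.Injective.isAddTorsionFree ((Lat N).subtype) Subtype.val_injective

instance : Module.Free ℤ (Lat N) := inferInstance

/-! ### the Kummer system -/

section KX

variable {k : Type*} [Field k] [IsAlgClosed k] [CharZero k] {G : Type*} [Group G]

/-- the action on the function field -/
def actG (N : ℕ) (f : G →* RingAut k) : G →* RingAut (modularFunctionFieldFullC k N) where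
  toFun σ := galF N (f σ)
  map_one' := by
    rw [map_one]
    ext u : 2
    rw [coe_galF]
    exact coeffMap_id' _
  map_mul' σ τ := by
    rw [map_mul]
    ext u : 2
    change coeffMap ((f σ * f τ : RingAut k) : k →+* k) (u : LaurentSeries k) =
      coeffMap (f σ : k →+* k) (coeffMap (f τ : k →+* k) (u : LaurentSeries k))
    rw [coeffMap_coeffMap]
    rfl

lemma coe_actG (f : G →* RingAut k) (σ : G) (u : modularFunctionFieldFullC k N) :
    (actG N f σ u : LaurentSeries k) = coeffMap ((f σ : RingAut k) : k →+* k) (u : LaurentSeries k) :=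
  rfl

/-- the relation between homomorphisms and functions -/
def ClX (N : ℕ) [NeZero N] (ι : k →+* ℂ) (n : ℕ) (φ : Lat N) (u : modularFunctionFieldFullC k N) :
    Prop := IsChar N n (coeffMap ι (u : LaurentSeries k)) (ech n (φ : Additive (Gamma0 N) →+ ℤ))

variable (ι : k →+* ℂ)

lemma ClX.ne_zero {n : ℕ} {φ : Lat N} {u : modularFunctionFieldFullC k N} (h : ClX N ι n φ u) :
    u ≠ 0 := by
  rintro rfl
  apply IsChar.ne_zero h
  exact map_zero _

lemma ClX.dvd_ord {n : ℕ} {φ : Lat N} {u : modularFunctionFieldFullC k N} (h : ClX N ι n φ u)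
    (v : Place k (modularFunctionFieldFullC k N)) : (n : ℤ) ∣ v.ord u :=
  AnJac.dvd_ord ι (ClX.ne_zero ι h) h v

lemma exists_ClX {n : ℕ} (hn : n ≠ 0) {u : modularFunctionFieldFullC k N} (hu : u ≠ 0)
    (h : ∀ v : Place k (modularFunctionFieldFullC k N), (n : ℤ) ∣ v.ord u) :
    ∃ φ : Lat N, ClX N ι n φ u := by
  obtain ⟨χ, hχ⟩ := exists_char ι hn hu h
  obtain ⟨φ, hφ, he⟩ := exists_ech hn hχ.nh hχ.pw
  refine ⟨⟨φ, hφ⟩, ?_⟩
  rw [ClX, he]
  exact hχ

variable (N) in
/-- the Kummer system of `X₀(N)` -/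
def kX0 (f : G →* RingAut k) : KSys (modularFunctionFieldFullC k N) G (Lat N) where
  act := actG N f
  cl := ClX N ι
  ne_zero h := ClX.ne_zero ι h
  mul {n φ ψ u v} hu hv := by
    have := IsChar.mul hu hv
    rw [← ech_add, ← map_mul] at this
    exact this
  ex {n} hn φ := by
    obtain ⟨w, -, hw⟩ := exists_isChar_descent ι hn (isNH_ech φ.2) (ech_pow_self hn φ.1)
    exact ⟨w, hw⟩
  gal {n} hn {φ u} σ hu := by
    apply exists_ClX ι hn
    · exact (map_ne_zero _).mpr (ClX.ne_zero ι hu)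
    · intro v
      exact dvd_galF (fun v => ClX.dvd_ord ι hu v) (f σ) v
  root {n} hn {φ u} hu := by
    have h : IsChar N n (coeffMap ι (u : LaurentSeries k)) 1 := by
      have h1 : ech n ((n • φ : Lat N) : Additive (Gamma0 N) →+ ℤ) = 1 := ech_nsmul hn φ.1
      rw [← h1]; exact hu
    obtain ⟨g, -, hg⟩ := exists_root_descent ι hn h
    exact ⟨g, hg⟩
  pow {n} hn {g} hg φ := by
    have h1 : ech n ((n • φ : Lat N) : Additive (Gamma0 N) →+ ℤ) = 1 := ech_nsmul hn φ.1
    change IsChar N n _ (ech n ((n • φ : Lat N) : Additive (Gamma0 N) →+ ℤ))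
    rw [h1]
    change IsChar N n (coeffMap ι ((g : LaurentSeries k) ^ n)) 1
    rw [map_pow]
    refine IsChar.of_pow (coeffMap_mem_FF ι g.2) ?_
    rw [Ne, map_eq_zero_iff _ (coeffMap_injective ι)]
    exact fun h => hg (Subtype.ext h)
  uniq {n} hn {φ ψ u} hu hv := by
    have h1 := (ech_eq_iff hn).mp (IsChar.unique hn hu hv)
    choose c hc using h1
    have hinj : Function.Injective fun m : ℤ => (n : ℤ) * m :=
      mul_right_injective₀ (by exact_mod_cast hn)
    let χ : Additive (Gamma0 N) →+ ℤ :=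
      { toFun := c
        map_zero' := hinj (by simp only [← hc, map_zero, mul_zero, sub_zero])
        map_add' := fun x y => hinj (by
          simp only [mul_add, ← hc, map_add]
          ring) }
    refine ⟨⟨χ, fun γ hγ => hinj ?_⟩, ?_⟩
    · change (n : ℤ) * c (Additive.ofMul γ) = (n : ℤ) * 0
      rw [← hc, φ.2 γ hγ, ψ.2 γ hγ, mul_zero, sub_zero]
    · apply Subtype.ext
      refine AddMonoidHom.ext fun x => ?_
      change (φ : Additive (Gamma0 N) →+ ℤ) x - (ψ : Additive (Gamma0 N) →+ ℤ) x = n • c x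
      rw [hc, nsmul_eq_mul]
  lev {n m} _ hm {φ u} hu := by
    have := IsChar.descend hu
    rw [ech_lev hm] at this
    exact this

end KX

end Fermat.Agent.AnJac
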