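import Fermat.Agent.AnJac.HD
import Fermat.Agent.GalRep.Link
import Fermat.Agent.S21
import Fermat.Agent.DSLift.QCoeff

/-!
Relations between Hecke operators on the lattice `Λ` and on cusp forms.
-/

set_option autoImplicit false
set_option linter.unusedSectionVars false

noncomputable section

namespace Fermat.Agent.AnJac

open ModularCurve CongruenceSubgroup MatrixGroups UpperHalfPlane GalRep
open EichlerShimura ModularForm ModularCurve.Period
open P2MW.S_ModularForm_heckeT_slash_eq_self_of_mem_Gamma0.ModularForm.HeckeSlashInvariance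

variable (N : ℕ) [NeZero N]

/-- Hecke operators on homomorphisms -/
def MT (M : Type*) [AddCommGroup M] (ℓ : ℕ) :
    (Additive (Gamma0 N) →+ M) →+ (Additive (Gamma0 N) →+ M) :=
  if h : ℓ.Prime then
    if hN : ℓ ∣ N then haveI : NeZero ℓ := ⟨h.ne_zero⟩; (hfU N ℓ hN).T
    else haveI : Fact ℓ.Prime := ⟨h⟩; (hfT N ℓ hN).T
  else 0

lemma MT_of_not_dvd (M : Type*) [AddCommGroup M] (ℓ : ℕ) [h : Fact ℓ.Prime] (hN : ¬ ℓ ∣ N) :
    MT N M ℓ = (hfT N ℓ hN).T := by
  rw [MT, dif_pos h.out, dif_neg hN]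

lemma MT_of_dvd (M : Type*) [AddCommGroup M] (ℓ : ℕ) [NeZero ℓ] (h : ℓ.Prime) (hN : ℓ ∣ N) :
    MT N M ℓ = (hfU N ℓ hN).T := by
  rw [MT, dif_pos h, dif_pos hN]

variable {N}

lemma coe_LTot (ℓ : ℕ) (φ : Lat N) :
    (LTot N ℓ φ : Additive (Gamma0 N) →+ ℤ) = MT N ℤ ℓ (φ : Additive (Gamma0 N) →+ ℤ) := by
  by_cases h : ℓ.Prime
  · have : NeZero ℓ := ⟨h.ne_zero⟩
    have : Fact ℓ.Prime := ⟨h⟩
    by_cases hN : ℓ ∣ N
    · rw [LTot_of_dvd N ℓ h hN, MT_of_dvd N ℤ ℓ h hN]; rfl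
    · rw [LTot_of_not_dvd N ℓ hN, MT_of_not_dvd N ℤ ℓ hN]; rfl
  · rw [LTot, dif_neg h, MT, dif_neg h]; rfl

lemma MT_comp {M M' : Type*} [AddCommGroup M] [AddCommGroup M'] (π : M →+ M')
    (φ : Additive (Gamma0 N) →+ M) (ℓ : ℕ) : MT N M' ℓ (π.comp φ) = π.comp (MT N M ℓ φ) := by
  by_cases h : ℓ.Prime
  · have : NeZero ℓ := ⟨h.ne_zero⟩
    have : Fact ℓ.Prime := ⟨h⟩
    by_cases hN : ℓ ∣ N
    · rw [MT_of_dvd N M ℓ h hN, MT_of_dvd N M' ℓ h hN, HF.T_comp]
    · rw [MT_of_not_dvd N M ℓ hN, MT_of_not_dvd N M' ℓ hN, HF.T_comp]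
  · rw [MT, dif_neg h, MT, dif_neg h]
    ext x
    simp

lemma isUT_rep {p : ℕ} (hp : p ≠ 0) (x : OnePoint (ZMod p)) : IsUT (heckeRep p x) := by
  induction x using OnePoint.rec with
  | infty => exact isUT_heckeDiag hp
  | coe x => exact isUT_heckeMatrix hp x.val

/-- periods of `T_ℓ f` -/
lemma symb_heckeOp {ℓ : ℕ} (hℓ : ℓ.Prime) (f : CuspForm (Gamma0 N) 2) :
    periodLin N (DSLift.heckeOp N 2 hℓ f) = MT N ℂ ℓ (periodLin N f) := by
  have : NeZero ℓ := ⟨hℓ.ne_zero⟩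
  have hF : Fact ℓ.Prime := ⟨hℓ⟩
  ext γ
  change periodLin N _ (Additive.ofMul γ) = MT N ℂ ℓ (periodLin N f) (Additive.ofMul γ)
  by_cases hN : ℓ ∣ N
  · rw [DSLift.heckeOp_of_dvd hℓ hN, MT_of_dvd N ℂ ℓ hℓ hN, HF.T_apply, periodLin_apply]
    change symb (γ : SL(2,ℤ)) (heckeU 2 ℓ ⇑f) = ∑ i, periodLin N f _
    rw [heckeU_eq_sum_zmod]
    rw [hecke_symb_of (fun x : ZMod ℓ => isUT_heckeMatrix hℓ.ne_zero x.val)
      ((hfU N ℓ hN).spec γ) (good_cusp f)]
    refine Finset.sum_congr rfl fun i _ => ?_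
    rw [periodLin_apply]
    rfl
  · rw [DSLift.heckeOp_of_not_dvd hℓ hN, MT_of_not_dvd N ℂ ℓ hN, HF.T_apply, periodLin_apply]
    change symb (γ : SL(2,ℤ)) (heckeT 2 ℓ ⇑f) = ∑ i, periodLin N f _
    rw [heckeT_eq_sum_onePoint]
    rw [hecke_symb_of (fun x => isUT_rep hℓ.ne_zero x) ((hfT N ℓ hN).spec γ) (good_cusp f)]
    refine Finset.sum_congr rfl fun i _ => ?_
    rw [periodLin_apply]
    rfl

/-- conjugate periods of `T_ℓ f` -/
lemma symb_conj_heckeOp {ℓ : ℕ} (hℓ : ℓ.Prime) (f : CuspForm (Gamma0 N) 2) :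
    charInvolution N ℂ ℂ (periodLin N (DSLift.heckeOp N 2 hℓ f)) =
      MT N ℂ ℓ (charInvolution N ℂ ℂ (periodLin N f)) := by
  have : NeZero ℓ := ⟨hℓ.ne_zero⟩
  have hF : Fact ℓ.Prime := ⟨hℓ⟩
  ext γ
  change charInvolution N ℂ ℂ _ (Additive.ofMul γ) = MT N ℂ ℓ _ (Additive.ofMul γ)
  by_cases hN : ℓ ∣ N
  · rw [DSLift.heckeOp_of_dvd hℓ hN, MT_of_dvd N ℂ ℓ hℓ hN, HF.T_apply, charInvolution_apply,
      periodLin_apply]
    simp only [charInvolution_apply, periodLin_apply]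
    change symb (jConjSL (γ : SL(2,ℤ))) (heckeU 2 ℓ ⇑f) = ∑ i, symb (jConjSL _) ⇑f
    rw [heckeU_eq_sum_zmod, ← sum_conj_heckeMatrix,
      hecke_symb_conj (fun x : ZMod ℓ => isUT_heckeMatrix hℓ.ne_zero x.val)
      ((hfU N ℓ hN).spec γ) (good_cusp f)]
    rfl
  · rw [DSLift.heckeOp_of_not_dvd hℓ hN, MT_of_not_dvd N ℂ ℓ hN, HF.T_apply, charInvolution_apply,
      periodLin_apply]
    simp only [charInvolution_apply, periodLin_apply]
    change symb (jConjSL (γ : SL(2,ℤ))) (heckeT 2 ℓ ⇑f) = ∑ i, symb (jConjSL _) ⇑f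
    have h1 : heckeT 2 ℓ ⇑f = ∑ x : OnePoint (ZMod ℓ), ⇑f ∣[(2 : ℤ)] (J * heckeRep ℓ x * J) := by
      rw [heckeT_eq_heckeU_add, heckeU_eq_sum_zmod, add_comm, ← sum_conj_heckeMatrix]
      have := (Fintype.sum_option (fun x : OnePoint (ZMod ℓ) ↦ ⇑f ∣[(2 : ℤ)] (J * heckeRep ℓ x * J))).symm
      refine Eq.trans ?_ this
      congr 1
      change _ = ⇑f ∣[(2 : ℤ)] (J * heckeDiagMatrix ℓ * J)
      rw [J_heckeDiag_J hℓ.ne_zero]
    rw [h1, hecke_symb_conj (fun x => isUT_rep hℓ.ne_zero x) ((hfT N ℓ hN).spec γ) (good_cusp f)]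
    rfl

lemma periodLin_injective : Function.Injective (periodLin N) := by
  rw [injective_iff_map_eq_zero]
  intro f hf
  have h1 : periodHomPair N (f, 0) = 0 := by
    rw [periodHomPair_apply, hf, map_zero, map_zero, map_zero]
    simp
  have h2 := periodHomPair_injective (h1.trans (map_zero _).symm)
  exact congrArg Prod.fst h2

/-! ### complex homomorphisms are combinations of integral ones -/

lemma exists_int_decomp {Γ : Subgroup SL(2,ℤ)} [Group.FG Γ] {φ : Additive Γ →+ ℂ}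
    (hφ : φ ∈ NHA Γ ℂ) : ∃ (s : ℕ) (a : Fin s → ℂ) (ψ : Fin s → (Additive Γ →+ ℤ)),
      (∀ i, ψ i ∈ NHA Γ ℤ) ∧ ∀ x, φ x = ∑ i, (ψ i x : ℂ) * a i := by
  have h1 : Module.Finite ℤ φ.range := by
    rw [Module.Finite.iff_addGroup_fg]
    have : AddGroup.FG (Additive Γ) := inferInstance
    exact AddGroup.fg_range φ
  have h2 : IsAddTorsionFree φ.range :=
    Function.Injective.isAddTorsionFree φ.range.subtype Subtype.val_injective
  have h3 : Module.Free ℤ φ.range := inferInstance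
  set b := Module.finBasis ℤ φ.range with hb
  refine ⟨_, fun i => (b i : ℂ), fun i =>
    { toFun := fun x => b.repr (φ.rangeRestrict x) i
      map_zero' := by simp
      map_add' := fun x y => by simp }, ?_, ?_⟩
  · intro i γ hγ
    change b.repr (φ.rangeRestrict (Additive.ofMul γ)) i = 0
    have h4 : φ.rangeRestrict (Additive.ofMul γ) = 0 := Subtype.ext (hφ γ hγ)
    rw [h4, map_zero]
    rfl
  · intro x
    have h5 := congrArg (fun y : φ.range => (y : ℂ)) (b.sum_repr (φ.rangeRestrict x))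
    simp only [AddSubgroup.val_finsetSum, AddSubgroup.coe_zsmul] at h5
    change φ x = ∑ i, (((b.repr (φ.rangeRestrict x)) i : ℤ) : ℂ) * (b i : ℂ)
    refine Eq.trans h5.symm ?_
    exact Finset.sum_congr rfl fun i _ => by rw [zsmul_eq_mul]

/-! ### noncommutative polynomials in Hecke operators -/

/-- the index type -/
abbrev PrimeT := {ℓ : ℕ // ℓ.Prime}

variable (N)

/-- action on the lattice -/
def actL : FreeAlgebra ℤ PrimeT →ₐ[ℤ] AddMonoid.End (Lat N) :=
  FreeAlgebra.lift ℤ fun i => LTot N i.1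

/-- action on homomorphisms -/
def actM (M : Type*) [AddCommGroup M] :
    FreeAlgebra ℤ PrimeT →ₐ[ℤ] AddMonoid.End (Additive (Gamma0 N) →+ M) :=
  FreeAlgebra.lift ℤ fun i => MT N M i.1

/-- action on cusp forms -/
def actS : FreeAlgebra ℤ PrimeT →ₐ[ℤ] Module.End ℂ (CuspForm (Gamma0 N) 2) :=
  FreeAlgebra.lift ℤ fun i => DSLift.heckeOp N 2 i.2

variable {N}

lemma actL_ι (i : PrimeT) (φ : Lat N) : actL N (FreeAlgebra.ι ℤ i) φ = LTot N i.1 φ :=
  DFunLike.congr_fun (FreeAlgebra.lift_ι_apply (R := ℤ) (A := AddMonoid.End (Lat N))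
    (fun i : PrimeT => LTot N i.1) i) φ

lemma actM_ι {M : Type*} [AddCommGroup M] (i : PrimeT) (φ : Additive (Gamma0 N) →+ M) :
    actM N M (FreeAlgebra.ι ℤ i) φ = MT N M i.1 φ :=
  DFunLike.congr_fun (FreeAlgebra.lift_ι_apply (R := ℤ)
    (A := AddMonoid.End (Additive (Gamma0 N) →+ M)) (fun i : PrimeT => MT N M i.1) i) φ

lemma actS_ι (i : PrimeT) : actS N (FreeAlgebra.ι ℤ i) = DSLift.heckeOp N 2 i.2 :=
  FreeAlgebra.lift_ι_apply _ _

lemma coe_actL (P : FreeAlgebra ℤ PrimeT) (φ : Lat N) :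
    (actL N P φ : Additive (Gamma0 N) →+ ℤ) = actM N ℤ P (φ : Additive (Gamma0 N) →+ ℤ) := by
  induction P using FreeAlgebra.induction generalizing φ with
  | grade0 c =>
    rw [AlgHom.commutes, AlgHom.commutes, eq_intCast, eq_intCast, AddMonoid.End.intCast_apply,
      AddMonoid.End.intCast_apply]
    rfl
  | grade1 i =>
    rw [actL_ι, actM_ι]
    exact coe_LTot i.1 φ
  | mul P Q hP hQ =>
    rw [map_mul, map_mul]
    change (actL N P (actL N Q φ) : Additive (Gamma0 N) →+ ℤ) = actM N ℤ P (actM N ℤ Q _)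
    rw [hP, hQ]
  | add P Q hP hQ =>
    rw [map_add, map_add]
    change ((actL N P φ + actL N Q φ : Lat N) : Additive (Gamma0 N) →+ ℤ) =
      actM N ℤ P _ + actM N ℤ Q _
    rw [AddSubgroup.coe_add, hP, hQ]

lemma actM_comp {M M' : Type*} [AddCommGroup M] [AddCommGroup M'] (π : M →+ M')
    (P : FreeAlgebra ℤ PrimeT) (φ : Additive (Gamma0 N) →+ M) :
    actM N M' P (π.comp φ) = π.comp (actM N M P φ) := by
  induction P using FreeAlgebra.induction generalizing φ with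
  | grade0 c =>
    rw [AlgHom.commutes, AlgHom.commutes, eq_intCast, eq_intCast, AddMonoid.End.intCast_apply,
      AddMonoid.End.intCast_apply]
    ext x
    simp
  | grade1 i =>
    rw [actM_ι, actM_ι]
    exact MT_comp π φ i.1
  | mul P Q hP hQ =>
    rw [map_mul, map_mul]
    change actM N M' P (actM N M' Q _) = π.comp (actM N M P (actM N M Q φ))
    rw [hQ, hP]
  | add P Q hP hQ =>
    rw [map_add, map_add]
    change actM N M' P _ + actM N M' Q _ = π.comp (actM N M P φ + actM N M Q φ)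
    rw [hP, hQ]
    ext x
    simp

lemma actM_periodLin (P : FreeAlgebra ℤ PrimeT) (f : CuspForm (Gamma0 N) 2) :
    actM N ℂ P (periodLin N f) = periodLin N (actS N P f) := by
  induction P using FreeAlgebra.induction generalizing f with
  | grade0 c =>
    rw [AlgHom.commutes, AlgHom.commutes, eq_intCast, AddMonoid.End.intCast_apply, eq_intCast]
    rw [← Int.cast_smul_eq_zsmul ℂ, ← map_smul, Int.cast_smul_eq_zsmul]
    congr 1
  | grade1 i =>
    rw [actM_ι, actS_ι]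
    exact (symb_heckeOp i.2 f).symm
  | mul P Q hP hQ =>
    rw [map_mul, map_mul, Module.End.mul_apply]
    change actM N ℂ P (actM N ℂ Q _) = _
    rw [hQ, hP]
  | add P Q hP hQ =>
    rw [map_add, map_add]
    change actM N ℂ P _ + actM N ℂ Q _ = periodLin N (actS N P f + actS N Q f)
    rw [hP, hQ, map_add]

lemma actM_conj_periodLin (P : FreeAlgebra ℤ PrimeT) (f : CuspForm (Gamma0 N) 2) :
    actM N ℂ P (charInvolution N ℂ ℂ (periodLin N f)) =
      charInvolution N ℂ ℂ (periodLin N (actS N P f)) := by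
  induction P using FreeAlgebra.induction generalizing f with
  | grade0 c =>
    rw [AlgHom.commutes, AlgHom.commutes, eq_intCast, AddMonoid.End.intCast_apply, eq_intCast]
    rw [← Int.cast_smul_eq_zsmul ℂ, ← map_smul, ← map_smul, Int.cast_smul_eq_zsmul]
    congr 1
  | grade1 i =>
    rw [actM_ι, actS_ι]
    exact (symb_conj_heckeOp i.2 f).symm
  | mul P Q hP hQ =>
    rw [map_mul, map_mul, Module.End.mul_apply]
    change actM N ℂ P (actM N ℂ Q _) = _
    rw [hQ, hP]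
  | add P Q hP hQ =>
    rw [map_add, map_add]
    change actM N ℂ P _ + actM N ℂ Q _ = charInvolution N ℂ ℂ (periodLin N (actS N P f + actS N Q f))
    rw [hP, hQ, map_add, map_add]

/-- multiplication by a complex number -/
def mulC (a : ℂ) : ℤ →+ ℂ := zmultiplesHom ℂ a

lemma mulC_apply (a : ℂ) (m : ℤ) : mulC a m = m * a := by
  rw [mulC, zmultiplesHom_apply, zsmul_eq_mul]

lemma exists_int_decomp' {Γ : Subgroup SL(2,ℤ)} [Group.FG Γ] {φ : Additive Γ →+ ℂ}
    (hφ : φ ∈ NHA Γ ℂ) : ∃ (s : ℕ) (a : Fin s → ℂ) (ψ : Fin s → NHA Γ ℤ),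
      φ = ∑ i, (mulC (a i)).comp (ψ i : Additive Γ →+ ℤ) := by
  obtain ⟨s, a, ψ, hψ, h⟩ := exists_int_decomp hφ
  refine ⟨s, a, fun i => ⟨ψ i, hψ i⟩, ?_⟩
  refine AddMonoidHom.ext fun x => ?_
  rw [h, AddMonoidHom.finsetSum_apply]
  refine Finset.sum_congr rfl fun i _ => ?_
  rw [AddMonoidHom.comp_apply, mulC_apply]

lemma periodLin_mem_NHA (f : CuspForm (Gamma0 N) 2) : periodLin N f ∈ NHA (Gamma0 N) ℂ := by
  intro γ hγ
  refine SL2Pres.eq_zero_of_trace_le (fun γ hγ => ?_) γ ((trace_sq_le_iff _).mpr hγ)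
  exact mem_parabolicHoms_iff.mp (periodLin_mem f) γ hγ

/-- **relations on the lattice hold on cusp forms** -/
theorem actS_eq_zero {P : FreeAlgebra ℤ PrimeT} (h : actL N P = 0) : actS N P = 0 := by
  have h1 : ∀ φ ∈ NHA (Gamma0 N) ℂ, actM N ℂ P φ = 0 := by
    intro φ hφ
    obtain ⟨s, a, ψ, rfl⟩ := exists_int_decomp' hφ
    rw [map_sum]
    refine Finset.sum_eq_zero fun i _ => ?_
    rw [actM_comp, ← coe_actL, h]
    ext x
    exact map_zero (mulC (a i))
  refine LinearMap.ext fun f => periodLin_injective ?_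
  rw [← actM_periodLin, h1 _ (periodLin_mem_NHA f), LinearMap.zero_apply, map_zero]

/-- **relations on cusp forms hold on the lattice** -/
theorem actL_eq_zero {P : FreeAlgebra ℤ PrimeT} (h : actS N P = 0) : actL N P = 0 := by
  have h1 : ∀ φ ∈ NHA (Gamma0 N) ℂ, actM N ℂ P φ = 0 := by
    intro φ hφ
    have h2 : φ ∈ LinearMap.range (periodHomPair N) := by
      rw [(S21.result N).2, mem_parabolicHoms_iff]
      intro γ hγ
      exact hφ γ ((trace_sq_le_iff _).mp hγ.le)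
    obtain ⟨⟨f, g⟩, rfl⟩ := h2
    rw [periodHomPair_apply, map_add, map_add, map_sub, actM_periodLin, actM_periodLin,
      actM_conj_periodLin, actM_conj_periodLin, h]
    simp
  refine AddMonoidHom.ext fun φ => Subtype.ext ((coe_actL P φ).trans ?_)
  change actM N ℤ P φ = 0
  have h3 : actM N ℂ P ((Int.castAddHom ℂ).comp (φ : Additive (Gamma0 N) →+ ℤ)) = 0 := by
    apply h1
    intro γ hγ
    rw [AddMonoidHom.comp_apply, φ.2 γ hγ, map_zero]
  rw [actM_comp] at h3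
  refine AddMonoidHom.ext fun x => ?_
  have h4 : (((actM N ℤ P φ) x : ℤ) : ℂ) = ((0 : ℤ) : ℂ) :=
    (DFunLike.congr_fun h3 x).trans Int.cast_zero.symm
  exact Int.cast_injective h4

theorem actL_eq_zero_iff {P : FreeAlgebra ℤ PrimeT} : actL N P = 0 ↔ actS N P = 0 :=
  ⟨actS_eq_zero, actL_eq_zero⟩

/-! ### matrices -/

section Mat

variable {Λ : Type*} [AddCommGroup Λ] {r : ℕ} (b : Module.Basis (Fin r) ℤ Λ)

/-- the matrix of an endomorphism, as a ring homomorphism -/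
def tmA : AddMonoid.End Λ →+* Matrix (Fin r) (Fin r) ℤ where
  toFun t := KSys.tm b t
  map_one' := by
    ext i j
    change b.repr (b j) i = _
    rw [b.repr_self, Finsupp.single_apply, Matrix.one_apply]
    simp only [eq_comm]
  map_mul' s t := by
    ext i j
    change b.repr (s (t (b j))) i = _
    rw [Matrix.mul_apply]
    have h1 : t (b j) = ∑ l, b.repr (t (b j)) l • b l := (b.sum_repr _).symm
    conv_lhs => rw [h1, map_sum, map_sum, Finsupp.finsetSum_apply]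
    refine Finset.sum_congr rfl fun l _ => ?_
    rw [map_zsmul, map_zsmul, Finsupp.smul_apply, smul_eq_mul, mul_comm]
    rfl
  map_zero' := by
    ext i j
    change b.repr (0 : Λ) i = 0
    rw [map_zero]; rfl
  map_add' s t := by
    ext i j
    change b.repr (s (b j) + t (b j)) i = _
    rw [map_add]; rfl

lemma tmA_apply (t : AddMonoid.End Λ) : tmA b t = KSys.tm b t := rfl

lemma tmA_injective : Function.Injective (tmA b) := by
  intro s t h
  have h1 : ∀ j, s (b j) = t (b j) := by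
    intro j
    apply b.repr.injective
    ext i
    exact congrFun (congrFun h i) j
  have h2 : AddMonoidHom.toIntLinearMap s = AddMonoidHom.toIntLinearMap t := b.ext h1
  exact AddMonoidHom.ext fun x => DFunLike.congr_fun h2 x

lemma lift_tm {r : ℕ} (b : Module.Basis (Fin r) ℤ (Lat N)) {J : Type*} (t : J → PrimeT)
    (Q : FreeAlgebra ℤ J) : FreeAlgebra.lift ℤ (fun i => KSys.tm b (LTot N (t i).1)) Q =
      tmA b (actL N (FreeAlgebra.lift ℤ (fun i => FreeAlgebra.ι ℤ (t i)) Q)) := by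
  induction Q using FreeAlgebra.induction with
  | grade0 c =>
    rw [AlgHom.commutes, AlgHom.commutes, AlgHom.commutes, eq_intCast, eq_intCast, map_intCast]
  | grade1 i =>
    rw [FreeAlgebra.lift_ι_apply, FreeAlgebra.lift_ι_apply]
    have h2 : actL N (FreeAlgebra.ι ℤ (t i)) = LTot N (t i).1 :=
      AddMonoidHom.ext fun φ => actL_ι _ φ
    rw [h2]
    rfl
  | mul P Q hP hQ => rw [map_mul, map_mul, map_mul, map_mul, hP, hQ]
  | add P Q hP hQ => rw [map_add, map_add, map_add, map_add, hP, hQ]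

end Mat

variable {p : ℕ} [Fact p.Prime]

/-- **the Hecke-Galois data are linked** -/
theorem hdata_link (H : ESHyp N p) : (hdata N p H).Link := by
  intro P hP
  have h1 := lift_tm (bL N) (fun i : {ℓ : ℕ // ℓ.Prime ∧ ¬ ℓ ∣ N * p} => (⟨i.1, i.2.1⟩ : PrimeT)) P
  set m : FreeAlgebra ℤ {ℓ : ℕ // ℓ.Prime ∧ ¬ ℓ ∣ N * p} →ₐ[ℤ] FreeAlgebra ℤ PrimeT :=
    FreeAlgebra.lift ℤ (fun i => FreeAlgebra.ι ℤ ⟨i.1, i.2.1⟩) with hm
  have h3 : (actS N).comp m = FreeAlgebra.lift ℤ (fun i : {ℓ : ℕ // ℓ.Prime ∧ ¬ ℓ ∣ N * p} =>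
      (CuspForm.heckeTLin 2 i.2.1 (fun h => i.2.2 (h.mul_right p)) :
        Module.End ℂ (CuspForm (CongruenceSubgroup.Gamma0 N) 2))) := by
    apply FreeAlgebra.hom_ext
    funext i
    simp only [Function.comp_apply, AlgHom.comp_apply, m, FreeAlgebra.lift_ι_apply]
    rw [actS_ι, DSLift.heckeOp_of_not_dvd]
  have h4 : tmA (bL N) (actL N (m P)) = 0 := h1.symm.trans hP
  have h5 : actL N (m P) = 0 := tmA_injective (bL N) (h4.trans (map_zero (tmA (bL N))).symm)
  rw [← h3, AlgHom.comp_apply, actS_eq_zero h5]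

end Fermat.Agent.AnJac
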