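import Fermat.Agent.AnJac.Cosets
import Fermat.Agent.EichlerShimura.Functional
import Fermat.Agent.Gamma0Comb.Index
import Fermat.Agent.ModFun.BaseChange
import Fermat.Agent.ModFun.Twist
import Fermat.Prelude.Def_ModularForm_HeckeOperator

/-!
Composition of functions of moderate growth with integral matrices.
-/

set_option autoImplicit false
set_option linter.unusedSectionVars false

open UpperHalfPlane ModularForm MatrixGroups Matrix.SpecialLinearGroup Filter Function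
open scoped Manifold Topology Real

noncomputable section

namespace Fermat.Agent.AnJac

open Fermat.Agent.DimS2 Fermat.Agent.ModFun CongruenceSubgroup

/-- moderate growth at all cusps -/
def MGA (f : ℍ → ℂ) : Prop := ∀ δ : SL(2,ℤ), MG (fun τ => f (δ • τ))

lemma im_upper {B : GL (Fin 2) ℝ} (hB0 : B 1 0 = 0) (τ : ℍ) :
    (B • τ).im = |B.det.val| / (B 1 1) ^ 2 * τ.im := by
  rw [UpperHalfPlane.im_smul_eq_div_normSq]
  have : denom B τ = (B 1 1 : ℂ) := by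
    simp [denom, hB0]
  rw [this, Complex.normSq_ofReal]
  ring

lemma upper_pos {B : GL (Fin 2) ℝ} (hB : 0 < B.det.val) (hB0 : B 1 0 = 0) :
    0 < |B.det.val| / (B 1 1) ^ 2 := by
  have h1 : B 1 1 ≠ 0 := by
    intro h
    have : B.det.val = 0 := by
      rw [Matrix.GeneralLinearGroup.val_det_apply, Matrix.det_fin_two, hB0, h]
      ring
    rw [this] at hB
    exact lt_irrefl _ hB
  have : 0 < (B 1 1) ^ 2 := by positivity
  positivity

lemma tendsto_upper {B : GL (Fin 2) ℝ} (hB : 0 < B.det.val) (hB0 : B 1 0 = 0) :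
    Tendsto (fun τ : ℍ => B • τ) atImInfty atImInfty := by
  rw [atImInfty, tendsto_comap_iff]
  have : UpperHalfPlane.im ∘ (fun τ : ℍ => B • τ) =
      fun τ : ℍ => |B.det.val| / (B 1 1) ^ 2 * τ.im := by
    funext τ; exact im_upper hB0 τ
  rw [this]
  exact (tendsto_comap).const_mul_atTop (upper_pos hB hB0)

lemma MG.comp_upper {f : ℍ → ℂ} (hf : MG f) {B : GL (Fin 2) ℝ} (hB : 0 < B.det.val)
    (hB0 : B 1 0 = 0) : MG (fun τ => f (B • τ)) := by
  obtain ⟨m, hm⟩ := hf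
  obtain ⟨m', hm'⟩ := exists_nat_ge (m * (|B.det.val| / (B 1 1) ^ 2))
  refine ⟨m', ?_⟩
  have h1 := hm.comp_tendsto (tendsto_upper hB hB0)
  have h2 : ((fun τ : ℍ => Real.exp (2 * π * m * τ.im)) ∘ fun τ : ℍ => B • τ) =
      fun τ : ℍ => Real.exp (2 * π * (m * (|B.det.val| / (B 1 1) ^ 2)) * τ.im) := by
    funext τ
    simp only [comp_apply]
    rw [im_upper hB0]
    congr 1
    ring
  rw [h2] at h1
  exact h1.trans (exp_isBigO hm')

/-- integral matrices -/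
def IsInt (A : GL (Fin 2) ℝ) : Prop :=
  ∃ M : Matrix (Fin 2) (Fin 2) ℤ, (A : Matrix (Fin 2) (Fin 2) ℝ) = M.map (Int.cast)

lemma SL_smul_eq (g : SL(2,ℤ)) (τ : ℍ) : g • τ = (g : GL (Fin 2) ℝ) • τ := rfl

lemma MGA.comp_int {f : ℍ → ℂ} (hf : MGA f) {A : GL (Fin 2) ℝ} (hA : 0 < A.det.val)
    (hint : IsInt A) : MGA (fun τ => f (A • τ)) := by
  intro δ
  obtain ⟨δ', B, hB, hB0, h⟩ := EichlerShimura.exists_decomp hA hint δ
  refine ((hf δ').comp_upper hB hB0).congr fun τ => ?_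
  have : A • (δ • τ) = δ' • (B • τ) := by
    rw [SL_smul_eq, SL_smul_eq, ← mul_smul, ← mul_smul, h]
  exact congrArg f this.symm

lemma MGA.mul {f g : ℍ → ℂ} (hf : MGA f) (hg : MGA g) : MGA (f * g) :=
  fun δ => (hf δ).mul (hg δ)

lemma MGA.prod {ι : Type*} (s : Finset ι) {f : ι → ℍ → ℂ} (hf : ∀ i ∈ s, MGA (f i)) :
    MGA (∏ i ∈ s, f i) := by
  classical
  induction s using Finset.induction_on with
  | empty => exact fun δ => mg_const 1
  | insert a s ha ih =>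
    rw [Finset.prod_insert ha]
    exact (hf a (Finset.mem_insert_self _ _)).mul (ih fun i hi => hf i (Finset.mem_insert_of_mem hi))

lemma IsA.mga {N : ℕ} {f : ℍ → ℂ} (hf : IsA N f) : MGA f := hf.mg

lemma conj_T_mem_Gamma (N : ℕ) (δ : SL(2,ℤ)) : δ * ModularGroup.T ^ N * δ⁻¹ ∈ Gamma N := by
  have h1 : ModularGroup.T ^ N ∈ CongruenceSubgroup.Gamma N := by
    have := CongruenceSubgroup.ModularGroup_T_pow_mem_Gamma (N : ℤ) (N : ℤ) dvd_rfl
    simpa using this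
  exact (CongruenceSubgroup.Gamma_normal N).conj_mem _ h1 δ

lemma Gamma_le_Gamma0 (N : ℕ) : Gamma N ≤ Gamma0 N := by
  intro γ hγ
  rw [CongruenceSubgroup.Gamma0_mem]
  exact (CongruenceSubgroup.Gamma_mem.mp hγ).2.2.1

lemma trace_conj (δ g : SL(2,ℤ)) : (δ * g * δ⁻¹) 0 0 + (δ * g * δ⁻¹) 1 1 = g 0 0 + g 1 1 := by
  have h : ∀ A : SL(2,ℤ), (A 0 0 : ℤ) + A 1 1 = Matrix.trace (A : Matrix (Fin 2) (Fin 2) ℤ) := by
    intro A
    rw [Matrix.trace_fin_two]
  rw [h, h]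
  rw [Matrix.SpecialLinearGroup.coe_mul, Matrix.trace_mul_comm, ← Matrix.SpecialLinearGroup.coe_mul]
  have : δ⁻¹ * (δ * g) = g := by group
  rw [this]

lemma IsNH.conj_T {N : ℕ} {M : Type*} [Monoid M] {χ : Gamma0 N →* M} (h : IsNH χ) (δ : SL(2,ℤ)) :
    χ ⟨δ * ModularGroup.T ^ N * δ⁻¹, Gamma_le_Gamma0 N (conj_T_mem_Gamma N δ)⟩ = 1 := by
  apply h
  rw [trace_conj]
  have := ModularGroup.coe_T_zpow (N : ℤ)
  rw [zpow_natCast] at this
  rw [this]
  simp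

/-- constructor for `IsX` -/
lemma IsX.of {N : ℕ} {χ : Gamma0 N →* ℂˣ} (hχ : IsNH χ) {f : ℍ → ℂ} (h1 : MDiff f)
    (h2 : ∀ (γ : Gamma0 N) (τ : ℍ), f ((γ : SL(2,ℤ)) • τ) = χ γ * f τ) (h3 : MGA f) :
    IsX N χ f := by
  refine ⟨⟨h1, fun δ τ => ?_, h3⟩, h2⟩
  have h4 := h2 ⟨δ * ModularGroup.T ^ N * δ⁻¹, Gamma_le_Gamma0 N (conj_T_mem_Gamma N δ)⟩ (δ • τ)
  rw [hχ.conj_T, Units.val_one, one_mul] at h4
  rw [← h4]
  congr 1
  simp only [← mul_smul]
  congr 1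
  group

lemma jfun_mdiff : MDiff jfun := by
  have h : jfun = ef (ModularCurve.jqModC ℂ) := by
    funext τ; exact (evf_jqModC τ).symm
  rw [h]
  exact ef_mdiff jqModC_mem_convLaurent

lemma jfun_mga : MGA jfun := by
  intro δ
  have h : jfun = ef (ModularCurve.jqModC ℂ) := by
    funext τ; exact (evf_jqModC τ).symm
  have h1 : MG jfun := h ▸ ef_mg jqModC_mem_convLaurent
  exact h1.congr fun τ => (jfun_smul δ τ).symm

/-- level one functions -/
lemma isX_of_level_one (N : ℕ) {f : ℍ → ℂ} (hf : IsP f) (hS : ∀ g : SL(2,ℤ), ∀ τ, f (g • τ) = f τ) :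
    IsX N 1 f :=
  IsX.of isNH_one hf.mdiff (fun γ τ => by rw [hS]; simp) (fun δ => hf.mg.congr fun τ => (hS δ τ).symm)

lemma isX_jfun (N : ℕ) : IsX N 1 jfun :=
  IsX.of isNH_one jfun_mdiff (fun γ τ => by rw [jfun_smul]; simp) jfun_mga

lemma lser_jfun : lser jfun = ModularCurve.jqModC ℂ := by
  have h : jfun = ef (ModularCurve.jqModC ℂ) := by
    funext τ; exact (evf_jqModC τ).symm
  rw [h, lser_ef jqModC_mem_convLaurent]

lemma isInt_heckeDiag {d : ℕ} (hd : d ≠ 0) : IsInt (heckeDiagMatrix d) := by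
  refine ⟨!![(d : ℤ), 0; 0, 1], ?_⟩
  rw [val_heckeDiagMatrix hd]
  ext i j
  fin_cases i <;> fin_cases j <;> simp

lemma isInt_hecke {d : ℕ} (hd : d ≠ 0) (j : ℕ) : IsInt (heckeMatrix d j) := by
  refine ⟨!![1, (j : ℤ); 0, (d : ℤ)], ?_⟩
  rw [val_heckeMatrix hd]
  ext i j
  fin_cases i <;> fin_cases j <;> simp

lemma mdiff_comp_GL {f : ℍ → ℂ} (hf : MDiff f) {A : GL (Fin 2) ℝ} (hA : 0 < A.det.val) :
    MDiff (fun τ => f (A • τ)) := hf.comp (mdifferentiable_smul hA)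

/-- dilation by a divisor of the level -/
lemma isX_diag {N d : ℕ} (hN : N ≠ 0) (hd : d ∣ N) {f : ℍ → ℂ} (hf : IsP f)
    (hS : ∀ g : SL(2,ℤ), ∀ τ, f (g • τ) = f τ) :
    IsX N 1 (fun τ => f (heckeDiagMatrix d • τ)) := by
  have hd0 : d ≠ 0 := fun h => hN (by rw [h, zero_dvd_iff] at hd; exact hd)
  refine IsX.of isNH_one (mdiff_comp_GL hf.mdiff (det_heckeDiagMatrix_pos d)) (fun γ τ => ?_)
    (MGA.comp_int (fun δ => hf.mg.congr fun τ => (hS δ τ).symm) (det_heckeDiagMatrix_pos d)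
      (isInt_heckeDiag hd0))
  rw [MonoidHom.one_apply, Units.val_one, one_mul]
  have hγ := γ.2
  rw [Gamma0_mem, ZMod.intCast_zmod_eq_zero_iff_dvd] at hγ
  obtain ⟨c, hc⟩ : (d : ℤ) ∣ (γ : SL(2,ℤ)) 1 0 := (Int.natCast_dvd_natCast.mpr hd).trans hγ
  have hdet := Matrix.SpecialLinearGroup.det_coe (γ : SL(2,ℤ))
  rw [Matrix.det_fin_two] at hdet
  let g : SL(2,ℤ) := ⟨!![(γ : SL(2,ℤ)) 0 0, d * (γ : SL(2,ℤ)) 0 1; c, (γ : SL(2,ℤ)) 1 1], by
    rw [Matrix.det_fin_two_of]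
    rw [hc] at hdet
    linear_combination hdet⟩
  have h1 : heckeDiagMatrix d • ((γ : SL(2,ℤ)) • τ) = g • (heckeDiagMatrix d • τ) := by
    apply UpperHalfPlane.ext
    rw [coe_heckeDiagMatrix_smul hd0, UpperHalfPlane.coe_specialLinearGroup_apply,
      UpperHalfPlane.coe_specialLinearGroup_apply, coe_heckeDiagMatrix_smul hd0]
    have e00 : g 0 0 = (γ : SL(2,ℤ)) 0 0 := rfl
    have e01 : g 0 1 = d * (γ : SL(2,ℤ)) 0 1 := rfl
    have e10 : g 1 0 = c := rfl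
    have e11 : g 1 1 = (γ : SL(2,ℤ)) 1 1 := rfl
    simp only [algebraMap_int_eq, Int.coe_castRingHom, Complex.ofReal_intCast, e00, e01, e10, e11, hc]
    push_cast
    ring
  rw [h1, hS]

lemma lser_diag {d : ℕ} [NeZero d] {f : ℍ → ℂ} (hf : IsP f) :
    IsP (fun τ => f (heckeDiagMatrix d • τ)) ∧
      lser (fun τ => f (heckeDiagMatrix d • τ)) = ModularCurve.qExpand ℂ d (lser f) := by
  have h1 : (fun τ => f (heckeDiagMatrix d • τ)) = ef (ModularCurve.qExpand ℂ d (lser f)) := by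
    funext τ
    have hd0 : d ≠ 0 := NeZero.ne d
    rw [ef, evf_qExpand]
    have h2 : (Periodic.qParam 1 τ) ^ d = Periodic.qParam 1 (heckeDiagMatrix d • τ : ℍ) := by
      rw [coe_heckeDiagMatrix_smul hd0]
      simp only [Periodic.qParam]
      rw [← Complex.exp_nat_mul]
      congr 1
      ring
    rw [h2]
    exact (congrFun hf.ef_lser _).symm
  have h2 := qExpand_mem_convLaurent d hf.lser_mem
  rw [h1]
  exact ⟨isP_ef h2, lser_ef h2⟩

end Fermat.Agent.AnJac
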