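import Mathlib

/-!
`n`-th roots of holomorphic functions on the unit disc all of whose orders are divisible by `n`.
-/

set_option autoImplicit false

open Metric Complex Filter Topology Set

namespace Fermat.Agent.AnJac

theorem exists_log_ball {c : ℂ} {R : ℝ} {g : ℂ → ℂ} (hR : 0 < R)
    (hg : DifferentiableOn ℂ g (ball c R)) (h0 : ∀ z ∈ ball c R, g z ≠ 0) :
    ∃ L : ℂ → ℂ, DifferentiableOn ℂ L (ball c R) ∧ ∀ z ∈ ball c R, Complex.exp (L z) = g z := by
  have hd : DifferentiableOn ℂ (fun z => deriv g z / g z) (ball c R) :=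
    (hg.deriv isOpen_ball).div hg h0
  obtain ⟨L, hLc, hL⟩ := hd.isExactOn_ball.with_val_at c (Complex.log (g c))
  refine ⟨L, fun z hz => (hL z hz).differentiableAt.differentiableWithinAt, ?_⟩
  have hcb : c ∈ ball c R := mem_ball_self hR
  -- the quotient is constant
  have key : ∀ z ∈ ball c R, Complex.exp (-L z) * g z = Complex.exp (-L c) * g c := by
    intro z hz
    refine (convex_ball c R).is_const_of_fderivWithin_eq_zero (𝕜 := ℂ)
      (f := fun z => Complex.exp (-L z) * g z) ?_ ?_ hz hcb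
    · intro w hw
      exact ((((hL w hw).differentiableAt.neg).cexp).mul
        (hg.differentiableAt (isOpen_ball.mem_nhds hw))).differentiableWithinAt
    · intro w hw
      have hgw : HasDerivAt g (deriv g w) w :=
        (hg.differentiableAt (isOpen_ball.mem_nhds hw)).hasDerivAt
      have h1 : HasDerivAt (fun z => Complex.exp (-L z) * g z)
          (Complex.exp (-L w) * (-(deriv g w / g w)) * g w + Complex.exp (-L w) * deriv g w) w :=
        ((hL w hw).neg.cexp).mul hgw
      have h2 : Complex.exp (-L w) * (-(deriv g w / g w)) * g w + Complex.exp (-L w) * deriv g w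
          = 0 := by
        have := h0 w hw
        field_simp
        ring
      rw [h2] at h1
      rw [fderivWithin_eq_fderiv (isOpen_ball.uniqueDiffWithinAt hw) h1.differentiableAt]
      ext
      simp [h1.deriv]
  intro z hz
  have h1 := key z hz
  rw [hLc, Complex.exp_neg (Complex.log _), Complex.exp_log (h0 c hcb),
    inv_mul_cancel₀ (h0 c hcb), Complex.exp_neg] at h1
  have h2 := Complex.exp_ne_zero (L z)
  field_simp at h1
  exact h1.symm

theorem exists_root_ball {c : ℂ} {R : ℝ} {g : ℂ → ℂ} (hR : 0 < R) {n : ℕ} (hn : n ≠ 0)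
    (hg : DifferentiableOn ℂ g (ball c R)) (h0 : ∀ z ∈ ball c R, g z ≠ 0) :
    ∃ G : ℂ → ℂ, DifferentiableOn ℂ G (ball c R) ∧ ∀ z ∈ ball c R, G z ^ n = g z := by
  obtain ⟨L, hL, hLe⟩ := exists_log_ball hR hg h0
  refine ⟨fun z => Complex.exp (L z / n), (hL.div_const _).cexp, fun z hz => ?_⟩
  have hn' : (n : ℂ) ≠ 0 := by exact_mod_cast hn
  rw [← Complex.exp_nat_mul, mul_div_cancel₀ _ hn', hLe z hz]

/-- two `n`-th roots which agree at a point where they do not vanish agree everywhere -/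
theorem root_unique {U : Set ℂ} (hU : IsOpen U) (hU' : IsPreconnected U) {A B : ℂ → ℂ} {n : ℕ}
    (hn : n ≠ 0) (hA : DifferentiableOn ℂ A U) (hB : DifferentiableOn ℂ B U)
    (hAB : ∀ z ∈ U, A z ^ n = B z ^ n) {z₀ : ℂ} (hz₀ : z₀ ∈ U) (h : A z₀ = B z₀)
    (h0 : A z₀ ≠ 0) : EqOn A B U := by
  have hAa : AnalyticOnNhd ℂ A U := hA.analyticOnNhd hU
  have hBa : AnalyticOnNhd ℂ B U := hB.analyticOnNhd hU
  refine hAa.eqOn_of_preconnected_of_eventuallyEq hBa hU' hz₀ ?_
  have hS : ContinuousAt (fun z => ∑ i ∈ Finset.range n, A z ^ i * B z ^ (n - 1 - i)) z₀ := by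
    refine tendsto_finsetSum _ fun i _ => ?_
    exact ((hA.continuousOn.continuousAt (hU.mem_nhds hz₀)).pow _).mul
      ((hB.continuousOn.continuousAt (hU.mem_nhds hz₀)).pow _)
  have hS0 : (∑ i ∈ Finset.range n, A z₀ ^ i * B z₀ ^ (n - 1 - i)) ≠ 0 := by
    rw [← h]
    have : ∀ i ∈ Finset.range n, A z₀ ^ i * A z₀ ^ (n - 1 - i) = A z₀ ^ (n - 1) := by
      intro i hi
      rw [← pow_add]
      congr 1
      have := Finset.mem_range.mp hi
      omega
    rw [Finset.sum_congr rfl this, Finset.sum_const, Finset.card_range, nsmul_eq_mul]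
    exact mul_ne_zero (by exact_mod_cast hn) (pow_ne_zero _ h0)
  filter_upwards [hS.eventually_ne hS0, hU.mem_nhds hz₀] with z hz hzU
  have h1 := hAB z hzU
  have h2 : (A z - B z) * (∑ i ∈ Finset.range n, A z ^ i * B z ^ (n - 1 - i)) = 0 := by
    rw [mul_comm, Commute.geom_sum₂_mul (Commute.all _ _), h1, sub_self]
  rcases mul_eq_zero.mp h2 with h3 | h3
  · exact sub_eq_zero.mp h3
  · exact absurd h3 hz

/-- roots on a smaller ball -/
theorem exists_root_small {f : ℂ → ℂ} {n : ℕ} (hn : n ≠ 0)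
    (hf : DifferentiableOn ℂ f (ball 0 1)) (h00 : f 0 ≠ 0)
    (hdvd : ∀ z ∈ ball (0:ℂ) 1, n ∣ analyticOrderNatAt f z) {r : ℝ} (hr0 : 0 < r) (hr : r < 1) :
    ∃ G : ℂ → ℂ, DifferentiableOn ℂ G (ball 0 r) ∧ ∀ z ∈ ball (0:ℂ) r, G z ^ n = f z := by
  have hfa : AnalyticOnNhd ℂ f (ball 0 1) := hf.analyticOnNhd isOpen_ball
  have hsub : closedBall (0:ℂ) r ⊆ ball 0 1 := closedBall_subset_ball hr
  have htop : ∀ z ∈ ball (0:ℂ) 1, analyticOrderAt f z ≠ ⊤ := by
    intro z hz
    refine AnalyticOnNhd.analyticOrderAt_ne_top_of_isPreconnected (x := 0) hfa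
      (convex_ball _ _).isPreconnected (mem_ball_self one_pos) hz ?_
    intro h
    exact h00 (analyticOrderAt_eq_top.mp h).self_of_nhds
  have hmer : MeromorphicOn f (closedBall 0 r) := fun z hz => (hfa z (hsub hz)).meromorphicAt
  have hmo : ∀ z ∈ closedBall (0:ℂ) r, meromorphicOrderAt f z = (analyticOrderNatAt f z : ℤ) := by
    intro z hz
    rw [(hfa z (hsub hz)).meromorphicOrderAt_eq, ← Nat.cast_analyticOrderNatAt (htop z (hsub hz))]
    rfl
  have hfin : (MeromorphicOn.divisor f (closedBall (0:ℂ) r)).support.Finite :=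
    Function.locallyFinsuppWithin.finiteSupport _ (isCompact_closedBall _ _)
  obtain ⟨g, hg, hg0, hfg⟩ := MeromorphicOn.extract_zeros_poles hmer
    (fun u => by rw [hmo u u.2]; exact WithTop.coe_ne_top) hfin
  obtain ⟨G, hG, hGn⟩ := exists_root_ball hr0 hn
    (fun z hz => (hg z (ball_subset_closedBall hz)).differentiableAt.differentiableWithinAt)
    (fun z hz => hg0 ⟨z, ball_subset_closedBall hz⟩)
  have hD : ∀ u, MeromorphicOn.divisor f (closedBall (0:ℂ) r) u =
      n * (((MeromorphicOn.divisor f (closedBall (0:ℂ) r) u).toNat / n : ℕ) : ℤ) := by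
    intro u
    by_cases hu : u ∈ closedBall (0:ℂ) r
    · rw [MeromorphicOn.divisor_apply hmer hu, hmo u hu]
      have := Nat.mul_div_cancel' (hdvd u (hsub hu))
      simp only [WithTop.untop₀_coe, Int.toNat_natCast]
      exact_mod_cast this.symm
    · rw [Function.locallyFinsuppWithin.apply_eq_zero_of_notMem _ hu]
      simp
  set e : ℂ → ℕ := fun u => (MeromorphicOn.divisor f (closedBall (0:ℂ) r) u).toNat / n with he
  have hprod : (∏ᶠ u, (fun z : ℂ => z - u) ^ (MeromorphicOn.divisor f (closedBall (0:ℂ) r) u)) =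
      fun z => (∏ u ∈ hfin.toFinset, (z - u) ^ e u) ^ n := by
    rw [finprod_eq_prod_of_mulSupport_subset (s := hfin.toFinset)]
    · ext z
      rw [Finset.prod_apply, ← Finset.prod_pow]
      refine Finset.prod_congr rfl fun u _ => ?_
      rw [Pi.pow_apply, hD u]
      rw [← pow_mul, mul_comm (e u) n]
      have : ((n : ℤ) * ((e u : ℕ) : ℤ)) = ((n * e u : ℕ) : ℤ) := by push_cast; ring
      rw [this, zpow_natCast]
    · intro u hu
      simp only [Finite.coe_toFinset, Function.mem_support]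
      intro h
      apply hu
      simp only [h, zpow_zero]
  rw [hprod] at hfg
  refine ⟨fun z => (∏ u ∈ hfin.toFinset, (z - u) ^ e u) * G z, ?_, ?_⟩
  · refine DifferentiableOn.mul ?_ hG
    refine Differentiable.differentiableOn ?_
    have : (fun z : ℂ => ∏ u ∈ hfin.toFinset, (z - u) ^ e u) =
        fun z => (∏ u ∈ hfin.toFinset, (Polynomial.X - Polynomial.C u) ^ e u).eval z := by
      ext z
      simp [Polynomial.eval_prod]
    rw [this]
    exact Polynomial.differentiable _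
  · intro z hz
    -- both sides continuous, equal on a punctured neighbourhood
    have hcont1 : ContinuousAt (fun z => ((∏ u ∈ hfin.toFinset, (z - u) ^ e u) * G z) ^ n) z := by
      refine ContinuousAt.pow (ContinuousAt.mul ?_ (hG.continuousOn.continuousAt
        (isOpen_ball.mem_nhds hz))) _
      exact Continuous.continuousAt (by fun_prop)
    have hcont2 : ContinuousAt f z := (hfa z (hsub (ball_subset_closedBall hz))).continuousAt
    have hev : ∀ᶠ w in 𝓝[≠] z, ((∏ u ∈ hfin.toFinset, (w - u) ^ e u) * G w) ^ n = f w := by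
      have h1 : ∀ᶠ w in 𝓝[closedBall 0 r \ {z}] z, f w =
          ((fun z => (∏ u ∈ hfin.toFinset, (z - u) ^ e u) ^ n) • g) w := by
        have := mem_codiscreteWithin.mp hfg z (ball_subset_closedBall hz)
        have h2 := Filter.disjoint_principal_right.mp this
        have h3 : 𝓝[closedBall 0 r \ {z}] z = 𝓝[≠] z := by
          rw [show closedBall (0:ℂ) r \ {z} = closedBall 0 r ∩ {z}ᶜ from rfl,
            nhdsWithin_inter_of_mem]
          exact mem_nhdsWithin_of_mem_nhds
            (mem_of_superset (isOpen_ball.mem_nhds hz) ball_subset_closedBall)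
        rw [h3]
        filter_upwards [h2, mem_nhdsWithin_of_mem_nhds (isOpen_ball.mem_nhds hz)] with w hw hwb
        by_contra hcon
        exact hw ⟨ball_subset_closedBall hwb, hcon⟩
      have h3 : 𝓝[closedBall 0 r \ {z}] z = 𝓝[≠] z := by
        rw [show closedBall (0:ℂ) r \ {z} = closedBall 0 r ∩ {z}ᶜ from rfl,
          nhdsWithin_inter_of_mem]
        exact mem_nhdsWithin_of_mem_nhds
          (mem_of_superset (isOpen_ball.mem_nhds hz) ball_subset_closedBall)
      rw [h3] at h1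
      filter_upwards [h1, mem_nhdsWithin_of_mem_nhds (isOpen_ball.mem_nhds hz)] with w hw hwb
      rw [hw, Pi.smul_apply', smul_eq_mul, mul_pow, hGn w hwb]
    exact tendsto_nhds_unique (hcont1.continuousWithinAt.tendsto.congr' hev)
      (hcont2.continuousWithinAt.tendsto)

theorem exists_root_unitDisc {f : ℂ → ℂ} {n : ℕ} (hn : n ≠ 0)
    (hf : DifferentiableOn ℂ f (ball 0 1)) (h00 : f 0 ≠ 0)
    (hdvd : ∀ z ∈ ball (0:ℂ) 1, n ∣ analyticOrderNatAt f z) :
    ∃ G : ℂ → ℂ, DifferentiableOn ℂ G (ball 0 1) ∧ ∀ z ∈ ball (0:ℂ) 1, G z ^ n = f z := by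
  obtain ⟨s, hs⟩ := IsAlgClosed.exists_pow_nat_eq (f 0) (Nat.pos_of_ne_zero hn)
  have hs0 : s ≠ 0 := by
    rintro rfl
    rw [zero_pow hn] at hs
    exact h00 hs.symm
  have h1 : ∀ k : ℕ, ∃ G : ℂ → ℂ, DifferentiableOn ℂ G (ball 0 (1 - 1 / (k + 2 : ℝ))) ∧
      (∀ z ∈ ball (0:ℂ) (1 - 1 / (k + 2 : ℝ)), G z ^ n = f z) ∧ G 0 = s := by
    intro k
    have hk : (0:ℝ) < 1 - 1 / (k + 2 : ℝ) := by
      rw [sub_pos, div_lt_one (by positivity)]
      have : (0:ℝ) ≤ k := Nat.cast_nonneg k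
      linarith
    obtain ⟨G, hG, hGn⟩ := exists_root_small hn hf h00 hdvd hk (by
      have : (0:ℝ) < 1 / (k + 2 : ℝ) := by positivity
      linarith)
    have hG0 : G 0 ^ n = s ^ n := by rw [hGn 0 (mem_ball_self hk), hs]
    have hG00 : G 0 ≠ 0 := by
      intro h
      rw [h, zero_pow hn] at hG0
      exact pow_ne_zero n hs0 hG0.symm
    refine ⟨fun z => (s / G 0) * G z, hG.const_mul _, fun z hz => ?_, ?_⟩
    · rw [mul_pow, hGn z hz, div_pow, hG0, div_self (pow_ne_zero _ hs0), one_mul]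
    · field_simp
  choose G hG hGn hG0 using h1
  have hmono : ∀ k l : ℕ, k ≤ l → (1 - 1 / (k + 2 : ℝ)) ≤ 1 - 1 / (l + 2 : ℝ) := by
    intro k l hkl
    have : (k:ℝ) ≤ l := by exact_mod_cast hkl
    have : 1 / (l + 2 : ℝ) ≤ 1 / (k + 2 : ℝ) := by
      apply one_div_le_one_div_of_le (by positivity)
      linarith
    linarith
  have hpos : ∀ k : ℕ, (0:ℝ) < 1 - 1 / (k + 2 : ℝ) := by
    intro k
    rw [sub_pos, div_lt_one (by positivity)]
    have : (0:ℝ) ≤ k := Nat.cast_nonneg k
    linarith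
  have hagree : ∀ k l : ℕ, k ≤ l → EqOn (G k) (G l) (ball 0 (1 - 1 / (k + 2 : ℝ))) := by
    intro k l hkl
    have hs := ball_subset_ball (x := (0:ℂ)) (hmono k l hkl)
    refine root_unique isOpen_ball (convex_ball _ _).isPreconnected hn (hG k) ((hG l).mono hs)
      (fun z hz => by rw [hGn k z hz, hGn l z (hs hz)]) (mem_ball_self (hpos k)) ?_ ?_
    · rw [hG0, hG0]
    · rw [hG0]; exact hs0
  have hex : ∀ z ∈ ball (0:ℂ) 1, ∃ k : ℕ, z ∈ ball (0:ℂ) (1 - 1 / (k + 2 : ℝ)) := by
    intro z hz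
    rw [mem_ball_zero_iff] at hz
    obtain ⟨k, hk⟩ := exists_nat_one_div_lt (sub_pos.mpr hz)
    refine ⟨k, ?_⟩
    rw [mem_ball_zero_iff]
    have : 1 / (k + 2 : ℝ) ≤ 1 / (k + 1 : ℝ) := by
      apply one_div_le_one_div_of_le (by positivity)
      linarith
    linarith
  classical
  let kk : ℂ → ℕ := fun z => if h : ∃ k : ℕ, z ∈ ball (0:ℂ) (1 - 1 / (k + 2 : ℝ)) then h.choose else 0
  have hkk : ∀ z ∈ ball (0:ℂ) 1, z ∈ ball (0:ℂ) (1 - 1 / (kk z + 2 : ℝ)) := by
    intro z hz
    simp only [kk]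
    rw [dif_pos (hex z hz)]
    exact (hex z hz).choose_spec
  have hval : ∀ z ∈ ball (0:ℂ) 1, ∀ l : ℕ, z ∈ ball (0:ℂ) (1 - 1 / (l + 2 : ℝ)) →
      G (kk z) z = G l z := by
    intro z hz l hl
    rcases le_total (kk z) l with h | h
    · exact hagree _ _ h (hkk z hz)
    · exact (hagree _ _ h hl).symm
  refine ⟨fun z => G (kk z) z, ?_, fun z hz => hGn _ z (hkk z hz)⟩
  intro z hz
  have h1 := hkk z hz
  have h2 : DifferentiableAt ℂ (G (kk z)) z := (hG _).differentiableAt (isOpen_ball.mem_nhds h1)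
  refine (h2.congr_of_eventuallyEq ?_).differentiableWithinAt
  filter_upwards [isOpen_ball.mem_nhds h1, isOpen_ball.mem_nhds hz] with w hw hw1
  exact hval w hw1 _ hw

end Fermat.Agent.AnJac
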