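import Fermat.Agent.AnJac.Basic

/-!
Existence of orders at points and cusps.
-/

set_option autoImplicit false
set_option linter.unusedSectionVars false

open UpperHalfPlane ModularForm MatrixGroups Matrix.SpecialLinearGroup Filter Function
open scoped Manifold Topology Real

noncomputable section

namespace Fermat.Agent.AnJac

open Fermat.Agent.DimS2 Fermat.Agent.ModFun

local notation "𝕢" => Function.Periodic.qParam

/-! ### points -/

/-- the spot at a point -/
def Spot.pt (z : ℍ) : Spot where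
  ℓ := 𝓝[≠] z
  u := fun τ => (τ : ℂ) - z
  ne := inferInstance
  tend := by
    refine tendsto_nhdsWithin_iff.mpr ⟨?_, ?_⟩
    · have h : ContinuousAt (fun τ : ℍ => (τ : ℂ) - z) z :=
        (UpperHalfPlane.continuous_coe.sub continuous_const).continuousAt
      have := h.tendsto
      rw [sub_self] at this
      exact this.mono_left nhdsWithin_le_nhds
    · filter_upwards [self_mem_nhdsWithin] with τ hτ
      simp only [Set.mem_compl_iff, Set.mem_singleton_iff] at hτ ⊢
      rw [sub_eq_zero]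
      exact fun h => hτ (UpperHalfPlane.ext h)

lemma analytic_ofComplex {f : ℍ → ℂ} (hf : MDiff f) :
    AnalyticOnNhd ℂ (f ∘ ofComplex) {z : ℂ | 0 < z.im} :=
  (UpperHalfPlane.mdifferentiable_iff.mp hf).analyticOnNhd isOpen_upperHalfPlaneSet

lemma order_ne_top {f : ℍ → ℂ} (hf : MDiff f) (h0 : f ≠ 0) (z : ℍ) :
    analyticOrderAt (f ∘ ofComplex) z ≠ ⊤ := by
  intro h
  rw [analyticOrderAt_eq_top] at h
  apply h0
  refine eq_zero_of_frequently hf (τ := z) ?_
  apply Eventually.frequently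
  have h1 : ∀ᶠ τ : ℍ in 𝓝 z, (f ∘ ofComplex) (τ : ℂ) = 0 :=
    UpperHalfPlane.continuous_coe.continuousAt.eventually h
  refine (h1.filter_mono nhdsWithin_le_nhds).mono fun τ hτ => ?_
  simpa using hτ

/-- local factorisation -/
lemma exists_factor {f : ℍ → ℂ} (hf : MDiff f) (h0 : f ≠ 0) (z : ℍ) :
    ∃ h : ℂ → ℂ, AnalyticAt ℂ h z ∧ h z ≠ 0 ∧ ∀ᶠ τ : ℍ in 𝓝 z,
      f τ = ((τ : ℂ) - z) ^ (analyticOrderNatAt (f ∘ ofComplex) z) * h τ := by
  have ha := analytic_ofComplex hf z z.im_pos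
  obtain ⟨h, hh, hh0, hev⟩ := (ha.analyticOrderAt_ne_top).mp (order_ne_top hf h0 z)
  refine ⟨h, hh, hh0, ?_⟩
  have h1 := UpperHalfPlane.continuous_coe.continuousAt.eventually hev
  refine h1.mono fun τ hτ => ?_
  simpa using hτ

theorem Spot.hasOrd_pt {f : ℍ → ℂ} (hf : MDiff f) (h0 : f ≠ 0) (z : ℍ) :
    (Spot.pt z).HasOrd f (analyticOrderNatAt (f ∘ ofComplex) z) := by
  obtain ⟨h, hh, hh0, hev⟩ := exists_factor hf h0 z
  refine ⟨h z, hh0, ?_⟩
  have h2 : Tendsto (fun τ : ℍ => h τ) (𝓝[≠] z) (𝓝 (h z)) :=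
    (hh.continuousAt.tendsto.comp UpperHalfPlane.continuous_coe.continuousAt.tendsto).mono_left
      nhdsWithin_le_nhds
  refine h2.congr' ?_
  filter_upwards [hev.filter_mono nhdsWithin_le_nhds, (Spot.pt z).ev_ne] with τ hτ hτ0
  rw [hτ, zpow_natCast]
  change h τ = ((τ : ℂ) - z) ^ _ * h τ / ((τ : ℂ) - z) ^ _
  rw [mul_div_cancel_left₀]
  exact pow_ne_zero _ hτ0

/-! ### the cusp at infinity -/

/-- the spot at infinity with uniformizer `e^{2πiτ/N}` -/
def Spot.cusp (N : ℕ) (hN : 0 < N) : Spot where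
  ℓ := atImInfty
  u := fun τ => 𝕢 N τ
  ne := inferInstance
  tend := (Periodic.qParam_tendsto (by exact_mod_cast hN)).comp tendsto_coe_atImInfty

lemma Per.tendsto_div {h : ℝ} (hh : 0 < h) {f : ℍ → ℂ} (hf : Per h f) {m : ℕ}
    (hc : ∀ i < m, (qExpansion h f).coeff i = 0) :
    Tendsto (fun τ : ℍ => f τ / 𝕢 h τ ^ (m : ℤ)) atImInfty (𝓝 ((qExpansion h f).coeff m)) := by
  have h1 := hf.isBigO_cusp hh (m + 1)
  have h3 := h1.comp_tendsto (qParam_tendsto_atImInfty hh)
  have h4 : (fun τ : ℍ => f τ - (qExpansion h f).coeff m * 𝕢 h τ ^ m) =O[atImInfty]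
      fun τ : ℍ => ‖𝕢 h τ‖ ^ (m + 1) := by
    refine h3.congr_left fun τ => ?_
    simp only [comp_apply]
    rw [eq_cuspFunction τ hh.ne' hf.per, Finset.sum_range_succ, Finset.sum_eq_zero, zero_add]
    intro i hi
    rw [hc i (Finset.mem_range.mp hi), zero_mul]
  have h5 : (fun τ : ℍ => (f τ - (qExpansion h f).coeff m * 𝕢 h τ ^ m) / 𝕢 h τ ^ m) =O[atImInfty]
      fun τ : ℍ => 𝕢 h τ := by
    obtain ⟨C, hC⟩ := h4.bound
    refine Asymptotics.IsBigO.of_bound C ?_
    filter_upwards [hC] with τ hτ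
    have h0 : 0 < ‖𝕢 h τ‖ := norm_pos_iff.mpr (Periodic.qParam_ne_zero _)
    rw [norm_div, norm_pow, div_le_iff₀ (by positivity)]
    rw [norm_pow, norm_norm, pow_succ] at hτ
    calc _ ≤ _ := hτ
      _ = _ := by ring
  have h6 : Tendsto (fun τ : ℍ => (f τ - (qExpansion h f).coeff m * 𝕢 h τ ^ m) / 𝕢 h τ ^ m)
      atImInfty (𝓝 0) := h5.trans_tendsto (qParam_tendsto_atImInfty hh)
  have h7 := h6.add_const ((qExpansion h f).coeff m)
  rw [zero_add] at h7
  refine h7.congr fun τ => ?_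
  have h0 : 𝕢 h τ ^ m ≠ 0 := pow_ne_zero _ (Periodic.qParam_ne_zero _)
  rw [zpow_natCast]
  field_simp
  ring

lemma Per.exists_ord {h : ℝ} (hh : 0 < h) {f : ℍ → ℂ} (hf : Per h f) (h0 : f ≠ 0) :
    ∃ (m : ℕ) (c : ℂ), c ≠ 0 ∧ Tendsto (fun τ : ℍ => f τ / 𝕢 h τ ^ (m : ℤ)) atImInfty (𝓝 c) := by
  classical
  have hex : ∃ m : ℕ, (qExpansion h f).coeff m ≠ 0 := by
    by_contra hcon
    push Not at hcon
    apply h0
    ext τ
    have := hf.hasSum hh τ
    simp only [hcon, zero_smul] at this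
    exact (this.unique hasSum_zero)
  refine ⟨Nat.find hex, _, Nat.find_spec hex, Per.tendsto_div hh hf fun i hi => ?_⟩
  exact not_not.mp (Nat.find_min hex hi)

/-- discriminant at infinity -/
lemma disc_hasOrd (N : ℕ) (hN : 0 < N) : (Spot.cusp N hN).HasOrd discriminant N := by
  have hN' : (N : ℂ) ≠ 0 := by exact_mod_cast hN.ne'
  have h1 : Tendsto (fun τ : ℍ => discriminant τ / 𝕢 1 τ) atImInfty (𝓝 1) := by
    have h2 : ContinuousAt (pev (PowerSeries.pentagonalSeries ℂ ^ 24)) 0 :=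
      (differentiableOn_pev (pconv_pentagonal.pow 24)).continuousOn.continuousAt
        (Metric.ball_mem_nhds _ one_pos)
    have h3 := h2.tendsto.comp (qParam_tendsto_atImInfty one_pos)
    have h4 : pev (PowerSeries.pentagonalSeries ℂ ^ 24) 0 = 1 := by
      have h5 : pev (PowerSeries.pentagonalSeries ℂ ^ 24) 0 =
          PowerSeries.coeff 0 (PowerSeries.pentagonalSeries ℂ ^ 24) := by
        unfold pev
        rw [tsum_eq_single 0]
        · simp
        · intro n hn
          simp [hn]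
      rw [h5]
      have h6 : PowerSeries.constantCoeff (PowerSeries.pentagonalSeries ℂ) = 1 := by
        have := pev_pentagonal (z := 0) (by simp)
        have h7 : pev (PowerSeries.pentagonalSeries ℂ) 0 =
            PowerSeries.coeff 0 (PowerSeries.pentagonalSeries ℂ) := by
          unfold pev
          rw [tsum_eq_single 0]
          · simp
          · intro n hn
            simp [hn]
        rw [h7] at this
        rw [← PowerSeries.coeff_zero_eq_constantCoeff_apply, this]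
        simp
      rw [PowerSeries.coeff_zero_eq_constantCoeff_apply, map_pow, h6, one_pow]
    rw [h4] at h3
    refine h3.congr fun τ => ?_
    simp only [comp_apply]
    rw [pev_pow pconv_pentagonal (pdisc_q τ), pev_pentagonal (norm_q_lt_one τ), discriminant_eq,
      mul_div_cancel_left₀ _ (pdisc_q τ).ne_zero]
  refine ⟨1, one_ne_zero, h1.congr fun τ => ?_⟩
  have h2 : 𝕢 (N : ℝ) τ ^ (N : ℤ) = 𝕢 1 τ := by
    rw [zpow_natCast]
    simp only [Periodic.qParam]
    rw [← Complex.exp_nat_mul]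
    congr 1
    push_cast
    field_simp
  change discriminant τ / 𝕢 1 τ = discriminant τ / 𝕢 (N : ℝ) τ ^ (N : ℤ)
  rw [h2]

lemma Spot.HasOrd.of_mul {s : Spot} {f g : ℍ → ℂ} {r r' : ℤ} (h : s.HasOrd (f * g) r)
    (h' : s.HasOrd g r') : s.HasOrd f (r - r') := by
  obtain ⟨c, hc, hc'⟩ := h
  obtain ⟨d, hd, hd'⟩ := h'
  refine ⟨c / d, div_ne_zero hc hd, (hc'.div hd' hd).congr' ?_⟩
  filter_upwards [s.ev_ne, hd'.eventually_ne hd] with τ hτ hτ'
  have h1 := zpow_ne_zero r' hτ
  have h2 := zpow_ne_zero r hτ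
  have h3 : g τ ≠ 0 := by
    intro h; rw [h] at hτ'; simp at hτ'
  rw [Pi.div_apply, Pi.mul_apply, zpow_sub₀ hτ]
  field_simp

theorem Spot.hasOrd_cusp {N : ℕ} (hN : 0 < N) {f : ℍ → ℂ} (hf : MDiff f)
    (hper : ∀ τ, f (ModularGroup.T ^ N • τ) = f τ) (hmg : MG f) (h0 : f ≠ 0) :
    ∃ r : ℤ, (Spot.cusp N hN).HasOrd f r := by
  obtain ⟨m, hm⟩ := hmg
  have hN' : (0 : ℝ) < N := by exact_mod_cast hN
  have hd : ∀ τ, discriminant (ModularGroup.T ^ N • τ) = discriminant τ := by
    intro τ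
    have h1 := disc_isL1.apply_smul (ModularGroup.T ^ N) τ
    rw [ModularGroup.denom_apply] at h1
    rw [h1]
    have h2 : ((ModularGroup.T ^ N : SL(2, ℤ)) 1 0 : ℤ) = 0 := by
      have := ModularGroup.coe_T_zpow (N : ℤ)
      rw [zpow_natCast] at this
      rw [this]; rfl
    have h3 : ((ModularGroup.T ^ N : SL(2, ℤ)) 1 1 : ℤ) = 1 := by
      have := ModularGroup.coe_T_zpow (N : ℤ)
      rw [zpow_natCast] at this
      rw [this]; rfl
    rw [h2, h3]
    simp
  have hper' : Per N (f * discriminant ^ m) := by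
    refine ⟨?_, hf.mul (mdiff_pow disc_mdiff m), MG.bdd_mul_disc hm⟩
    refine periodic_of_vadd fun τ => ?_
    have e : ((N : ℝ) +ᵥ τ) = ModularGroup.T ^ N • τ := by
      have := modular_T_zpow_smul τ (N : ℤ)
      rw [zpow_natCast] at this
      rw [this]
      simp
    rw [e]
    change f (ModularGroup.T ^ N • τ) * discriminant (ModularGroup.T ^ N • τ) ^ m =
      f τ * discriminant τ ^ m
    rw [hper, hd]
  have hne : f * discriminant ^ m ≠ 0 := by
    intro h
    rcases (UpperHalfPlane.mul_eq_zero_iff hf (mdiff_pow disc_mdiff m)).mp h with h | h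
    · exact h0 h
    · exact pow_ne_zero m (discriminant_ne_zero UpperHalfPlane.I) (congrFun h _)
  obtain ⟨k, c, hc, hc'⟩ := Per.exists_ord hN' hper' hne
  exact ⟨_, Spot.HasOrd.of_mul ⟨c, hc, hc'⟩ ((disc_hasOrd N hN).pow m)⟩

end Fermat.Agent.AnJac
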