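import Mathlib

/-!
Spots: a filter on the upper half plane with a uniformizer; orders of functions by asymptotics.
-/

set_option autoImplicit false

open UpperHalfPlane MatrixGroups Filter Topology

noncomputable section

namespace Fermat.Agent.AnJac

/-- a filter together with a "uniformizer" -/
structure Spot where
  ℓ : Filter ℍ
  u : ℍ → ℂ
  ne : ℓ.NeBot
  tend : Tendsto u ℓ (𝓝[≠] 0)

namespace Spot

variable (s : Spot)

lemma ev_ne : ∀ᶠ τ in s.ℓ, s.u τ ≠ 0 :=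
  s.tend.eventually self_mem_nhdsWithin

lemma tend0 : Tendsto s.u s.ℓ (𝓝 0) := s.tend.mono_right nhdsWithin_le_nhds

/-- order -/
def HasOrd (g : ℍ → ℂ) (r : ℤ) : Prop :=
  ∃ c : ℂ, c ≠ 0 ∧ Tendsto (fun τ => g τ / s.u τ ^ r) s.ℓ (𝓝 c)

variable {s}

lemma tendsto_zpow_pos {m : ℤ} (hm : 0 < m) : Tendsto (fun τ => s.u τ ^ m) s.ℓ (𝓝 0) := by
  obtain ⟨n, rfl⟩ : ∃ n : ℕ, m = n := ⟨m.toNat, by omega⟩
  have hn : n ≠ 0 := by omega
  have := s.tend0.pow n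
  rw [zero_pow hn] at this
  simpa using this

lemma not_hasOrd_of_tendsto {g : ℍ → ℂ} {r r' : ℤ} (h : s.HasOrd g r) {c : ℂ}
    (hc : Tendsto (fun τ => g τ / s.u τ ^ r') s.ℓ (𝓝 c)) (hr : r < r') : False := by
  have := s.ne
  obtain ⟨d, hd, hd'⟩ := h
  have h1 : Tendsto (fun τ => (g τ / s.u τ ^ r') * s.u τ ^ (r' - r)) s.ℓ (𝓝 (c * 0)) :=
    hc.mul (tendsto_zpow_pos (by omega))
  rw [mul_zero] at h1
  have h2 : Tendsto (fun τ => g τ / s.u τ ^ r) s.ℓ (𝓝 0) := by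
    refine h1.congr' ?_
    filter_upwards [s.ev_ne] with τ hτ
    rw [div_mul_eq_mul_div, div_eq_div_iff (zpow_ne_zero _ hτ) (zpow_ne_zero _ hτ), mul_assoc,
      ← zpow_add₀ hτ]
    congr 2
    ring
  exact hd (tendsto_nhds_unique hd' h2)

lemma HasOrd.unique {g : ℍ → ℂ} {r r' : ℤ} (h : s.HasOrd g r) (h' : s.HasOrd g r') : r = r' := by
  obtain ⟨c, hc, hc'⟩ := h
  obtain ⟨d, hd, hd'⟩ := h'
  rcases lt_trichotomy r r' with h | h | h
  · exact (not_hasOrd_of_tendsto ⟨c, hc, hc'⟩ hd' h).elim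
  · exact h
  · exact (not_hasOrd_of_tendsto ⟨d, hd, hd'⟩ hc' h).elim

lemma HasOrd.mul {f g : ℍ → ℂ} {r r' : ℤ} (h : s.HasOrd f r) (h' : s.HasOrd g r') :
    s.HasOrd (f * g) (r + r') := by
  obtain ⟨c, hc, hc'⟩ := h
  obtain ⟨d, hd, hd'⟩ := h'
  refine ⟨c * d, mul_ne_zero hc hd, (hc'.mul hd').congr' ?_⟩
  filter_upwards [s.ev_ne] with τ hτ
  rw [Pi.mul_apply, zpow_add₀ hτ]
  have := zpow_ne_zero r hτ
  have := zpow_ne_zero r' hτ
  field_simp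

lemma hasOrd_const {c : ℂ} (hc : c ≠ 0) : s.HasOrd (fun _ => c) 0 :=
  ⟨c, hc, by simpa using tendsto_const_nhds⟩

lemma hasOrd_one : s.HasOrd (1 : ℍ → ℂ) 0 := hasOrd_const one_ne_zero

lemma HasOrd.pow {f : ℍ → ℂ} {r : ℤ} (h : s.HasOrd f r) (n : ℕ) : s.HasOrd (f ^ n) (n * r) := by
  induction n with
  | zero => simpa using hasOrd_one
  | succ n ih =>
    have := ih.mul h
    rw [pow_succ]
    convert this using 1
    push_cast; ring

lemma hasOrd_u : s.HasOrd s.u 1 := by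
  refine ⟨1, one_ne_zero, ?_⟩
  refine (tendsto_const_nhds (x := (1 : ℂ))).congr' ?_
  filter_upwards [s.ev_ne] with τ hτ
  rw [zpow_one, div_self hτ]

/-- boundedness below by an order -/
def Ge (s : Spot) (g : ℍ → ℂ) (r : ℤ) : Prop :=
  ∃ c : ℂ, Tendsto (fun τ => g τ / s.u τ ^ r) s.ℓ (𝓝 c)

lemma HasOrd.ge {f : ℍ → ℂ} {r r' : ℤ} (h : s.HasOrd f r) (hr : r' ≤ r) : s.Ge f r' := by
  obtain ⟨c, hc, hc'⟩ := h
  rcases eq_or_lt_of_le hr with rfl | hr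
  · exact ⟨c, hc'⟩
  · refine ⟨c * 0, (hc'.mul (tendsto_zpow_pos (show 0 < r - r' by omega))).congr' ?_⟩
    filter_upwards [s.ev_ne] with τ hτ
    rw [div_mul_eq_mul_div, div_eq_div_iff (zpow_ne_zero _ hτ) (zpow_ne_zero _ hτ), mul_assoc,
      ← zpow_add₀ hτ]
    congr 2
    ring

lemma HasOrd.le_of_ge {f : ℍ → ℂ} {r r' : ℤ} (h : s.HasOrd f r) (hr : s.Ge f r') : r' ≤ r := by
  by_contra hcon
  obtain ⟨c, hc⟩ := hr
  exact not_hasOrd_of_tendsto h hc (by omega)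

lemma Ge.add {f g : ℍ → ℂ} {r : ℤ} (h : s.Ge f r) (h' : s.Ge g r) : s.Ge (f + g) r := by
  obtain ⟨c, hc⟩ := h
  obtain ⟨d, hd⟩ := h'
  exact ⟨c + d, (hc.add hd).congr fun τ => by rw [Pi.add_apply, add_div]⟩

lemma Ge.mul {f g : ℍ → ℂ} {r r' : ℤ} (h : s.Ge f r) (h' : s.Ge g r') :
    s.Ge (f * g) (r + r') := by
  obtain ⟨c, hc⟩ := h
  obtain ⟨d, hd⟩ := h'
  refine ⟨c * d, (hc.mul hd).congr' ?_⟩
  filter_upwards [s.ev_ne] with τ hτ
  rw [Pi.mul_apply, zpow_add₀ hτ]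
  have := zpow_ne_zero r hτ
  have := zpow_ne_zero r' hτ
  field_simp

lemma ge_zero (r : ℤ) : s.Ge 0 r := ⟨0, by simpa using tendsto_const_nhds⟩

lemma ge_sum {ι : Type*} (t : Finset ι) {f : ι → ℍ → ℂ} {r : ℤ} (h : ∀ i ∈ t, s.Ge (f i) r) :
    s.Ge (∑ i ∈ t, f i) r := by
  classical
  induction t using Finset.induction_on with
  | empty => simpa using ge_zero r
  | insert a t ha ih =>
    rw [Finset.sum_insert ha]
    exact (h a (Finset.mem_insert_self _ _)).add (ih fun i hi => h i (Finset.mem_insert_of_mem hi))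

lemma ge_prod {ι : Type*} (t : Finset ι) {f : ι → ℍ → ℂ} {r : ι → ℤ}
    (h : ∀ i ∈ t, s.Ge (f i) (r i)) : s.Ge (∏ i ∈ t, f i) (∑ i ∈ t, r i) := by
  classical
  induction t using Finset.induction_on with
  | empty =>
    rw [Finset.prod_empty, Finset.sum_empty]
    exact hasOrd_one.ge le_rfl
  | insert a t ha ih =>
    rw [Finset.prod_insert ha, Finset.sum_insert ha]
    exact (h a (Finset.mem_insert_self _ _)).mul (ih fun i hi => h i (Finset.mem_insert_of_mem hi))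

lemma Ge.smul {f : ℍ → ℂ} {r : ℤ} (c : ℂ) (h : s.Ge f r) : s.Ge (c • f) r := by
  obtain ⟨d, hd⟩ := h
  exact ⟨c * d, (hd.const_mul c).congr fun τ => by rw [Pi.smul_apply, smul_eq_mul, mul_div_assoc]⟩

lemma HasOrd.add {f g : ℍ → ℂ} {r r' r'' : ℤ} (h : s.HasOrd f r) (h' : s.HasOrd g r')
    (h'' : s.HasOrd (f + g) r'') : min r r' ≤ r'' :=
  h''.le_of_ge ((h.ge (min_le_left _ _)).add (h'.ge (min_le_right _ _)))

lemma HasOrd.of_pow {f : ℍ → ℂ} {r r' : ℤ} {n : ℕ} (h : s.HasOrd f r) (h' : s.HasOrd (f ^ n) r') :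
    r' = n * r := h'.unique (h.pow n)

lemma HasOrd.ne_zero {f : ℍ → ℂ} {r : ℤ} (h : s.HasOrd f r) : f ≠ 0 := by
  rintro rfl
  have := s.ne
  obtain ⟨c, hc, hc'⟩ := h
  refine hc (tendsto_nhds_unique hc' ?_)
  simp

/-- translate of a spot -/
def smul (g : SL(2,ℤ)) (s : Spot) : Spot where
  ℓ := s.ℓ.map (fun τ => g • τ)
  u := fun τ => s.u (g⁻¹ • τ)
  ne := by have := s.ne; infer_instance
  tend := by
    rw [tendsto_map'_iff]
    refine s.tend.congr fun τ => ?_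
    simp

lemma hasOrd_smul {g : SL(2,ℤ)} {f : ℍ → ℂ} {r : ℤ} :
    (smul g s).HasOrd f r ↔ s.HasOrd (fun τ => f (g • τ)) r := by
  unfold HasOrd
  simp only [smul, tendsto_map'_iff]
  constructor
  · rintro ⟨c, hc, h⟩
    refine ⟨c, hc, h.congr fun τ => ?_⟩
    simp
  · rintro ⟨c, hc, h⟩
    refine ⟨c, hc, h.congr fun τ => ?_⟩
    simp

/-- comparison with a transformation preserving the spot -/
lemma HasOrd.eq_of_transform {f : ℍ → ℂ} {r : ℤ} (h : s.HasOrd f r) {φ : ℍ → ℍ}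
    (hφ : Tendsto φ s.ℓ s.ℓ) {μ : ℂ} (hμ : Tendsto (fun τ => s.u (φ τ) / s.u τ) s.ℓ (𝓝 μ))
    (hμ0 : μ ≠ 0) {c : ℂ} (hc : ∀ τ, f (φ τ) = c * f τ) : c = μ ^ r := by
  have := s.ne
  obtain ⟨d, hd, hd'⟩ := h
  have h1 : Tendsto (fun τ => f (φ τ) / s.u (φ τ) ^ r) s.ℓ (𝓝 d) := hd'.comp hφ
  have h2 : Tendsto (fun τ => (s.u (φ τ) / s.u τ) ^ r) s.ℓ (𝓝 (μ ^ r)) := hμ.zpow₀ _ (Or.inl hμ0)
  have h3 := h1.mul h2
  have h4 : Tendsto (fun τ => f (φ τ) / s.u (φ τ) ^ r * (s.u (φ τ) / s.u τ) ^ r) s.ℓ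
      (𝓝 (c * d)) := by
    refine (hd'.const_mul c).congr' ?_
    filter_upwards [s.ev_ne, hφ.eventually s.ev_ne] with τ hτ hτ'
    rw [hc, div_zpow]
    have := zpow_ne_zero r hτ
    have := zpow_ne_zero r hτ'
    field_simp
  have h5 := tendsto_nhds_unique h3 h4
  have h6 : d * (μ ^ r - c) = 0 := by linear_combination h5
  rcases mul_eq_zero.mp h6 with h | h
  · exact absurd h hd
  · exact (sub_eq_zero.mp h).symm

end Spot

end Fermat.Agent.AnJac
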