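import Fermat.Agent.AnJac.Field
import Fermat.Agent.AnJac.NthRoot
import Fermat.Agent.GenusX0.Places

/-!
Spots attached to uniformising data, roots on the upper half plane.
-/

set_option autoImplicit false
set_option linter.unusedSectionVars false

open UpperHalfPlane ModularForm MatrixGroups Matrix.SpecialLinearGroup Filter Function
open scoped Manifold Topology Real ComplexConjugate

noncomputable section

namespace Fermat.Agent.AnJac

open Fermat.Agent.DimS2 Fermat.Agent.ModFun CongruenceSubgroup Fermat.Agent.GenusX0 AlgebraicCurve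
open Fermat.Agent.Curves hiding ord_pow

local notation "𝕢" => Function.Periodic.qParam

/-- the spot of a uniformising datum -/
def Spot.ud (U : UD) : Spot where
  ℓ := comap U.u (𝓝[≠] 0)
  u := U.u
  ne := by
    rw [comap_neBot_iff]
    intro t ht
    have h1 : ∀ᶠ z : ℂ in 𝓝[≠] 0, z ∈ t ∧ ‖z‖ < 1 ∧ z ≠ 0 := by
      have h2 : ∀ᶠ z : ℂ in 𝓝[≠] 0, ‖z‖ < 1 := by
        refine Filter.Eventually.filter_mono nhdsWithin_le_nhds ?_
        have := Metric.ball_mem_nhds (0:ℂ) one_pos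
        filter_upwards [this] with z hz
        simpa using hz
      filter_upwards [ht, h2, self_mem_nhdsWithin] with z hz hz' hz''
      exact ⟨hz, hz', hz''⟩
    obtain ⟨z, hz, hz1, hz0⟩ := h1.exists
    obtain ⟨τ, hτ⟩ := U.surj z ⟨norm_pos_iff.mpr hz0, hz1⟩
    exact ⟨τ, by rw [hτ]; exact hz⟩
  tend := tendsto_comap

lemma HasExp.hasOrd {U : UD} {f : ℍ → ℂ} {F : LaurentSeries ℂ} (h : HasExp U f F) (hF : F ≠ 0) :
    (Spot.ud U).HasOrd f F.order := by
  set Q := F.powerSeriesPart with hQ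
  have hQF : HahnSeries.single F.order 1 * HahnSeries.ofPowerSeries ℤ ℂ Q = F :=
    LaurentSeries.single_order_mul_powerSeriesPart F
  have hQc : HahnSeries.ofPowerSeries ℤ ℂ Q ∈ convLaurent := by
    rw [LaurentSeries.ofPowerSeries_powerSeriesPart]
    exact convLaurent.mul_mem (single_mem_convLaurent _ _) h.1
  have hQp : PConv Q := PConv.of_mem_convLaurent hQc
  have hQ0 : pev Q 0 ≠ 0 := by
    rw [pev_zero, ← PowerSeries.coeff_zero_eq_constantCoeff_apply,
      LaurentSeries.powerSeriesPart_coeff]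
    simpa using HahnSeries.coeff_order_eq_zero.not.mpr hF
  refine ⟨pev Q 0, hQ0, ?_⟩
  have hc : ContinuousAt (pev Q) 0 :=
    (differentiableOn_pev hQp).continuousOn.continuousAt (Metric.ball_mem_nhds _ one_pos)
  have h1 : Tendsto (fun τ : ℍ => pev Q (U.u τ)) (comap U.u (𝓝[≠] 0)) (𝓝 (pev Q 0)) :=
    hc.tendsto.comp (Spot.ud U).tend0
  refine h1.congr' ?_
  filter_upwards [(Spot.ud U).ev_ne] with τ hτ
  change pev Q (U.u τ) = f τ / U.u τ ^ F.order
  have hτ' : U.u τ ≠ 0 := hτ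
  have h5 : evf F (U.u τ) = U.u τ ^ F.order * pev Q (U.u τ) := by
    conv_lhs => rw [← hQF]
    rw [evf_mul hτ' (convAt_single _ _ _) (hQc _ (U.pdisc hτ')), evf_single, evf_ofPowerSeries,
      one_mul]
    rfl
  rw [← h.2 τ hτ', h5, mul_div_cancel_left₀ _ (zpow_ne_zero _ hτ')]

/-- orders of holomorphic functions at points -/
theorem Spot.hasOrd_ud_pt (P : PtData) {f : ℍ → ℂ} (hf : MDiff f) (h0 : f ≠ 0) :
    (Spot.ud P.toUD).HasOrd f (analyticOrderNatAt (f ∘ ofComplex) P.pt) := by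
  obtain ⟨G, hG, hG2, hE⟩ := exists_hasExp_of_mdiff P hf
  have hne : HahnSeries.ofPowerSeries ℤ ℂ G ≠ 0 := by
    intro h
    apply h0
    have hG0 : G = 0 := by
      apply HahnSeries.ofPowerSeries_injective (Γ := ℤ) (R := ℂ)
      rw [h, map_zero]
    ext τ
    rw [← hG2, hG0]
    simp [pev]
  have ha := analytic_ofComplex hf P.pt P.pt.im_pos
  have h2 := hE.order_eq hne ha.meromorphicAt
  rw [ha.meromorphicOrderAt_eq, ← Nat.cast_analyticOrderNatAt (order_ne_top hf h0 P.pt),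
    ENat.map_natCast] at h2
  have h3 : (analyticOrderNatAt (f ∘ ofComplex) P.pt : ℤ) =
      (HahnSeries.ofPowerSeries ℤ ℂ G).order := by
    exact_mod_cast h2
  rw [h3]
  exact HasExp.hasOrd hE hne

lemma comap_qParam_le (N : ℕ) [NeZero N] :
    comap (fun τ : ℍ => 𝕢 N τ) (𝓝[≠] 0) ≤ atImInfty := by
  rw [atImInfty, ← tendsto_iff_comap]
  have hN : (0:ℝ) < N := by exact_mod_cast Nat.pos_of_ne_zero (NeZero.ne N)
  have h1 : Tendsto (fun τ : ℍ => Real.log ‖𝕢 N τ‖) (comap (fun τ : ℍ => 𝕢 N τ) (𝓝[≠] 0)) atBot := by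
    have h2 : Tendsto (fun z : ℂ => Real.log ‖z‖) (𝓝[≠] 0) atBot :=
      Real.tendsto_log_nhdsNE_zero.comp (tendsto_norm_nhdsNE_zero.mono_right
        (nhdsWithin_mono _ (fun x (hx : 0 < x) => ne_of_gt hx)))
    exact h2.comp tendsto_comap
  have h3 : ∀ τ : ℍ, τ.im = (-(N / (2 * π))) * Real.log ‖𝕢 N τ‖ := by
    intro τ
    rw [norm_qParam_eq, Real.log_exp]
    have := Real.pi_pos
    field_simp
  have h4 : (UpperHalfPlane.im) = fun τ : ℍ => (-(N / (2 * π))) * Real.log ‖𝕢 N τ‖ := funext h3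
  rw [h4]
  exact h1.const_mul_atBot_of_neg (by
    have := Real.pi_pos
    have : 0 < (N:ℝ) / (2 * π) := by positivity
    linarith)

theorem Spot.hasOrd_ud_cusp (N : ℕ) [NeZero N] {f : ℍ → ℂ} (hf : MDiff f)
    (hper : ∀ τ, f (ModularGroup.T ^ N • τ) = f τ) (hmg : MG f) (h0 : f ≠ 0) :
    ∃ r : ℤ, (Spot.ud (cuspUD N)).HasOrd f r := by
  obtain ⟨r, c, hc, h⟩ := Spot.hasOrd_cusp (Nat.pos_of_ne_zero (NeZero.ne N)) hf hper hmg h0
  exact ⟨r, c, hc, h.mono_left (comap_qParam_le N)⟩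

/-! ### change of level of cusps -/

lemma hasOrd_cusp_mul {N n : ℕ} [NeZero N] [NeZero n] {f : ℍ → ℂ} {r : ℤ}
    (h : (Spot.ud (cuspUD N)).HasOrd f r) :
    haveI : NeZero (n * N) := ⟨mul_ne_zero (NeZero.ne n) (NeZero.ne N)⟩
    (Spot.ud (cuspUD (n * N))).HasOrd f (n * r) := by
  haveI : NeZero (n * N) := ⟨mul_ne_zero (NeZero.ne n) (NeZero.ne N)⟩
  obtain ⟨c, hc, h⟩ := h
  refine ⟨c, hc, ?_⟩
  have hu : ∀ τ : ℍ, (cuspUD N).u τ = (cuspUD (n * N)).u τ ^ n := by
    intro τ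
    change 𝕢 N τ = 𝕢 ((n * N : ℕ) : ℝ) τ ^ n
    simp only [Periodic.qParam]
    rw [← Complex.exp_nat_mul]
    congr 1
    have h1 : (N : ℂ) ≠ 0 := by exact_mod_cast NeZero.ne N
    have h2 : (n : ℂ) ≠ 0 := by exact_mod_cast NeZero.ne n
    push_cast
    field_simp
  have hle : Tendsto id (comap (cuspUD (n * N)).u (𝓝[≠] 0)) (comap (cuspUD N).u (𝓝[≠] 0)) := by
    rw [tendsto_comap_iff]
    have e : (cuspUD N).u ∘ id = (fun z : ℂ => z ^ n) ∘ (cuspUD (n * N)).u := by
      funext τ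
      simp only [comp_apply, id]
      exact hu τ
    rw [e]
    refine Tendsto.comp ?_ tendsto_comap
    refine tendsto_nhdsWithin_iff.mpr ⟨?_, ?_⟩
    · have : Tendsto (fun z : ℂ => z ^ n) (𝓝 0) (𝓝 (0 ^ n)) := (continuous_pow n).tendsto 0
      rw [zero_pow (NeZero.ne n)] at this
      exact this.mono_left nhdsWithin_le_nhds
    · filter_upwards [self_mem_nhdsWithin] with z hz
      exact pow_ne_zero n hz
  refine (h.comp hle).congr fun τ => ?_
  simp only [comp_apply, id]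
  change f τ / (cuspUD N).u τ ^ r = f τ / (cuspUD (n * N)).u τ ^ ((n : ℤ) * r)
  rw [hu, zpow_mul, zpow_natCast]

/-! ### roots -/

theorem exists_root_H {f : ℍ → ℂ} {n : ℕ} (hn : n ≠ 0) (hf : MDiff f) (h0 : f ≠ 0)
    (hdvd : ∀ z : ℍ, n ∣ analyticOrderNatAt (f ∘ ofComplex) z) :
    ∃ G : ℍ → ℂ, MDiff G ∧ G ^ n = f := by
  obtain ⟨τ₀, hτ₀⟩ : ∃ τ, f τ ≠ 0 := by
    by_contra h
    push Not at h
    exact h0 (funext h)
  have hcayd : ∀ w ∈ Metric.ball (0:ℂ) 1, DifferentiableAt ℂ (cayG τ₀) w := by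
    intro w hw
    have hw' : ‖w‖ < 1 := by simpa using hw
    have h0 := one_sub_ne_zero hw'
    unfold cayG
    exact DifferentiableAt.div (by fun_prop) (by fun_prop) h0
  have hcayim : ∀ w ∈ Metric.ball (0:ℂ) 1, 0 < (cayG τ₀ w).im := by
    intro w hw
    exact im_cayG_pos τ₀.im_pos (by simpa using hw)
  have hcayd' : DifferentiableOn ℂ (cayG τ₀) (Metric.ball 0 1) := fun w hw =>
    (hcayd w hw).differentiableWithinAt
  have hF : DifferentiableOn ℂ (f ∘ ofComplex) {z | 0 < z.im} :=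
    UpperHalfPlane.mdifferentiable_iff.mp hf
  obtain ⟨G, hG, hGn⟩ := exists_root_unitDisc (f := (f ∘ ofComplex) ∘ cayG τ₀) hn
    (hF.comp hcayd' hcayim) (by
      simp only [comp_apply]
      rw [cayG_zero, ofComplex_apply]
      exact hτ₀) (by
      intro w hw
      have ha : AnalyticAt ℂ (cayG τ₀) w := hcayd'.analyticAt (Metric.isOpen_ball.mem_nhds hw)
      have hd : deriv (cayG τ₀) w ≠ 0 := by
        -- `cayF ∘ cayG = id` near `w`
        have h1 : (cayF τ₀ ∘ cayG τ₀) =ᶠ[𝓝 w] id := by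
          filter_upwards [Metric.isOpen_ball.mem_nhds hw] with w' hw'
          exact cayF_cayG τ₀.im_pos (by simpa using hw')
        have h2 : HasDerivAt (cayF τ₀ ∘ cayG τ₀) 1 w := (hasDerivAt_id w).congr_of_eventuallyEq h1
        have h3 : DifferentiableAt ℂ (cayF τ₀) (cayG τ₀ w) := by
          unfold cayF
          exact DifferentiableAt.div (by fun_prop) (by fun_prop)
            (sub_conj_ne_zero τ₀.im_pos (hcayim w hw))
        have h4 := h3.hasDerivAt.comp w (hcayd w hw).hasDerivAt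
        have h5 := h4.unique h2
        intro h6
        rw [h6, mul_zero] at h5
        exact zero_ne_one h5
      have h1 := analyticOrderAt_comp_of_deriv_ne_zero (f := f ∘ ofComplex) ha hd
      have h2 := hdvd ⟨cayG τ₀ w, hcayim w hw⟩
      rw [analyticOrderNatAt, h1]
      exact h2)
  refine ⟨fun τ => G (cay τ₀ τ), ?_, ?_⟩
  · rw [UpperHalfPlane.mdifferentiable_iff]
    have h1 : DifferentiableOn ℂ (fun z => G (cayF τ₀ z)) {z | 0 < z.im} := by
      refine hG.comp (t := Metric.ball 0 1) ?_ ?_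
      · intro z hz
        refine DifferentiableAt.differentiableWithinAt ?_
        unfold cayF
        exact DifferentiableAt.div (by fun_prop) (by fun_prop) (sub_conj_ne_zero τ₀.im_pos hz)
      · intro z hz
        simpa using norm_cayF_lt τ₀.im_pos hz
    refine h1.congr fun z hz => ?_
    simp only [comp_apply]
    rw [ofComplex_apply_of_im_pos hz]
    rfl
  · ext τ
    have h1 := hGn (cay τ₀ τ) (by simpa [cay] using norm_cayF_lt τ₀.im_pos τ.im_pos)
    rw [Pi.pow_apply, h1]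
    simp only [comp_apply]
    rw [cay, cayG_cayF τ₀.im_pos τ.im_pos, ofComplex_apply]

theorem exists_root_scalar {A B : ℍ → ℂ} {n : ℕ} (hn : n ≠ 0) (hA : MDiff A) (hB : MDiff B)
    (h0 : B ≠ 0) (h : A ^ n = B ^ n) : ∃ μ : ℂˣ, μ ^ n = 1 ∧ ∀ τ, A τ = μ * B τ := by
  obtain ⟨τ₀, hτ₀⟩ : ∃ τ, B τ ≠ 0 := by
    by_contra h
    push Not at h
    exact h0 (funext h)
  have hh : ∀ τ, A τ ^ n = B τ ^ n := fun τ => congrFun h τ
  have hA0 : A τ₀ ≠ 0 := by
    intro h1
    have := hh τ₀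
    rw [h1, zero_pow hn] at this
    exact hτ₀ (pow_eq_zero_iff hn |>.mp this.symm)
  set μ : ℂˣ := Units.mk0 (A τ₀ / B τ₀) (div_ne_zero hA0 hτ₀) with hμ
  have hμn : (μ : ℂ) ^ n = 1 := by
    rw [hμ, Units.val_mk0, div_pow, hh, div_self (pow_ne_zero n hτ₀)]
  refine ⟨μ, by ext; rw [Units.val_pow_eq_pow_val, hμn, Units.val_one], ?_⟩
  have h1 := UpperHalfPlane.mdifferentiable_iff.mp hA
  have h2 := UpperHalfPlane.mdifferentiable_iff.mp hB
  have h3 := root_unique (A := A ∘ ofComplex) (B := fun z => μ * (B ∘ ofComplex) z)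
    isOpen_upperHalfPlaneSet
    (convex_halfSpace_im_gt 0).isPreconnected hn h1 (h2.const_mul _) (fun z hz => by
      simp only [comp_apply]
      rw [mul_pow, hμn, one_mul, hh]) (z₀ := (τ₀ : ℂ)) τ₀.im_pos (by
      simp only [comp_apply]
      rw [ofComplex_apply, hμ, Units.val_mk0, div_mul_cancel₀ _ hτ₀]) (by
      simp only [comp_apply]
      rw [ofComplex_apply]
      exact hA0)
  intro τ
  have := h3 τ.im_pos
  simp only [comp_apply] at this
  rwa [ofComplex_apply] at this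

end Fermat.Agent.AnJac
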